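import Fermat.Agent.S16.Reduce
import Fermat.Agent.S49.QCoeff

/-!
# S16 [D2] : Hecke polynomials and the `a₁`-duality between the Hecke algebra and the lattice
-/

set_option autoImplicit false

open ModularCurve CuspForm CongruenceSubgroup ModularFormClass

namespace Fermat.Agent.S16Lib

open Fermat.Agent.S49Lib

/-! ### abstract duality -/

theorem exists_smul_eq_of_pairing {L R : Type*} [AddCommGroup L] [AddCommGroup R]
    [Module.Free ℤ L] [Module.Finite ℤ L] [Module.Free ℤ R] [Module.Finite ℤ R]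
    (B : L →ₗ[ℤ] R →ₗ[ℤ] ℤ) (hL : Function.Injective B) (hR : Function.Injective B.flip)
    (φ : R →ₗ[ℤ] ℤ) :
    ∃ (d : ℤ) (f : L), d ≠ 0 ∧ B f = d • φ := by
  have h1 : Module.finrank ℤ R ≤ Module.finrank ℤ L := by
    have := LinearMap.finrank_le_finrank_of_injective hR
    rwa [Module.finrank_linearMap, Module.finrank_self, mul_one] at this
  have h2 : Module.finrank ℤ (LinearMap.range B) = Module.finrank ℤ L :=
    LinearMap.finrank_range_of_inj hL
  have h3 := (LinearMap.range B).finrank_quotient_add_finrank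
  rw [Module.finrank_linearMap, Module.finrank_self, mul_one, h2] at h3
  have h4 : Module.finrank ℤ ((R →ₗ[ℤ] ℤ) ⧸ LinearMap.range B) = 0 := by omega
  rw [Module.finrank_eq_zero_iff_isTorsion] at h4
  obtain ⟨d, hd⟩ := @h4 (Submodule.Quotient.mk φ)
  have hd0 : (d : ℤ) ≠ 0 := nonZeroDivisors.coe_ne_zero d
  have h5 : (d : ℤ) • φ ∈ LinearMap.range B := by
    rw [← Submodule.Quotient.mk_eq_zero, Submodule.Quotient.mk_smul]
    exact hd
  obtain ⟨f, hf⟩ := h5
  exact ⟨d, f, hd0, hf⟩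

/-! ### divisor sums -/

theorem sig_eq_sum (p k : ℕ) : sig p k = ∑ d ∈ k.divisors, if p ∣ d then 0 else d := by
  unfold sig
  rw [Finset.sum_filter]
  refine Finset.sum_congr rfl fun d _ => ?_
  by_cases h : p ∣ d <;> simp [h]

theorem sig_one_of_prime {p : ℕ} (hp : p.Prime) : sig p 1 = 1 := by
  rw [sig_eq_sum]
  simp [hp.one_lt.ne']

theorem sig_p_mul {p : ℕ} (hp : p.Prime) (k : ℕ) : sig p (p * k) = sig p k := by
  unfold sig
  rcases Nat.eq_zero_or_pos k with rfl | hk
  · simp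
  congr 1
  ext d
  simp only [Finset.mem_filter, Nat.mem_divisors]
  constructor
  · rintro ⟨⟨h1, _⟩, h2⟩
    refine ⟨⟨?_, hk.ne'⟩, h2⟩
    exact (((Nat.Prime.coprime_iff_not_dvd hp).mpr h2).symm).dvd_of_dvd_mul_left h1
  · rintro ⟨⟨h1, _⟩, h2⟩
    exact ⟨⟨Dvd.dvd.mul_left h1 p, Nat.mul_ne_zero hp.ne_zero hk.ne'⟩, h2⟩

theorem sig_prime_mul {p : ℕ} (hp : p.Prime) {ℓ : ℕ} (hℓ : ℓ.Prime) (hne : ℓ ≠ p) (k : ℕ) :
    sig p (ℓ * k) + ℓ * (if ℓ ∣ k then sig p (k / ℓ) else 0) = (1 + ℓ) * sig p k := by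
  rcases Nat.eq_zero_or_pos k with rfl | hk
  · simp [sig]
  set g : ℕ → ℕ := fun d => if p ∣ d then 0 else d with hg
  have hgl : ∀ d, g (ℓ * d) = ℓ * g d := by
    intro d
    simp only [hg]
    have : p ∣ ℓ * d ↔ p ∣ d := by
      constructor
      · intro h
        rcases (Nat.Prime.dvd_mul hp).mp h with h | h
        · exact absurd ((Nat.prime_dvd_prime_iff_eq hp hℓ).mp h).symm hne
        · exact h
      · intro h
        exact Dvd.dvd.mul_left h ℓ
    by_cases h : p ∣ d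
    · simp [h, this]
    · simp [h, this]
  have hinj : Set.InjOn (fun d => ℓ * d) (k.divisors : Set ℕ) := fun a _ b _ h =>
    Nat.eq_of_mul_eq_mul_left hℓ.pos h
  have hinj' : Set.InjOn (fun d => ℓ * d) ((k / ℓ).divisors : Set ℕ) := fun a _ b _ h =>
    Nat.eq_of_mul_eq_mul_left hℓ.pos h
  have hU : (ℓ * k).divisors = k.divisors ∪ k.divisors.image (fun d => ℓ * d) := by
    ext d
    simp only [Finset.mem_union, Finset.mem_image, Nat.mem_divisors]
    constructor
    · rintro ⟨h1, _⟩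
      by_cases hd : ℓ ∣ d
      · obtain ⟨e, rfl⟩ := hd
        exact Or.inr ⟨e, ⟨Nat.dvd_of_mul_dvd_mul_left hℓ.pos h1, hk.ne'⟩, rfl⟩
      · exact Or.inl ⟨(((Nat.Prime.coprime_iff_not_dvd hℓ).mpr hd).symm).dvd_of_dvd_mul_left h1,
          hk.ne'⟩
    · rintro (⟨h1, _⟩ | ⟨e, ⟨h1, _⟩, rfl⟩)
      · exact ⟨Dvd.dvd.mul_left h1 ℓ, Nat.mul_ne_zero hℓ.ne_zero hk.ne'⟩
      · exact ⟨Nat.mul_dvd_mul_left ℓ h1, Nat.mul_ne_zero hℓ.ne_zero hk.ne'⟩
  have hI : k.divisors ∩ k.divisors.image (fun d => ℓ * d) =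
      if ℓ ∣ k then (k / ℓ).divisors.image (fun d => ℓ * d) else ∅ := by
    split_ifs with hlk
    · obtain ⟨m, rfl⟩ := hlk
      have hm : m ≠ 0 := by
        rintro rfl
        simp at hk
      rw [Nat.mul_div_cancel_left m hℓ.pos]
      ext d
      simp only [Finset.mem_inter, Finset.mem_image, Nat.mem_divisors]
      constructor
      · rintro ⟨⟨h1, _⟩, e, _, rfl⟩
        exact ⟨e, ⟨Nat.dvd_of_mul_dvd_mul_left hℓ.pos h1, hm⟩, rfl⟩
      · rintro ⟨e, ⟨h1, _⟩, rfl⟩
        exact ⟨⟨Nat.mul_dvd_mul_left ℓ h1, hk.ne'⟩, e, ⟨Dvd.dvd.mul_left h1 ℓ, hk.ne'⟩, rfl⟩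
    · ext d
      simp only [Finset.mem_inter, Finset.mem_image, Nat.mem_divisors, Finset.notMem_empty,
        iff_false]
      rintro ⟨⟨h1, _⟩, e, _, rfl⟩
      exact hlk (dvd_trans (Dvd.intro e rfl) h1)
  have hsum := Finset.sum_union_inter (s₁ := k.divisors)
    (s₂ := k.divisors.image (fun d => ℓ * d)) (f := g)
  rw [← hU, hI, Finset.sum_image hinj] at hsum
  simp only [hgl, ← Finset.mul_sum] at hsum
  rw [sig_eq_sum, sig_eq_sum p k]
  split_ifs at hsum ⊢ with hlk
  · rw [Finset.sum_image hinj'] at hsum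
    simp only [hgl, ← Finset.mul_sum] at hsum
    rw [sig_eq_sum]
    rw [hsum]
    ring
  · rw [Finset.sum_empty] at hsum
    rw [mul_zero, hsum]
    ring

/-! ### Hecke polynomials -/

/-- the action of `ℤ[X_ℓ]` on `S₂(Γ₀(p))` -/
noncomputable def evHom (p : ℕ) [NeZero p] :
    HeckeAlg →+* Module.End ℂ (CuspForm (Gamma0 p) 2) :=
  (heckeAlgebra p 2 ∅).val.toRingHom.comp (heckeEvalForms p 2)

theorem evHom_apply (p : ℕ) [NeZero p] (P : HeckeAlg) :
    evHom p P = (heckeEvalForms p 2 P : Module.End ℂ (CuspForm (Gamma0 p) 2)) := rfl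

theorem evHom_C (p : ℕ) [NeZero p] (a : ℤ) (f : CuspForm (Gamma0 p) 2) :
    evHom p (MvPolynomial.C a) f = (a : ℂ) • f := by
  rw [evHom_apply, heckeEvalForms_C]
  show (algebraMap ℤ (Module.End ℂ (CuspForm (Gamma0 p) 2)) a) f = _
  rw [Module.algebraMap_end_apply, Int.cast_smul_eq_zsmul]

theorem exists_heckePoly (p : ℕ) [Fact p.Prime] (k : ℕ) (hk : 1 ≤ k) :
    ∃ P : HeckeAlg, (∀ f : CuspForm (Gamma0 p) 2, qCoeff (evHom p P f) 1 = qCoeff f k) ∧
      eisEval p P = (sig p k : ℤ) := by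
  have hp : p.Prime := Fact.out
  induction k using Nat.strong_induction_on with
  | _ k ih =>
    rcases Nat.eq_or_lt_of_le hk with rfl | hk1
    · refine ⟨1, fun f => ?_, ?_⟩
      · rw [map_one]; rfl
      · rw [map_one, sig_one_of_prime hp]; rfl
    · have hℓ : k.minFac.Prime := Nat.minFac_prime hk1.ne'
      set ℓ := k.minFac with hℓdef
      obtain ⟨m, hm⟩ : ℓ ∣ k := Nat.minFac_dvd k
      have hm1 : 1 ≤ m := by
        rcases Nat.eq_zero_or_pos m with rfl | h
        · omega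
        · exact h
      have hmk : m < k := by
        rw [hm]
        exact lt_mul_of_one_lt_left hm1 hℓ.one_lt
      obtain ⟨Pm, hPm, hPm'⟩ := ih m hmk hm1
      by_cases hℓp : ℓ = p
      · -- `U_p`
        have hdvd : ((⟨ℓ, hℓ⟩ : Nat.Primes) : ℕ) ∣ p := hℓp ▸ dvd_refl ℓ
        refine ⟨Pm * heckeGen ⟨ℓ, hℓ⟩, fun f => ?_, ?_⟩
        · rw [map_mul, Module.End.mul_apply, hPm, evHom_apply,
            heckeEvalForms_heckeGen_of_dvd hdvd, heckeAlgebra.coe_U,
            qCoeff_heckeULin hℓ hdvd, hm]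
        · have h1 : sig p (ℓ * m) = sig p m := by rw [hℓp, sig_p_mul hp]
          rw [map_mul, hPm', hm, h1]
          unfold eisEval
          rw [aeval_heckeGen, eisensteinSystem_of_dvd hdvd, mul_one]
      · have hndvd : ¬ ((⟨ℓ, hℓ⟩ : Nat.Primes) : ℕ) ∣ p := by
          intro h
          exact hℓp ((Nat.prime_dvd_prime_iff_eq hℓ hp).mp h)
        have hsig := sig_prime_mul hp hℓ hℓp m
        have hX : eisEval p (heckeGen ⟨ℓ, hℓ⟩) = 1 + (ℓ : ℤ) := by
          unfold eisEval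
          rw [aeval_heckeGen, eisensteinSystem_of_not_dvd hndvd]
        by_cases hlm : ℓ ∣ m
        · have hml : 1 ≤ m / ℓ := by
            obtain ⟨e, rfl⟩ := hlm
            rw [Nat.mul_div_cancel_left e hℓ.pos]
            rcases Nat.eq_zero_or_pos e with rfl | h
            · omega
            · exact h
          have hmlk : m / ℓ < k := lt_of_le_of_lt (Nat.div_le_self m ℓ) hmk
          obtain ⟨Pe, hPe, hPe'⟩ := ih (m / ℓ) hmlk hml
          refine ⟨Pm * heckeGen ⟨ℓ, hℓ⟩ - MvPolynomial.C (ℓ : ℤ) * Pe, fun f => ?_, ?_⟩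
          · rw [map_sub, map_mul, map_mul, LinearMap.sub_apply, Module.End.mul_apply,
              Module.End.mul_apply, evHom_C, ← qCoeffLin_apply, map_sub, map_smul,
              qCoeffLin_apply, qCoeffLin_apply, hPm, hPe, evHom_apply,
              heckeEvalForms_heckeGen_of_not_dvd hndvd, heckeAlgebra.coe_T,
              qCoeff_heckeTLin hℓ hndvd, if_pos hlm, hm]
            simp
          · rw [map_sub, map_mul, map_mul, hPm', hPe', hX, eisEval_C, hm]
            rw [if_pos hlm] at hsig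
            have : ((sig p (ℓ * m) : ℕ) : ℤ) + ℓ * sig p (m / ℓ) = (1 + ℓ) * sig p m := by
              exact_mod_cast hsig
            linarith
        · refine ⟨Pm * heckeGen ⟨ℓ, hℓ⟩, fun f => ?_, ?_⟩
          · rw [map_mul, Module.End.mul_apply, hPm, evHom_apply,
              heckeEvalForms_heckeGen_of_not_dvd hndvd, heckeAlgebra.coe_T,
              qCoeff_heckeTLin hℓ hndvd, if_neg hlm, hm]
            simp
          · rw [map_mul, hPm', hX, hm]
            rw [if_neg hlm] at hsig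
            have : ((sig p (ℓ * m) : ℕ) : ℤ) = (1 + ℓ) * sig p m := by
              exact_mod_cast hsig
            linarith

/-! ### the pairing -/

theorem exists_int_qCoeff (N k : ℕ) (f : ↥(intLattice N 2)) :
    ∃ m : ℤ, qCoeff (f : CuspForm (Gamma0 N) 2) k = (m : ℂ) := by
  have h : (f : CuspForm (Gamma0 N) 2) ∈ intSub N := intLattice_eq_intSub N ▸ f.2
  exact h k

/-- the integral `q`-coefficients on the lattice -/
noncomputable def intCoeff (N k : ℕ) : ↥(intLattice N 2) →ₗ[ℤ] ℤ where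
  toFun f := (exists_int_qCoeff N k f).choose
  map_add' f g := by
    have h1 := (exists_int_qCoeff N k f).choose_spec
    have h2 := (exists_int_qCoeff N k g).choose_spec
    have h3 := (exists_int_qCoeff N k (f + g)).choose_spec
    have h4 : qCoeff ((f + g : ↥(intLattice N 2)) : CuspForm (Gamma0 N) 2) k =
        qCoeff (f : CuspForm (Gamma0 N) 2) k + qCoeff (g : CuspForm (Gamma0 N) 2) k :=
      qCoeff_add _ _ k
    rw [h1, h2, h3] at h4
    exact_mod_cast h4
  map_smul' c f := by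
    have h1 := (exists_int_qCoeff N k f).choose_spec
    have h3 := (exists_int_qCoeff N k (c • f)).choose_spec
    have h4 : qCoeff ((c • f : ↥(intLattice N 2)) : CuspForm (Gamma0 N) 2) k =
        (c : ℂ) * qCoeff (f : CuspForm (Gamma0 N) 2) k := by
      rw [← qCoeff_smul, Submodule.coe_smul, Int.cast_smul_eq_zsmul]
    rw [h1, h3] at h4
    simp only [RingHom.id_apply, smul_eq_mul]
    exact_mod_cast h4

theorem intCoeff_spec (N k : ℕ) (f : ↥(intLattice N 2)) :
    ((intCoeff N k f : ℤ) : ℂ) = qCoeff (f : CuspForm (Gamma0 N) 2) k :=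
  (exists_int_qCoeff N k f).choose_spec.symm

theorem coe_piHom_apply (p : ℕ) [NeZero p] (P : HeckeAlg) (f : ↥(intLattice p 2)) :
    (((piHom p P : Module.End ℤ ↥(intLattice p 2)) f : ↥(intLattice p 2)) :
      CuspForm (Gamma0 p) 2) = evHom p P (f : CuspForm (Gamma0 p) 2) := rfl

/-- the `a₁`-pairing -/
noncomputable def a1Pairing (p : ℕ) [NeZero p] :
    ↥(intLattice p 2) →ₗ[ℤ] ↥(heckeLatticeAlgebra p ∅) →ₗ[ℤ] ℤ :=
  LinearMap.mk₂ ℤ (fun f t => intCoeff p 1 ((t : Module.End ℤ ↥(intLattice p 2)) f))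
    (fun f g t => by rw [map_add, map_add])
    (fun c f t => by rw [map_smul, map_smul])
    (fun f s t => by
      rw [← map_add]
      rfl)
    (fun c f t => by
      rw [← map_smul]
      rfl)

theorem a1Pairing_apply (p : ℕ) [NeZero p] (f : ↥(intLattice p 2))
    (t : ↥(heckeLatticeAlgebra p ∅)) :
    a1Pairing p f t = intCoeff p 1 ((t : Module.End ℤ ↥(intLattice p 2)) f) := rfl

variable (p : ℕ) [Fact p.Prime]

theorem intCoeff_eq_pairing (k : ℕ) (hk : 1 ≤ k) :
    ∃ P : HeckeAlg, (∀ f : ↥(intLattice p 2), a1Pairing p f (piHom p P) = intCoeff p k f) ∧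
      eisEval p P = (sig p k : ℤ) := by
  obtain ⟨P, hP, hP'⟩ := exists_heckePoly p k hk
  refine ⟨P, fun f => ?_, hP'⟩
  have : ((a1Pairing p f (piHom p P) : ℤ) : ℂ) = (intCoeff p k f : ℤ) := by
    rw [a1Pairing_apply, intCoeff_spec, intCoeff_spec, coe_piHom_apply, hP]
  exact_mod_cast this

omit [Fact p.Prime] in
theorem eq_zero_of_intCoeff (f : ↥(intLattice p 2)) (h : ∀ k, 1 ≤ k → intCoeff p k f = 0) :
    f = 0 := by
  apply Subtype.ext
  apply eq_zero_of_qCoeff
  intro n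
  rcases Nat.eq_zero_or_pos n with rfl | hn
  · exact qCoeff_zero_idx _
  · rw [← intCoeff_spec, h n hn, Int.cast_zero]

theorem a1Pairing_injective : Function.Injective (a1Pairing p) := by
  rw [injective_iff_map_eq_zero]
  intro f hf
  apply eq_zero_of_intCoeff
  intro k hk
  obtain ⟨P, hP, -⟩ := intCoeff_eq_pairing p k hk
  rw [← hP, hf]
  rfl

theorem a1Pairing_flip_injective : Function.Injective (a1Pairing p).flip := by
  rw [injective_iff_map_eq_zero]
  intro t ht
  apply Subtype.ext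
  apply LinearMap.ext
  intro f
  apply eq_zero_of_intCoeff
  intro k hk
  obtain ⟨P, hP, -⟩ := intCoeff_eq_pairing p k hk
  rw [← hP, a1Pairing_apply]
  have h1 : (piHom p P : Module.End ℤ ↥(intLattice p 2))
      ((t : Module.End ℤ ↥(intLattice p 2)) f) =
      (t : Module.End ℤ ↥(intLattice p 2)) ((piHom p P : Module.End ℤ ↥(intLattice p 2)) f) := by
    have h2 := congrArg (fun s : ↥(heckeLatticeAlgebra p ∅) =>
      (s : Module.End ℤ ↥(intLattice p 2)) f) (mul_comm (piHom p P) t)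
    exact h2
  rw [h1]
  have h3 := LinearMap.congr_fun ht ((piHom p P : Module.End ℤ ↥(intLattice p 2)) f)
  exact h3

/-- an additive lift of the Eisenstein character mod `M` -/
theorem exists_lift_eis (M : ℕ)
    (h : ∀ P : HeckeAlg, piHom p P = 0 → (M : ℤ) ∣ eisEval p P) :
    ∃ φ : ↥(heckeLatticeAlgebra p ∅) →ₗ[ℤ] ℤ,
      ∀ P : HeckeAlg, (M : ℤ) ∣ φ (piHom p P) - eisEval p P := by
  classical
  let b := Module.Free.chooseBasis ℤ ↥(heckeLatticeAlgebra p ∅)
  choose Pc hPc using fun i => piHom_surjective p (b i)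
  refine ⟨b.constr ℤ (fun i => eisEval p (Pc i)), fun P => ?_⟩
  set Q : HeckeAlg := ∑ i, b.repr (piHom p P) i • Pc i with hQ
  have h1 : piHom p Q = piHom p P := by
    rw [hQ, map_sum]
    conv_rhs => rw [← b.sum_repr (piHom p P)]
    refine Finset.sum_congr rfl fun i _ => ?_
    rw [map_zsmul, hPc]
  have h2 : eisEval p Q = b.constr ℤ (fun i => eisEval p (Pc i)) (piHom p P) := by
    rw [hQ, map_sum, Module.Basis.constr_apply_fintype]
    refine Finset.sum_congr rfl fun i _ => ?_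
    rw [map_zsmul]
    rfl
  have h3 := h (Q - P) (by rw [map_sub, h1, sub_self])
  rw [map_sub, h2] at h3
  exact h3

/-- [D2] -/
theorem exists_form_of_ker (M : ℕ)
    (h : ∀ P : HeckeAlg, piHom p P = 0 → (M : ℤ) ∣ eisEval p P) :
    ∃ f : CuspForm (Gamma0 p) 2, IsEisCongr p M f := by
  obtain ⟨φ, hφ⟩ := exists_lift_eis p M h
  have := intLattice.moduleFinite p
  have := intLattice.moduleFree p
  obtain ⟨d, f₀, hd, hf₀⟩ := exists_smul_eq_of_pairing (a1Pairing p) (a1Pairing_injective p)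
    (a1Pairing_flip_injective p) φ
  refine ⟨((d : ℂ)⁻¹) • (f₀ : CuspForm (Gamma0 p) 2), fun k hk => ?_⟩
  obtain ⟨P, hP, hP'⟩ := intCoeff_eq_pairing p k hk
  refine ⟨φ (piHom p P), ?_, ?_⟩
  · rw [qCoeff_smul, ← intCoeff_spec, ← hP, hf₀]
    have hd' : (d : ℂ) ≠ 0 := by exact_mod_cast hd
    rw [LinearMap.smul_apply, smul_eq_mul]
    push_cast
    field_simp
  · rw [← hP']
    exact hφ P

end Fermat.Agent.S16Lib
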