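import Fermat.Agent.S16.Parab
import Fermat.Agent.S21.Inj
import Fermat.Agent.S21

/-!
# S16 : [LB-K]  (version with `ψ` as a hypothesis)
-/

set_option autoImplicit false

open UpperHalfPlane hiding I
open ModularCurve CongruenceSubgroup ModularGroup
open ModularCurve.Period
open scoped MatrixGroups ComplexConjugate

namespace Fermat.Agent.S16Lib

open Fermat.Agent.S21Lib

variable (p : ℕ) [Fact p.Prime]

/-- a homomorphism `Γ₀(p) → ℂ` killing `T` vanishes on every `γ` all of whose periods vanish. -/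
theorem chi_eq_zero_of_per_eq_zero (χ : Additive (Gamma0 p) →+ ℂ)
    (hχ : χ (Additive.ofMul (TG p)) = 0)
    (γ : Gamma0 p) (h : ∀ f : CuspForm (Gamma0 p) 2, per f γ = 0) :
    χ (Additive.ofMul γ) = 0 := by
  have h1 : χ ∈ LinearMap.range (periodHomPair p) := by
    rw [(Fermat.Agent.S21.result p).2]
    exact mem_parabolicHoms_of_T p χ hχ
  obtain ⟨⟨f1, f2⟩, hf⟩ := h1
  have hj : ∀ f : CuspForm (Gamma0 p) 2, per f (jConjGamma0 p γ) = 0 := by
    intro f
    have := per_conjForm f γ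
    rw [h, eq_comm, neg_eq_zero, map_eq_zero] at this
    exact this
  rw [← hf, periodHomPair_apply, h, h, hj, hj]
  simp

theorem dvd_mu_of_per_eq_zero_aux {μ : Additive (Gamma0 p) →+ ℤ} {EE : ℍ → ℂ} (hμ : IsMu p μ EE)
    (ψ : Additive (Gamma0 p) →+ ℤ) (hψ : ψ (Additive.ofMul (TG p)) = 1)
    (γ : Gamma0 p) (h : ∀ f : CuspForm (Gamma0 p) 2, per f γ = 0) :
    ((p : ℤ) - 1) ∣ μ (Additive.ofMul γ) := by
  have h0 := chi_eq_zero_of_per_eq_zero p ((Int.castAddHom ℂ).comp (((p : ℤ) - 1) • ψ - μ))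
    (by simp [hψ, hμ.atT]) γ h
  simp only [AddMonoidHom.comp_apply, AddMonoidHom.sub_apply, AddMonoidHom.smul_apply,
    Int.coe_castAddHom, Int.cast_eq_zero, smul_eq_mul] at h0
  exact ⟨ψ (Additive.ofMul γ), by linarith⟩

end Fermat.Agent.S16Lib
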