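import Fermat.Agent.S16.Defs
import Fermat.Agent.S21.Prim

/-!
# S16 : the Dedekind-Rademacher homomorphism of `η(pτ)/η(τ)`
-/

set_option autoImplicit false

open UpperHalfPlane hiding I
open ModularCurve CuspForm CongruenceSubgroup ModularFormClass ModularForm EisensteinSeries
open Complex Filter Function
open scoped MatrixGroups Real Manifold Topology

namespace Fermat.Agent.S16Lib

open Fermat.Agent.S22Lib Fermat.Agent.S21Lib

namespace Mu

local notation "𝕢" => Periodic.qParam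

theorem E2_periodic : Periodic (E2 ∘ ofComplex) (1 : ℝ) := by
  intro w
  by_cases hw : 0 < im w
  · have hw' : 0 < im (w + (1:ℝ)) := by simpa using hw
    simp only [comp_apply, ofComplex_apply_of_im_pos hw', ofComplex_apply_of_im_pos hw]
    rw [E2_eq_tsum_cexp, E2_eq_tsum_cexp]
    have : cexp (2 * ↑π * I * (w + (1:ℝ))) = cexp (2 * π * I * w) := by
      rw [mul_add, Complex.exp_add]
      simp [Complex.exp_two_pi_mul_I]
    simp only [this]
  · have hw1 : im w ≤ 0 := not_lt.mp hw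
    have hw' : im (w + (1:ℝ)) ≤ 0 := by simpa using hw1
    simp only [comp_apply, ofComplex_apply_of_im_nonpos hw', ofComplex_apply_of_im_nonpos hw1]

theorem E2_tendsto : Tendsto E2 atImInfty (𝓝 1) := by
  have han : AnalyticAt ℂ (cuspFunction 1 E2) 0 :=
    analyticAt_cuspFunction_zero one_pos E2_periodic E2_mdifferentiable isBoundedAtImInfty_E2
  have hs : ∀ τ : ℍ, HasSum (fun m : ℕ ↦
      (if m = 0 then 1 else -24 * ArithmeticFunction.sigma 1 m : ℂ) • 𝕢 1 τ ^ m) (E2 τ) :=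
    fun τ => by
      simpa only [Function.Periodic.qParam, ofReal_one, div_one] using
        hasSum_qExpansion_E2 (z := τ)
  have h1 := hasFPowerSeriesOnBall_cuspFunction one_pos han hs
  have h0 : cuspFunction 1 E2 0 = 1 := by
    have := h1.coeff_zero ![]
    simpa [FormalMultilinearSeries.ofScalars] using this.symm
  have := han.continuousAt.tendsto.comp (qParam_tendsto_atImInfty one_pos)
  rw [h0] at this
  refine this.congr fun τ => ?_
  exact eq_cuspFunction τ one_ne_zero E2_periodic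

theorem E2_sub_one_mem : E2 - 1 ∈ decaySubmodule 1 := by
  refine ⟨E2_mdifferentiable.sub mdifferentiable_const, ?_, ?_⟩
  · intro w
    have := E2_periodic w
    simp only [comp_apply, Pi.sub_apply, Pi.one_apply] at this ⊢
    rw [this]
  · have := E2_tendsto.sub (tendsto_const_nhds (x := (1:ℂ)))
    rw [sub_self] at this
    exact this

theorem diag_smul_eq (p : ℕ) (hp : p ≠ 0) (τ : ℍ) :
    heckeDiagMatrix p • τ = ofComplex ((p : ℂ) * τ) := by
  have him : 0 < ((p : ℂ) * τ).im := by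
    rw [← coe_heckeDiagMatrix_smul hp]
    exact (heckeDiagMatrix p • τ).im_pos
  ext
  rw [ofComplex_apply_of_im_pos him, coe_heckeDiagMatrix_smul hp]

theorem im_nat_mul_pos (p : ℕ) (hp : p ≠ 0) {z : ℂ} (hz : 0 < z.im) : 0 < ((p : ℂ) * z).im := by
  have : (0:ℝ) < p := by exact_mod_cast Nat.pos_of_ne_zero hp
  simpa using mul_pos this hz

theorem vp_mem_decay (p : ℕ) (hp : p ≠ 0) {g : ℍ → ℂ} (hg : g ∈ decaySubmodule 1) :
    vp p g ∈ decaySubmodule 1 := by
  obtain ⟨h1, h2, h3⟩ := hg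
  refine ⟨?_, ?_, ?_⟩
  · exact h1.comp (mdifferentiable_smul (det_heckeDiagMatrix_pos p))
  · intro w
    by_cases hw : 0 < im w
    · have hw' : 0 < im (w + (1:ℝ)) := by simpa using hw
      simp only [comp_apply, vp, diag_smul_eq p hp, ofComplex_apply_of_im_pos hw',
        ofComplex_apply_of_im_pos hw]
      have := (h2.nat_mul p) ((p:ℂ) * w)
      simp only [comp_apply] at this
      rw [← this]
      congr 2
      push_cast
      ring
    · have hw1 : im w ≤ 0 := not_lt.mp hw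
      have hw' : im (w + (1:ℝ)) ≤ 0 := by simpa using hw1
      simp only [comp_apply, ofComplex_apply_of_im_nonpos hw', ofComplex_apply_of_im_nonpos hw1]
  · have ht : Tendsto (fun τ : ℍ => heckeDiagMatrix p • τ) atImInfty atImInfty := by
      rw [atImInfty, tendsto_comap_iff]
      have : (UpperHalfPlane.im ∘ fun τ : ℍ => heckeDiagMatrix p • τ) = fun τ : ℍ => (p:ℝ) * τ.im := by
        funext τ
        have := congrArg Complex.im (coe_heckeDiagMatrix_smul hp τ)
        simpa using this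
      rw [this]
      have hp' : (0:ℝ) < p := by exact_mod_cast Nat.pos_of_ne_zero hp
      exact (tendsto_comap (f := UpperHalfPlane.im) (x := atTop)).const_mul_atTop hp'
    exact h3.comp ht

theorem eisFun_sub_mem (p : ℕ) (hp : p ≠ 0) :
    (eisFun p - fun _ => ((p : ℂ) - 1) / 24) ∈ decaySubmodule 1 := by
  have h1 := vp_mem_decay p hp E2_sub_one_mem
  have h2 := (decaySubmodule 1).smul_mem ((1:ℂ) / 24)
    ((decaySubmodule 1).sub_mem ((decaySubmodule 1).smul_mem (p : ℂ) h1) E2_sub_one_mem)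
  convert h2 using 1
  funext τ
  simp only [eisFun, vp, Pi.sub_apply, Pi.smul_apply, smul_eq_mul, Pi.one_apply]
  ring

theorem isPrim_coe : IsPrim (fun τ : ℍ => (τ : ℂ)) (fun _ => 1) := fun τ =>
  hasDerivAt_coe_ofComplex τ

/-- a primitive of `2πi E`, with the right behaviour under `τ ↦ τ + 1` -/
theorem exists_EE (p : ℕ) (hp : p ≠ 0) : ∃ EE : ℍ → ℂ,
    IsPrim EE (fun τ => 2 * π * I * eisFun p τ) ∧
    ∀ τ : ℍ, EE ((1 : ℝ) +ᵥ τ) - EE τ = 2 * π * I / 24 * ((p : ℂ) - 1) := by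
  obtain ⟨G, hG, hGp⟩ := exists_prim one_pos (eisFun_sub_mem p hp)
  refine ⟨fun τ => 2 * π * I * (((p : ℂ) - 1) / 24 * τ + G τ), ?_, ?_⟩
  · have h1 := ((isPrim_coe.const_smul (((p : ℂ) - 1) / 24)).add hGp).const_smul (2 * π * I)
    intro τ
    have := h1 τ
    simp only [Pi.smul_apply, Pi.add_apply, Pi.sub_apply, smul_eq_mul, mul_one,
      add_sub_cancel] at this
    exact this
  · intro τ
    have h2 := hG.2.1 (τ : ℂ)
    simp only [comp_apply, ofComplex_apply] at h2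
    have h3 : ofComplex ((τ : ℂ) + (1:ℝ)) = (1 : ℝ) +ᵥ τ := by
      have : ((τ : ℂ) + (1:ℝ)) = (((1 : ℝ) +ᵥ τ : ℍ) : ℂ) := by
        rw [coe_vadd]; ring
      rw [this, ofComplex_apply]
    rw [h3] at h2
    simp only []
    rw [h2, coe_vadd]
    push_cast
    ring

theorem hasDerivAt_eta (τ : ℍ) : HasDerivAt ModularForm.eta ((π * I / 12) * E2 τ * ModularForm.eta τ) (τ : ℂ) := by
  have hd := differentiableAt_eta_of_mem_upperHalfPlaneSet (z := (τ : ℂ)) τ.im_pos
  have h := logDeriv_eta_eq_E2 τ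
  have hne : ModularForm.eta τ ≠ 0 := eta_ne_zero τ.im_pos
  rw [logDeriv_apply, div_eq_iff hne] at h
  rw [← h]
  exact hd.hasDerivAt

/-- `η(pτ)/η(τ) = C exp(EE τ)` -/
theorem eta_quot_eq (p : ℕ) (hp : p ≠ 0) {EE : ℍ → ℂ}
    (hE : IsPrim EE (fun τ => 2 * π * I * eisFun p τ)) :
    ∃ C : ℂ, C ≠ 0 ∧ ∀ τ : ℍ, ModularForm.eta ((p : ℂ) * τ) / ModularForm.eta τ = C * cexp (EE τ) := by
  set K : ℍ → ℂ := fun τ => ModularForm.eta ((p : ℂ) * τ) / ModularForm.eta τ * cexp (-EE τ) with hK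
  have hKp : IsPrim K 0 := by
    intro τ
    have hne : ModularForm.eta τ ≠ 0 := eta_ne_zero τ.im_pos
    have h1 : HasDerivAt (fun z : ℂ => ModularForm.eta ((p : ℂ) * z))
        ((π * I / 12) * E2 (heckeDiagMatrix p • τ) * ModularForm.eta ((p : ℂ) * τ) * p) (τ : ℂ) := by
      have h0 := hasDerivAt_eta (heckeDiagMatrix p • τ)
      rw [coe_heckeDiagMatrix_smul hp] at h0
      have h00 : HasDerivAt (fun z : ℂ => (p : ℂ) * z) (p : ℂ) (τ : ℂ) := by
        simpa using (hasDerivAt_id (τ : ℂ)).const_mul (p : ℂ)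
      exact h0.comp (τ : ℂ) h00
    have h2 := (h1.div (hasDerivAt_eta τ) hne).mul ((hE τ).neg.cexp)
    have h3 : (0 : ℍ → ℂ) τ = ((π * I / 12) * E2 (heckeDiagMatrix p • τ) * ModularForm.eta ((p : ℂ) * τ) * p *
        ModularForm.eta τ - ModularForm.eta ((p : ℂ) * τ) * ((π * I / 12) * E2 τ * ModularForm.eta τ)) / ModularForm.eta τ ^ 2 *
        cexp (-(EE ∘ ofComplex) (τ : ℂ)) + ModularForm.eta ((p : ℂ) * τ) / ModularForm.eta τ *
        (cexp (-(EE ∘ ofComplex) (τ : ℂ)) * -(2 * π * I * eisFun p τ)) := by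
      simp only [eisFun, vp, Pi.zero_apply]
      field_simp
      ring
    rw [h3]
    refine h2.congr_of_eventuallyEq ?_
    filter_upwards [eventuallyEq_coe_comp_ofComplex τ.im_pos] with z hz
    simp only [comp_apply, id] at hz
    simp only [hK, comp_apply, Pi.mul_apply, Pi.div_apply, Pi.neg_apply, hz]
  refine ⟨K UpperHalfPlane.I, ?_, fun τ => ?_⟩
  · refine mul_ne_zero (div_ne_zero (eta_ne_zero ?_) (eta_ne_zero UpperHalfPlane.I.im_pos))
      (Complex.exp_ne_zero _)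
    exact im_nat_mul_pos p hp UpperHalfPlane.I.im_pos
  · rw [← hKp.eq_of_zero τ UpperHalfPlane.I]
    simp only [hK]
    rw [mul_assoc, ← Complex.exp_add, neg_add_cancel, Complex.exp_zero, mul_one]

/-- the conjugate `[[a, pb],[c/p, d]]` of `γ ∈ Γ₀(p)` -/
theorem exists_conj (p : ℕ) (hp : p ≠ 0) (γ : Gamma0 p) : ∃ γ' : SL(2, ℤ), ∀ τ : ℍ,
    heckeDiagMatrix p • ((γ : SL(2, ℤ)) • τ) = γ' • (heckeDiagMatrix p • τ) ∧
    denom (γ' : GL (Fin 2) ℝ) ((heckeDiagMatrix p • τ : ℍ) : ℂ) =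
      denom ((γ : SL(2, ℤ)) : GL (Fin 2) ℝ) τ := by
  have hmem := γ.2
  rw [Gamma0_mem, ZMod.intCast_zmod_eq_zero_iff_dvd] at hmem
  obtain ⟨c', hc'⟩ := hmem
  have hdet := Matrix.SpecialLinearGroup.det_coe (γ : SL(2, ℤ))
  rw [Matrix.det_fin_two] at hdet
  refine ⟨⟨!![(γ : SL(2, ℤ)) 0 0, p * (γ : SL(2, ℤ)) 0 1; c', (γ : SL(2, ℤ)) 1 1], ?_⟩, ?_⟩
  · rw [Matrix.det_fin_two_of]
    rw [hc'] at hdet
    linear_combination hdet
  · intro τ
    have hden : denom ((γ : SL(2, ℤ)) : GL (Fin 2) ℝ) τ ≠ 0 := denom_ne_zero _ _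
    rw [ModularGroup.denom_apply] at hden
    constructor
    · ext
      rw [coe_heckeDiagMatrix_smul hp, coe_specialLinearGroup_apply,
        coe_specialLinearGroup_apply, coe_heckeDiagMatrix_smul hp]
      simp only [Matrix.of_apply, Matrix.cons_val_zero,
        Matrix.cons_val_one, Matrix.cons_val', Matrix.cons_val_fin_one, algebraMap_int_eq,
        eq_intCast, hc'] at hden ⊢
      push_cast at hden ⊢
      have hden' : (c' : ℂ) * ((p : ℂ) * τ) + ((γ : SL(2, ℤ)) 1 1 : ℂ) ≠ 0 := by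
        convert hden using 1
        ring
      field_simp
    · rw [ModularGroup.denom_apply, ModularGroup.denom_apply, coe_heckeDiagMatrix_smul hp]
      simp only [Matrix.of_apply, Matrix.cons_val_zero,
        Matrix.cons_val_one, Matrix.cons_val', Matrix.cons_val_fin_one, hc']
      push_cast
      ring

/-- `Δ(pτ)/Δ(τ)` is `Γ₀(p)`-invariant -/
theorem disc_quot_inv (p : ℕ) (hp : p ≠ 0) (γ : Gamma0 p) (τ : ℍ) :
    ModularForm.discriminant (heckeDiagMatrix p • ((γ : SL(2, ℤ)) • τ)) / ModularForm.discriminant ((γ : SL(2, ℤ)) • τ) =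
      ModularForm.discriminant (heckeDiagMatrix p • τ) / ModularForm.discriminant τ := by
  obtain ⟨γ', h⟩ := exists_conj p hp γ
  have hS : ∀ (g : SL(2, ℤ)) (z : ℍ),
      ModularForm.discriminant (g • z) = (denom (g : GL (Fin 2) ℝ) z) ^ (12 : ℤ) * ModularForm.discriminant z :=
    fun g z => SlashInvariantForm.slash_action_eqn'' CuspForm.discriminant
      (⟨g, rfl⟩ : (g : GL (Fin 2) ℝ) ∈ 𝒮ℒ) z
  rw [(h τ).1, hS, hS, (h τ).2]
  have hden : denom ((γ : SL(2, ℤ)) : GL (Fin 2) ℝ) τ ≠ 0 := denom_ne_zero _ _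
  rw [mul_div_mul_left _ _ (zpow_ne_zero _ hden)]

theorem exp_EE_inv (p : ℕ) (hp : p ≠ 0) {EE : ℍ → ℂ}
    (hE : IsPrim EE (fun τ => 2 * π * I * eisFun p τ)) (γ : Gamma0 p) (τ : ℍ) :
    cexp (24 * (EE ((γ : SL(2, ℤ)) • τ) - EE τ)) = 1 := by
  obtain ⟨C, hC, h⟩ := eta_quot_eq p hp hE
  have h1 : ∀ z : ℍ, ModularForm.discriminant (heckeDiagMatrix p • z) / ModularForm.discriminant z
      = C ^ 24 * cexp (EE z) ^ 24 := by
    intro z
    rw [← mul_pow, ← h z, div_pow]
    simp only [ModularForm.discriminant, coe_heckeDiagMatrix_smul hp]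
  have h2 := disc_quot_inv p hp γ τ
  rw [h1, h1] at h2
  have h3 := mul_left_cancel₀ (pow_ne_zero 24 hC) h2
  rw [mul_sub, Complex.exp_sub]
  rw [← Complex.exp_nat_mul, ← Complex.exp_nat_mul] at h3
  push_cast at h3
  rw [h3, div_self (Complex.exp_ne_zero _)]

theorem EE_diff (p : ℕ) (hp : p ≠ 0) {EE : ℍ → ℂ}
    (hE : IsPrim EE (fun τ => 2 * π * I * eisFun p τ)) (γ : Gamma0 p) :
    ∃ n : ℤ, ∀ τ : ℍ, EE ((γ : SL(2, ℤ)) • τ) - EE τ = 2 * π * I / 24 * (n : ℂ) := by
  have h1 : ∀ τ : ℍ, ∃ n : ℤ, 24 * (EE ((γ : SL(2, ℤ)) • τ) - EE τ) = n * (2 * π * I) :=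
    fun τ => Complex.exp_eq_one_iff.1 (exp_EE_inv p hp hE γ τ)
  choose n hn using h1
  have hcE : Continuous EE := hE.mdiff.continuous
  have hc : Continuous n := by
    rw [Int.isClosedEmbedding_coe_real.isEmbedding.continuous_iff]
    have : ((fun k : ℤ => (k : ℝ)) ∘ n) =
        fun τ => (24 * (EE ((γ : SL(2, ℤ)) • τ) - EE τ) / (2 * π * I)).re := by
      funext τ
      rw [hn τ, mul_div_assoc, div_self two_pi_I_ne_zero]
      simp
    rw [this]
    refine Complex.continuous_re.comp ((continuous_const.mul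
      ((hcE.comp ?_).sub hcE)).div_const _)
    exact continuous_const_smul (((γ : SL(2, ℤ)) : GL (Fin 2) ℝ))
  refine ⟨n UpperHalfPlane.I, fun τ => ?_⟩
  have h2 : n τ = n UpperHalfPlane.I := PreconnectedSpace.constant inferInstance hc
  have h3 := hn τ
  rw [h2] at h3
  linear_combination (1 / 24 : ℂ) * h3

end Mu

open Mu in
theorem exists_isMu (p : ℕ) [Fact p.Prime] :
    ∃ (μ : Additive (Gamma0 p) →+ ℤ) (EE : ℍ → ℂ), IsMu p μ EE := by
  have hp : p ≠ 0 := (Fact.out : p.Prime).ne_zero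
  obtain ⟨EE, hE, hT⟩ := exists_EE p hp
  choose m hm using EE_diff p hp hE
  have hc : (2 * π * I / 24 : ℂ) ≠ 0 := div_ne_zero two_pi_I_ne_zero (by norm_num)
  refine ⟨AddMonoidHom.mk' (fun γ => m (Additive.toMul γ)) ?_, EE, ⟨hE, fun γ τ => hm γ τ, ?_⟩⟩
  · intro a b
    have h1 := hm (Additive.toMul a * Additive.toMul b) UpperHalfPlane.I
    have h2 := hm (Additive.toMul a) (((Additive.toMul b : Gamma0 p) : SL(2, ℤ)) • UpperHalfPlane.I)
    have h3 := hm (Additive.toMul b) UpperHalfPlane.I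
    rw [Subgroup.coe_mul, mul_smul] at h1
    have h4 : (2 * π * I / 24 : ℂ) * (m (Additive.toMul a * Additive.toMul b) : ℂ) =
        (2 * π * I / 24 : ℂ) * ((m (Additive.toMul a) + m (Additive.toMul b) : ℤ) : ℂ) := by
      push_cast
      rw [← h1, mul_add, ← h2, ← h3]
      ring
    have h5 := mul_left_cancel₀ hc h4
    rw [toMul_add]
    exact_mod_cast h5
  · have h1 := hm (TG p) UpperHalfPlane.I
    have h2 : ((TG p : Gamma0 p) : SL(2, ℤ)) • UpperHalfPlane.I = (1 : ℝ) +ᵥ UpperHalfPlane.I :=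
      modular_T_smul _
    rw [h2, hT] at h1
    have h3 := mul_left_cancel₀ hc h1
    simp only [AddMonoidHom.mk'_apply, toMul_ofMul]
    exact_mod_cast h3.symm

end Fermat.Agent.S16Lib
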