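import Fermat.Agent.S16.Defs

/-!
# S16 [LB-psi] : a homomorphism `ψ : Γ₀(p) → ℤ` with `ψ(T) = 1`

`ψ(γ)` counts (with signs) the `Γ₀(p)`-translates of the imaginary axis which separate `τ₀`
from `γ τ₀`.
-/

set_option autoImplicit false

open UpperHalfPlane hiding I
open CongruenceSubgroup
open scoped MatrixGroups Real

namespace Fermat.Agent.S16Lib

/-! ### the abstract wall-crossing homomorphism -/

section abstract

variable {G Y : Type*} [Group G] [MulAction G Y]

/-- the signed number of walls `ω ∈ Ω` between `y` and `y'` -/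
noncomputable def wallCount (Ω : Set (Y → ℤ)) (y y' : Y) : ℤ := ∑ᶠ ω ∈ Ω, (ω y' - ω y)

theorem wallCount_add (Ω : Set (Y → ℤ)) (hfin : ∀ y y' : Y, {ω ∈ Ω | ω y ≠ ω y'}.Finite)
    (y y' y'' : Y) : wallCount Ω y y'' = wallCount Ω y y' + wallCount Ω y' y'' := by
  unfold wallCount
  rw [← finsum_mem_add_distrib']
  · refine finsum_mem_congr rfl fun ω _ => by ring
  · refine (hfin y y').subset ?_
    rintro ω ⟨h1, h2⟩
    refine ⟨h1, fun h => h2 ?_⟩
    simp [h]
  · refine (hfin y' y'').subset ?_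
    rintro ω ⟨h1, h2⟩
    refine ⟨h1, fun h => h2 ?_⟩
    simp [h]

theorem wallCount_smul (Ω : Set (Y → ℤ))
    (hstab : ∀ (g : G), ∀ ω ∈ Ω, (fun y => ω (g • y)) ∈ Ω) (g : G) (y y' : Y) :
    wallCount Ω (g • y) (g • y') = wallCount Ω y y' := by
  unfold wallCount
  refine finsum_mem_eq_of_bijOn (fun ω => fun y => ω (g • y)) ⟨?_, ?_, ?_⟩ ?_
  · exact fun ω hω => hstab g ω hω
  · intro ω _ ω' _ h
    funext y
    have := congrFun h (g⁻¹ • y)
    simpa using this
  · intro ω hω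
    refine ⟨fun y => ω (g⁻¹ • y), hstab g⁻¹ ω hω, ?_⟩
    funext y
    simp
  · intro ω _
    rfl

/-- the wall-crossing homomorphism -/
noncomputable def wallHom (Ω : Set (Y → ℤ)) (hfin : ∀ y y' : Y, {ω ∈ Ω | ω y ≠ ω y'}.Finite)
    (hstab : ∀ (g : G), ∀ ω ∈ Ω, (fun y => ω (g • y)) ∈ Ω) (y₀ : Y) : Additive G →+ ℤ :=
  AddMonoidHom.mk' (fun g => wallCount Ω y₀ (Additive.toMul g • y₀)) (by
    intro a b
    rw [toMul_add, mul_smul, wallCount_add Ω hfin y₀ (Additive.toMul a • y₀),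
      wallCount_smul Ω hstab])

end abstract

/-! ### the walls in the upper half plane -/

theorem wall_key (a b c d : ℤ) (h : a * d - b * c = 1) (x y : ℝ)
    (hne : ¬ ((0 ≤ ((a : ℝ) * x + b) * ((c : ℝ) * x + d) + (a : ℝ) * c * y ^ 2) ↔
      (0 < a * c ∨ (a * c = 0 ∧ 0 < b * d)))) :
    ((a : ℝ) * x + b) ^ 2 + ((a : ℝ) * y) ^ 2 ≤ 2 + 4 * x ^ 2 + y ^ 2 ∧
    ((c : ℝ) * x + d) ^ 2 + ((c : ℝ) * y) ^ 2 ≤ 2 + 4 * x ^ 2 + y ^ 2 := by
  have hR : (a : ℝ) * d - b * c = 1 := by exact_mod_cast h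
  by_cases ha : a = 0
  · subst ha
    have hbc : b * c = -1 := by linarith
    have hbcR : (b : ℝ) * c = -1 := by exact_mod_cast hbc
    have hb2 : (b : ℝ) ^ 2 = 1 := by
      have : b = 1 ∨ b = -1 := by
        have : IsUnit b := IsUnit.of_mul_eq_one (-c) (by linarith)
        exact Int.isUnit_iff.mp this
      rcases this with h | h <;> simp [h]
    have hc2 : (c : ℝ) ^ 2 = 1 := by
      have : ((b : ℝ) * c) ^ 2 = 1 := by rw [hbcR]; norm_num
      rw [mul_pow, hb2, one_mul] at this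
      exact this
    set k : ℤ := b * d with hk
    have hkR : (k : ℝ) = b * d := by simp [hk]
    have hQ : ((0 : ℤ) : ℝ) * x + b = b := by simp
    have hQ2 : (b : ℝ) * ((c : ℝ) * x + d) = -x + k := by
      rw [hkR]; linear_combination x * hbcR
    have hk2 : (k : ℝ) ^ 2 ≤ x ^ 2 := by
      by_contra hcon
      apply hne
      simp only [Int.cast_zero, zero_mul, zero_add, add_zero, hQ2, lt_self_iff_false, true_and,
        false_or]
      have hcast : (0 < k) ↔ (0 : ℝ) < k := by exact_mod_cast Iff.rfl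
      rw [hcast]
      constructor
      · intro h1
        by_contra h2
        apply hcon
        nlinarith
      · intro h1
        by_contra h2
        apply hcon
        nlinarith
    constructor
    · simp only [Int.cast_zero, zero_mul, zero_add]
      nlinarith [sq_nonneg x, sq_nonneg y]
    · have : ((c : ℝ) * x + d) ^ 2 = (-x + k) ^ 2 := by
        rw [← hQ2, mul_pow, hb2, one_mul]
      rw [this, mul_pow, hc2]
      nlinarith [sq_nonneg (x + k)]
  by_cases hc : c = 0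
  · subst hc
    have had : a * d = 1 := by linarith
    have hadR : (a : ℝ) * d = 1 := by exact_mod_cast had
    have ha2 : (a : ℝ) ^ 2 = 1 := by
      have : a = 1 ∨ a = -1 := by
        have : IsUnit a := IsUnit.of_mul_eq_one d had
        exact Int.isUnit_iff.mp this
      rcases this with h | h <;> simp [h]
    have hd2 : (d : ℝ) ^ 2 = 1 := by
      have : ((a : ℝ) * d) ^ 2 = 1 := by rw [hadR]; norm_num
      rw [mul_pow, ha2, one_mul] at this
      exact this
    set k : ℤ := b * d with hk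
    have hkR : (k : ℝ) = b * d := by simp [hk]
    have hQ2 : ((a : ℝ) * x + b) * d = x + k := by
      rw [hkR]; linear_combination x * hadR
    have hk2 : (k : ℝ) ^ 2 ≤ x ^ 2 := by
      by_contra hcon
      apply hne
      simp only [Int.cast_zero, zero_mul, zero_add, add_zero, mul_zero, hQ2, lt_self_iff_false,
        true_and, false_or]
      have hcast : (0 < k) ↔ (0 : ℝ) < k := by exact_mod_cast Iff.rfl
      rw [hcast]
      constructor
      · intro h1
        by_contra h2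
        apply hcon
        nlinarith
      · intro h1
        by_contra h2
        apply hcon
        nlinarith
    constructor
    · have : ((a : ℝ) * x + b) ^ 2 = (x + k) ^ 2 := by
        rw [← hQ2, mul_pow, hd2, mul_one]
      rw [this, mul_pow, ha2]
      nlinarith [sq_nonneg (x - k)]
    · simp only [Int.cast_zero, zero_mul, zero_add]
      nlinarith [sq_nonneg x, sq_nonneg y]
  -- the main case `a c ≠ 0`
  have ha1 : (1 : ℝ) ≤ (a : ℝ) ^ 2 := by
    have : (1 : ℤ) ≤ a ^ 2 := by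
      have := sq_pos_of_ne_zero ha  
      linarith
    exact_mod_cast this
  have hc1 : (1 : ℝ) ≤ (c : ℝ) ^ 2 := by
    have : (1 : ℤ) ≤ c ^ 2 := by
      have := sq_pos_of_ne_zero hc
      linarith
    exact_mod_cast this
  set m : ℝ := (c : ℝ) * ((a : ℝ) * x + b) with hm
  have hm1 : (a : ℝ) * ((c : ℝ) * x + d) = m + 1 := by
    rw [hm]; linear_combination hR
  set Q : ℝ := ((a : ℝ) * x + b) * ((c : ℝ) * x + d) + (a : ℝ) * c * y ^ 2 with hQ
  have hAQ : ((a : ℝ) * c) * Q = ((a : ℝ) * c) ^ 2 * y ^ 2 + m * (m + 1) := by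
    rw [← hm1, hm, hQ]; ring
  have hac : a * c ≠ 0 := mul_ne_zero ha hc
  have hle : ((a : ℝ) * c) * Q ≤ 0 := by
    by_contra hpos
    push Not at hpos
    apply hne
    have hcast : (0 < a * c) ↔ (0 : ℝ) < (a : ℝ) * c := by exact_mod_cast Iff.rfl
    simp only [hac, false_and, or_false]
    rw [hcast]
    constructor
    · intro h1
      by_contra h2
      push Not at h2
      nlinarith
    · intro h1
      by_contra h2
      push Not at h2
      nlinarith
  have h1 : m * (m + 1) ≤ 0 := by nlinarith [sq_nonneg ((a : ℝ) * c * y)]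
  have h2 : ((a : ℝ) * c) ^ 2 * y ^ 2 ≤ 1 / 4 := by nlinarith [sq_nonneg (m + 1 / 2)]
  have hm_le : m ^ 2 ≤ 1 := by nlinarith
  have hm_le' : (m + 1) ^ 2 ≤ 1 := by nlinarith
  constructor
  · have e1 : ((a : ℝ) * x + b) ^ 2 ≤ m ^ 2 := by
      rw [hm, mul_pow]; nlinarith [sq_nonneg ((a : ℝ) * x + b)]
    have e2 : ((a : ℝ) * y) ^ 2 ≤ ((a : ℝ) * c) ^ 2 * y ^ 2 := by
      have : ((a : ℝ) * c) ^ 2 * y ^ 2 = (c : ℝ) ^ 2 * ((a : ℝ) * y) ^ 2 := by ring
      rw [this]; nlinarith [sq_nonneg ((a : ℝ) * y)]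
    nlinarith [sq_nonneg x, sq_nonneg y]
  · have e1 : ((c : ℝ) * x + d) ^ 2 ≤ (m + 1) ^ 2 := by
      rw [← hm1, mul_pow]; nlinarith [sq_nonneg ((c : ℝ) * x + d)]
    have e2 : ((c : ℝ) * y) ^ 2 ≤ ((a : ℝ) * c) ^ 2 * y ^ 2 := by
      have : ((a : ℝ) * c) ^ 2 * y ^ 2 = (a : ℝ) ^ 2 * ((c : ℝ) * y) ^ 2 := by ring
      rw [this]; nlinarith [sq_nonneg ((c : ℝ) * y)]
    nlinarith [sq_nonneg x, sq_nonneg y]

/-- the step function -/
noncomputable def stepRe (τ : ℍ) : ℤ := if 0 ≤ τ.re then 1 else 0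

/-- the quadratic form whose sign is the sign of `Re (ε τ)` -/
def wallQ (ε : SL(2, ℤ)) (τ : ℍ) : ℝ :=
  ((ε 0 0 : ℝ) * τ.re + ε 0 1) * ((ε 1 0 : ℝ) * τ.re + ε 1 1) + (ε 0 0 : ℝ) * ε 1 0 * τ.im ^ 2

theorem wall_re_smul_nonneg_iff (ε : SL(2, ℤ)) (τ : ℍ) : 0 ≤ (ε • τ).re ↔ 0 ≤ wallQ ε τ := by
  have hne : ((ε 1 0 : ℤ) : ℂ) * τ + ((ε 1 1 : ℤ) : ℂ) ≠ 0 := by
    have := denom_ne_zero (ε : GL (Fin 2) ℝ) τ
    rwa [ModularGroup.denom_apply] at this
  have hpos : 0 < Complex.normSq (((ε 1 0 : ℤ) : ℂ) * τ + ((ε 1 1 : ℤ) : ℂ)) :=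
    Complex.normSq_pos.mpr hne
  have h : (ε • τ).re = wallQ ε τ / Complex.normSq (((ε 1 0 : ℤ) : ℂ) * τ + ((ε 1 1 : ℤ) : ℂ)) := by
    rw [← coe_re, coe_specialLinearGroup_apply, Complex.div_re, ← add_div]
    congr 1
    simp [wallQ]
    ring
  rw [h, le_div_iff₀ hpos, zero_mul]

/-- the sign of `Re (ε τ)` for all but finitely many `ε` -/
def wallGenProp (ε : SL(2, ℤ)) : Prop :=
  0 < ε 0 0 * ε 1 0 ∨ (ε 0 0 * ε 1 0 = 0 ∧ 0 < ε 0 1 * ε 1 1)

theorem wall_det_entries (ε : SL(2, ℤ)) : ε 0 0 * ε 1 1 - ε 0 1 * ε 1 0 = 1 := by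
  have := ε.det_coe
  rwa [Matrix.det_fin_two] at this

theorem wall_finite_not_gen (τ : ℍ) : {ε : SL(2, ℤ) | ¬ (0 ≤ (ε • τ).re ↔ wallGenProp ε)}.Finite := by
  set R : ℝ := 2 + 4 * τ.re ^ 2 + τ.im ^ 2 with hR
  have hF : {v : Fin 2 → ℤ | ¬ R < Complex.normSq ((v 0 : ℂ) * τ + v 1)}.Finite :=
    (ModularGroup.tendsto_normSq_coprime_pair τ).eventually (Filter.eventually_gt_atTop R)
  have hinj : Function.Injective (fun ε : SL(2, ℤ) => ((ε 0 : Fin 2 → ℤ), (ε 1 : Fin 2 → ℤ))) := by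
    intro ε ε' h
    simp only [Prod.mk.injEq] at h
    ext i j
    fin_cases i
    · exact congrFun h.1 j
    · exact congrFun h.2 j
  refine ((hF.prod hF).preimage hinj.injOn).subset ?_
  intro ε hε
  simp only [Set.mem_ofPred_eq, wall_re_smul_nonneg_iff] at hε
  have := wall_key _ _ _ _ (wall_det_entries ε) τ.re τ.im hε
  simp only [Set.mem_preimage, Set.mem_prod, Set.mem_ofPred_eq, not_lt]
  constructor
  · refine le_trans (le_of_eq ?_) this.1
    simp [Complex.normSq_apply]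
    ring
  · refine le_trans (le_of_eq ?_) this.2
    simp [Complex.normSq_apply]
    ring

theorem wall_finite_step_ne (τ τ' : ℍ) :
    {ε : SL(2, ℤ) | stepRe (ε • τ) ≠ stepRe (ε • τ')}.Finite := by
  refine ((wall_finite_not_gen τ).union (wall_finite_not_gen τ')).subset ?_
  intro ε hε
  by_contra hcon
  simp only [Set.mem_union, Set.mem_ofPred_eq, not_or, not_not] at hcon
  apply hε
  unfold stepRe
  by_cases hg : wallGenProp ε
  · rw [if_pos (hcon.1.mpr hg), if_pos (hcon.2.mpr hg)]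
  · rw [if_neg (fun h => hg (hcon.1.mp h)), if_neg (fun h => hg (hcon.2.mp h))]

theorem wall_gen (a b c d : ℤ) (h : a * d - b * c = 1) (ha : a ≠ 0) (hc : c ≠ 0) (x y : ℝ)
    (hy : 1 ≤ y) :
    (0 ≤ ((a : ℝ) * x + b) * ((c : ℝ) * x + d) + (a : ℝ) * c * y ^ 2) ↔ 0 < a * c := by
  have hR : (a : ℝ) * d - b * c = 1 := by exact_mod_cast h
  have ha1 : (1 : ℝ) ≤ (a : ℝ) ^ 2 := by
    have : (1 : ℤ) ≤ a ^ 2 := by
      have := sq_pos_of_ne_zero ha
      linarith
    exact_mod_cast this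
  have hc1 : (1 : ℝ) ≤ (c : ℝ) ^ 2 := by
    have : (1 : ℤ) ≤ c ^ 2 := by
      have := sq_pos_of_ne_zero hc
      linarith
    exact_mod_cast this
  set m : ℝ := (c : ℝ) * ((a : ℝ) * x + b) with hm
  have hm1 : (a : ℝ) * ((c : ℝ) * x + d) = m + 1 := by
    rw [hm]; linear_combination hR
  set Q : ℝ := ((a : ℝ) * x + b) * ((c : ℝ) * x + d) + (a : ℝ) * c * y ^ 2 with hQ
  have hAQ : ((a : ℝ) * c) * Q = ((a : ℝ) * c) ^ 2 * y ^ 2 + m * (m + 1) := by
    rw [← hm1, hm, hQ]; ring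
  have hy2 : 1 ≤ y ^ 2 := by nlinarith
  have hac2 : 1 ≤ ((a : ℝ) * c) ^ 2 := by rw [mul_pow]; nlinarith
  have hpos : 0 < ((a : ℝ) * c) * Q := by
    rw [hAQ]; nlinarith [sq_nonneg (m + 1 / 2)]
  have hcast : (0 < a * c) ↔ (0 : ℝ) < (a : ℝ) * c := by exact_mod_cast Iff.rfl
  rw [hcast]
  constructor
  · intro h1
    by_contra h2
    push Not at h2
    nlinarith
  · intro h1
    by_contra h2
    push Not at h2
    nlinarith

/-- the walls: the translates of the step function -/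
def walls (p : ℕ) : Set (ℍ → ℤ) :=
  Set.range (fun ε : Gamma0 p => fun τ : ℍ => stepRe ((ε : SL(2, ℤ)) • τ))

theorem walls_finite (p : ℕ) (τ τ' : ℍ) : {ω ∈ walls p | ω τ ≠ ω τ'}.Finite := by
  refine ((wall_finite_step_ne τ τ').image (fun ε : SL(2, ℤ) => fun τ : ℍ => stepRe (ε • τ))).subset ?_
  rintro ω ⟨⟨ε, rfl⟩, h⟩
  exact ⟨ε, h, rfl⟩

theorem walls_stab (p : ℕ) (g : Gamma0 p) (ω : ℍ → ℤ) (hω : ω ∈ walls p) :
    (fun τ => ω (g • τ)) ∈ walls p := by
  obtain ⟨ε, rfl⟩ := hω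
  refine ⟨ε * g, ?_⟩
  funext τ
  simp only [Subgroup.coe_mul, mul_smul]
  rfl

/-- the base point -/
noncomputable def psiBase : ℍ := ⟨-1 / 2 + 2 * Complex.I, by simp⟩

theorem psiBase_re : psiBase.re = -1 / 2 := by
  simp [psiBase, UpperHalfPlane.re]

theorem psiBase_im : psiBase.im = 2 := by
  simp [psiBase, UpperHalfPlane.im]

theorem wall_T (p : ℕ) (hp : 2 ≤ p) (ε : Gamma0 p)
    (h : stepRe ((ε : SL(2, ℤ)) • (ModularGroup.T • psiBase)) ≠ stepRe ((ε : SL(2, ℤ)) • psiBase)) :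
    (fun τ : ℍ => stepRe ((ε : SL(2, ℤ)) • τ)) = stepRe := by
  obtain ⟨ε, hε⟩ := ε
  simp only at h ⊢
  have hdet := wall_det_entries ε
  rw [Gamma0_mem] at hε
  have hpc : (p : ℤ) ∣ ε 1 0 := (ZMod.intCast_zmod_eq_zero_iff_dvd _ _).mp hε
  by_cases hc : ε 1 0 = 0
  · have had : ε 0 0 * ε 1 1 = 1 := by rw [hc] at hdet; linarith
    have hadR : (ε 0 0 : ℝ) * (ε 1 1 : ℝ) = 1 := by exact_mod_cast had
    set k : ℤ := ε 0 1 * ε 1 1 with hk
    have hkR : (k : ℝ) = (ε 0 1 : ℝ) * (ε 1 1 : ℝ) := by simp [hk]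
    have hQ : ∀ τ : ℍ, wallQ ε τ = τ.re + k := by
      intro τ
      unfold wallQ
      rw [hc, hkR]
      simp only [Int.cast_zero, zero_mul, zero_add, mul_zero, add_zero]
      linear_combination τ.re * hadR
    have hk0 : k = 0 := by
      by_contra hk0
      apply h
      unfold stepRe
      have h1 : (0 ≤ (ε • (ModularGroup.T • psiBase)).re) ↔ 0 ≤ k := by
        rw [wall_re_smul_nonneg_iff, hQ, ModularGroup.re_T_smul, psiBase_re]
        constructor
        · intro h1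
          have : (-1 : ℝ) < k := by linarith
          have : (-1 : ℤ) < k := by exact_mod_cast this
          omega
        · intro h1
          have : (0 : ℝ) ≤ k := by exact_mod_cast h1
          linarith
      have h2 : (0 ≤ (ε • psiBase).re) ↔ 0 ≤ k := by
        rw [wall_re_smul_nonneg_iff, hQ, psiBase_re]
        constructor
        · intro h1
          have : (0 : ℝ) < k := by linarith
          have : (0 : ℤ) < k := by exact_mod_cast this
          omega
        · intro h1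
          have : (1 : ℤ) ≤ k := by omega
          have : (1 : ℝ) ≤ k := by exact_mod_cast this
          linarith
      by_cases hg : 0 ≤ k
      · rw [if_pos (h1.mpr hg), if_pos (h2.mpr hg)]
      · rw [if_neg (fun h => hg (h1.mp h)), if_neg (fun h => hg (h2.mp h))]
    funext τ
    unfold stepRe
    have : (0 ≤ (ε • τ).re) ↔ 0 ≤ τ.re := by
      rw [wall_re_smul_nonneg_iff, hQ, hk0]; simp
    by_cases hg : 0 ≤ τ.re
    · rw [if_pos (this.mpr hg), if_pos hg]
    · rw [if_neg (fun h => hg (this.mp h)), if_neg hg]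
  · exfalso
    have ha : ε 0 0 ≠ 0 := by
      intro ha
      rw [ha] at hdet
      have : (p : ℤ) ∣ 1 := by
        rw [← hdet]
        exact Dvd.dvd.sub (by simp) (Dvd.dvd.mul_left hpc _)
      have := Int.le_of_dvd one_pos this
      omega
    apply h
    unfold stepRe
    have h1 := wall_gen _ _ _ _ hdet ha hc (ModularGroup.T • psiBase).re
      (ModularGroup.T • psiBase).im (by rw [ModularGroup.im_T_smul, psiBase_im]; norm_num)
    have h2 := wall_gen _ _ _ _ hdet ha hc psiBase.re psiBase.im (by rw [psiBase_im]; norm_num)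
    by_cases hg : 0 < ε 0 0 * ε 1 0
    · rw [if_pos ((wall_re_smul_nonneg_iff _ _).mpr (h1.mpr hg)),
        if_pos ((wall_re_smul_nonneg_iff _ _).mpr (h2.mpr hg))]
    · rw [if_neg (fun h => hg (h1.mp ((wall_re_smul_nonneg_iff _ _).mp h))),
        if_neg (fun h => hg (h2.mp ((wall_re_smul_nonneg_iff _ _).mp h)))]

theorem exists_psi (p : ℕ) [Fact p.Prime] :
    ∃ ψ : Additive (Gamma0 p) →+ ℤ, ψ (Additive.ofMul (TG p)) = 1 := by
  refine ⟨wallHom (G := Gamma0 p) (walls p) (walls_finite p) (walls_stab p) psiBase, ?_⟩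
  have hp : 2 ≤ p := (Fact.out : p.Prime).two_le
  show wallCount (walls p) psiBase (TG p • psiBase) = 1
  have hT : TG p • psiBase = ModularGroup.T • psiBase := rfl
  rw [hT]
  unfold wallCount
  have hmem : stepRe ∈ walls p := ⟨1, by funext τ; simp⟩
  rw [finsum_mem_inter_support_eq _ (walls p) {stepRe}, finsum_mem_singleton]
  · unfold stepRe
    rw [ModularGroup.re_T_smul, psiBase_re]
    norm_num
  · ext ω
    simp only [Set.mem_inter_iff, Function.mem_support, Set.mem_singleton_iff, and_congr_left_iff]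
    intro hω
    constructor
    · rintro ⟨ε, rfl⟩
      exact wall_T p hp ε (fun h => hω (by simp only [h, sub_self]))
    · rintro rfl
      exact hmem

end Fermat.Agent.S16Lib
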