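import Fermat.Agent.S16.HeckeLat
import Fermat.Agent.S16.KLemmaAux
import Fermat.Agent.S16.Psi
import Fermat.Agent.S16.Mu
import Fermat.Agent.S23.Fin

/-!
# S16 [LB-final] : the lower bound (pending leaves as hypotheses)
-/

set_option autoImplicit false

open UpperHalfPlane hiding I
open ModularCurve CuspForm CongruenceSubgroup ModularFormClass ModularForm EisensteinSeries
open ModularCurve.Period
open scoped MatrixGroups Real Manifold

namespace Fermat.Agent.S16Lib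

open Fermat.Agent.S21Lib

variable (p : ℕ) [Fact p.Prime]

theorem lb_ev_eq_zero (P : HeckeAlg) (hP : piHom p P = 0) : heckeEvalForms p 2 P = 0 := by
  apply (latticeRestrictHom_bijective p ∅ (Fermat.Agent.S23L.hasIntegralStructure p 2)).1
  rw [map_zero]
  exact hP

theorem lb_per_zero (γ : Gamma0 p) : per (0 : CuspForm (Gamma0 p) 2) γ = 0 := by
  have := hl_per_smul (0 : ℂ) (0 : CuspForm (Gamma0 p) 2) γ
  simpa using this

/-- pure arithmetic -/
theorem lb_arith (e d : ℤ) (hd12 : d ∣ 12) (hdp : d ∣ (p : ℤ) - 1)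
    (h : ((p : ℤ) - 1) ∣ e * d) : (eisensteinNumerator p : ℤ) ∣ e := by
  have hp1 : 1 ≤ p := (Fact.out : p.Prime).one_lt.le
  set g := Nat.gcd (p - 1) 12 with hg
  have hg0 : g ≠ 0 := Nat.gcd_ne_zero_right (by norm_num)
  have hcast : ((p - 1 : ℕ) : ℤ) = (p : ℤ) - 1 := by
    push_cast [hp1]; ring
  have hdg : d ∣ (g : ℤ) := by
    rw [hg, ← Int.gcd_natCast_natCast]
    apply Int.dvd_coe_gcd
    · rw [hcast]; exact hdp
    · exact_mod_cast hd12
  have hn : (eisensteinNumerator p : ℤ) * g = (p : ℤ) - 1 := by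
    rw [← hcast]
    unfold eisensteinNumerator
    exact_mod_cast Nat.div_mul_cancel (Nat.gcd_dvd_left (p - 1) 12)
  have h2 : (eisensteinNumerator p : ℤ) * g ∣ e * g := by
    rw [hn]
    exact h.trans (mul_dvd_mul_left e hdg)
  exact Int.dvd_of_mul_dvd_mul_right (by exact_mod_cast hg0) h2

theorem dvd_eisEval_of_ker_aux
    (hET : ∀ ℓ : ℕ, ℓ.Prime → ℓ ≠ p → heckeT 2 ℓ (eisFun p) = ((1 : ℂ) + ℓ) • eisFun p)
    (hEU : heckeU 2 p (eisFun p) = eisFun p)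
    (hOgg : ∀ {μ : Additive (Gamma0 p) →+ ℤ} {EE : ℍ → ℂ}, IsMu p μ EE → ∀ d : ℕ,
      (∀ γ, (d : ℤ) ∣ μ γ) → d ∣ 12)
    (P : HeckeAlg) (hP : piHom p P = 0) :
    (eisensteinNumerator p : ℤ) ∣ eisEval p P := by
  obtain ⟨μ, EE, hμ⟩ := exists_isMu p
  obtain ⟨ψ, hψ⟩ := exists_psi p
  have hev := lb_ev_eq_zero p P hP
  have key : ∀ γ : Gamma0 p, ((p : ℤ) - 1) ∣ eisEval p P * μ (Additive.ofMul γ) := by
    intro γ
    obtain ⟨γ', h1, h2⟩ := hecke_stable_aux hμ hET hEU P γ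
    rw [← h2]
    refine dvd_mu_of_per_eq_zero_aux p hμ ψ hψ γ' fun f => ?_
    rw [h1, hev]
    exact lb_per_zero p γ
  obtain ⟨a, ha⟩ := Int.subgroup_cyclic μ.range
  have ha1 : ∀ γ, a ∣ μ γ := by
    intro γ
    have : μ γ ∈ μ.range := ⟨γ, rfl⟩
    rw [ha, AddSubgroup.mem_closure_singleton] at this
    obtain ⟨k, hk⟩ := this
    exact ⟨k, by rw [← hk]; simp [mul_comm]⟩
  have ha2 : a ∈ μ.range := by
    rw [ha]; exact AddSubgroup.subset_closure rfl
  obtain ⟨γ₀, hγ₀⟩ := ha2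
  obtain ⟨γ₀, rfl⟩ := Additive.ofMul.surjective γ₀
  have h12 : a.natAbs ∣ 12 := hOgg hμ a.natAbs fun γ => Int.natAbs_dvd.mpr (ha1 γ)
  refine lb_arith p (eisEval p P) a ?_ ?_ ?_
  · have : ((a.natAbs : ℕ) : ℤ) ∣ ((12 : ℕ) : ℤ) := Int.natCast_dvd_natCast.mpr h12
    exact Int.natAbs_dvd.mp (by exact_mod_cast this)
  · rw [← hμ.atT]; exact ha1 _
  · rw [← hγ₀]; exact key γ₀

end Fermat.Agent.S16Lib
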