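import Fermat.Agent.S16.Sharp

/-!
# S16 : Ogg's lemma, the constant `κ = v(-1/(pτ)) v(τ)`
-/

set_option autoImplicit false

open UpperHalfPlane hiding I
open CongruenceSubgroup ModularForm Complex
open scoped MatrixGroups Real Manifold

namespace Fermat.Agent.S16Lib

/-- a continuous function on `ℍ` whose exponential is constant is constant -/
theorem ogg_const_of_exp_const (A : ℍ → ℂ) (hA : Continuous A) (c : ℂ)
    (h : ∀ τ, cexp (A τ) = c) (τ τ' : ℍ) : A τ = A τ' := by
  have h1 : ∀ z : ℍ, ∃ n : ℤ, A z - A τ' = n * (2 * π * I) := fun z =>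
    Complex.exp_eq_one_iff.1 (by rw [Complex.exp_sub, h, h, div_self]; rw [← h τ']; exact Complex.exp_ne_zero _)
  choose n hn using h1
  have hc : Continuous n := by
    rw [Int.isClosedEmbedding_coe_real.isEmbedding.continuous_iff]
    have : ((fun k : ℤ => (k : ℝ)) ∘ n) = fun z => ((A z - A τ') / (2 * π * I)).re := by
      funext z
      rw [hn z, mul_div_assoc, div_self two_pi_I_ne_zero]
      simp
    rw [this]
    exact Complex.continuous_re.comp ((hA.sub continuous_const).div_const _)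
  have h2 : n τ = n τ' := PreconnectedSpace.constant inferInstance hc
  have h3 := hn τ
  have h4 := hn τ'
  rw [h2, ← h4] at h3
  simpa [sub_eq_zero] using h3

theorem ogg_disc_S (z : ℍ) :
    ModularForm.discriminant (ModularGroup.S • z) = (z : ℂ) ^ 12 * ModularForm.discriminant z := by
  have := SlashInvariantForm.slash_action_eqn'' CuspForm.discriminant
      (⟨ModularGroup.S, rfl⟩ : (ModularGroup.S : GL (Fin 2) ℝ) ∈ 𝒮ℒ) z
  rw [ModularGroup.denom_S] at this
  exact_mod_cast this

theorem ogg_kappa (p : ℕ) [Fact p.Prime] (d : ℕ) (hd : d ≠ 0) (L : ℍ → ℂ) (hL : Continuous L)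
    (hrel : ∀ τ : ℍ, cexp (d * L τ) * ModularForm.discriminant τ =
      ModularForm.discriminant (heckeDiagMatrix p • τ)) :
    ∃ κ : ℂ, κ ^ d = ((p : ℂ) ^ 12)⁻¹ ∧
      ∀ τ : ℍ, cexp (L (ModularGroup.S • (heckeDiagMatrix p • τ))) * cexp (L τ) = κ := by
  have hp : p ≠ 0 := (Fact.out : p.Prime).ne_zero
  have hp' : (p : ℂ) ≠ 0 := by exact_mod_cast hp
  have hd' : (d : ℂ) ≠ 0 := by exact_mod_cast hd
  set A : ℍ → ℂ := fun τ => d * (L (ModularGroup.S • (heckeDiagMatrix p • τ)) + L τ) with hA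
  have hexp : ∀ τ, cexp (A τ) = ((p : ℂ) ^ 12)⁻¹ := by
    intro τ
    have h1 := hrel (ModularGroup.S • (heckeDiagMatrix p • τ))
    rw [diag_S_diag_smul, ogg_disc_S, ogg_disc_S, coe_heckeDiagMatrix_smul hp] at h1
    have h2 := hrel τ
    have hτ : (τ : ℂ) ≠ 0 := τ.ne_zero
    have hΔ := discriminant_ne_zero τ
    have hΔp := discriminant_ne_zero (heckeDiagMatrix p • τ)
    simp only [hA]
    rw [mul_add, Complex.exp_add]
    rw [← h2] at h1
    have h3 : cexp (d * L (ModularGroup.S • (heckeDiagMatrix p • τ))) * cexp (d * L τ) *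
        (p : ℂ) ^ 12 * ((τ : ℂ) ^ 12 * ModularForm.discriminant τ) =
        (τ : ℂ) ^ 12 * ModularForm.discriminant τ := by
      linear_combination h1
    have h4 : (τ : ℂ) ^ 12 * ModularForm.discriminant τ ≠ 0 := mul_ne_zero (pow_ne_zero _ hτ) hΔ
    have h5 := mul_right_cancel₀ h4 (h3.trans (one_mul _).symm)
    exact eq_inv_of_mul_eq_one_left h5
  have hAc : Continuous A := by
    refine continuous_const.mul ((hL.comp ?_).add hL)
    have h1 : Continuous fun τ : ℍ => heckeDiagMatrix p • τ := continuous_const_smul _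
    have h2 : Continuous fun τ : ℍ => (ModularGroup.S : GL (Fin 2) ℝ) • τ :=
      continuous_const_smul _
    exact h2.comp h1
  have hconst := ogg_const_of_exp_const A hAc _ hexp
  refine ⟨cexp (A UpperHalfPlane.I / d), ?_, fun τ => ?_⟩
  · rw [← Complex.exp_nat_mul, mul_div_cancel₀ _ hd', hexp]
  · rw [← Complex.exp_add, ← hconst τ UpperHalfPlane.I]
    simp only [hA]
    rw [mul_div_cancel_left₀ _ hd']

end Fermat.Agent.S16Lib
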