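import Fermat.Agent.S16.Trace

/-!
# S16 [LB-Ogg] : the trace of a `Γ₀(p)`-invariant function is `SL₂(ℤ)`-invariant
-/

set_option autoImplicit false
set_option linter.unusedSectionVars false

open UpperHalfPlane hiding I
open CongruenceSubgroup ModularFormClass ModularForm Matrix.SpecialLinearGroup
open scoped MatrixGroups Real Manifold Pointwise

namespace Fermat.Agent.S16Lib

variable (p : ℕ) [Fact p.Prime]

/-- two elements of `SL₂(ℤ)` with proportional bottom rows mod `p` give the same translate -/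
theorem og_eq_of_dvd {k : ℤ} (f : ℍ → ℂ) (hf : ∀ γ : SL(2, ℤ), γ ∈ Gamma0 p → f ∣[k] γ = f)
    (A B : SL(2, ℤ)) (h : (p : ℤ) ∣ A 1 0 * B 1 1 - A 1 1 * B 1 0) :
    f ∣[k] A = f ∣[k] B := by
  have hmem : A * B⁻¹ ∈ Gamma0 p := by
    rw [Gamma0_mem, ZMod.intCast_zmod_eq_zero_iff_dvd]
    have : (A * B⁻¹) 1 0 = A 1 0 * B 1 1 - A 1 1 * B 1 0 := by
      rw [Matrix.SpecialLinearGroup.coe_mul, Matrix.SpecialLinearGroup.coe_inv,
        Matrix.adjugate_fin_two, Matrix.mul_apply, Fin.sum_univ_two]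
      simp
      ring
    rw [this]
    exact h
  have : A = (A * B⁻¹) * B := by group
  rw [this, SlashAction.slash_mul, hf _ hmem]

/-- the translate `f ∣ S T^x`, `x ∈ ℤ/p` -/
noncomputable def ogFz (k : ℤ) (f : ℍ → ℂ) (x : ZMod p) : ℍ → ℂ :=
  f ∣[k] (ModularGroup.S * ModularGroup.T ^ (x.val : ℤ))

theorem og_slash_ST_eq {k : ℤ} (f : ℍ → ℂ) (hf : ∀ γ : SL(2, ℤ), γ ∈ Gamma0 p → f ∣[k] γ = f)
    (m : ℤ) :
    f ∣[k] (ModularGroup.S * ModularGroup.T ^ m) = ogFz p k f (m : ZMod p) := by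
  apply og_eq_of_dvd p f hf
  rw [ST_one_zero, ST_one_one, ST_one_zero, ST_one_one,
    ← ZMod.intCast_zmod_eq_zero_iff_dvd]
  simp

theorem ogFz_slash_T {k : ℤ} (f : ℍ → ℂ) (hf : ∀ γ : SL(2, ℤ), γ ∈ Gamma0 p → f ∣[k] γ = f)
    (x : ZMod p) :
    ogFz p k f x ∣[k] ModularGroup.T = ogFz p k f (x + 1) := by
  rw [ogFz, ← SlashAction.slash_mul, mul_assoc, ← zpow_add_one, og_slash_ST_eq p f hf]
  simp

theorem ogFz_zero {k : ℤ} (f : ℍ → ℂ) :
    ogFz p k f 0 = f ∣[k] ModularGroup.S := by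
  simp [ogFz]

theorem ogFz_zero_slash_S {k : ℤ} (f : ℍ → ℂ)
    (hf : ∀ γ : SL(2, ℤ), γ ∈ Gamma0 p → f ∣[k] γ = f) :
    ogFz p k f 0 ∣[k] ModularGroup.S = f := by
  rw [ogFz, ← SlashAction.slash_mul]
  have := og_eq_of_dvd p f hf
    (ModularGroup.S * ModularGroup.T ^ (((0 : ZMod p).val : ℕ) : ℤ) * ModularGroup.S) 1 (by
      rw [STS_one_zero, STS_one_one]; simp)
  rw [this]
  simp

theorem ogFz_slash_S {k : ℤ} (f : ℍ → ℂ) (hf : ∀ γ : SL(2, ℤ), γ ∈ Gamma0 p → f ∣[k] γ = f)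
    (x : ZMod p) (hx : x ≠ 0) :
    ogFz p k f x ∣[k] ModularGroup.S = ogFz p k f (-x⁻¹) := by
  rw [ogFz, ← SlashAction.slash_mul, ogFz]
  apply og_eq_of_dvd p f hf
  rw [STS_one_zero, STS_one_one, ST_one_zero, ST_one_one,
    ← ZMod.intCast_zmod_eq_zero_iff_dvd]
  simp [hx]

/-- the trace, as a function -/
noncomputable def ogFun (k : ℤ) (f : ℍ → ℂ) : ℍ → ℂ :=
  f + ∑ x : ZMod p, ogFz p k f x

theorem ogFun_slash_T {k : ℤ} (f : ℍ → ℂ) (hf : ∀ γ : SL(2, ℤ), γ ∈ Gamma0 p → f ∣[k] γ = f) :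
    ogFun p k f ∣[k] ModularGroup.T = ogFun p k f := by
  rw [ogFun, SlashAction.add_slash, SlashAction.sum_slash, hf _ (T_mem_Gamma0 p)]
  congr 1
  simp only [ogFz_slash_T p f hf]
  exact Equiv.sum_comp (Equiv.addRight (1 : ZMod p)) (ogFz p k f)

theorem ogFun_slash_S {k : ℤ} (f : ℍ → ℂ) (hf : ∀ γ : SL(2, ℤ), γ ∈ Gamma0 p → f ∣[k] γ = f) :
    ogFun p k f ∣[k] ModularGroup.S = ogFun p k f := by
  rw [ogFun, SlashAction.add_slash, SlashAction.sum_slash, ← ogFz_zero p,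
    ← Finset.add_sum_erase Finset.univ _ (Finset.mem_univ (0 : ZMod p)),
    ← Finset.add_sum_erase Finset.univ (ogFz p k f) (Finset.mem_univ (0 : ZMod p)),
    ogFz_zero_slash_S p f hf]
  have : ∑ x ∈ Finset.univ.erase (0 : ZMod p), ogFz p k f x ∣[k] ModularGroup.S =
      ∑ x ∈ Finset.univ.erase (0 : ZMod p), ogFz p k f x := by
    refine Finset.sum_nbij' (fun x => -x⁻¹) (fun x => -x⁻¹) ?_ ?_ ?_ ?_ ?_
    · intro x hx
      simpa using hx
    · intro x hx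
      simpa using hx
    · intro x _
      simp [inv_neg]
    · intro x _
      simp [inv_neg]
    · intro x hx
      exact ogFz_slash_S p f hf x (by simpa using hx)
  rw [this]
  abel

theorem ogFun_slash {k : ℤ} (f : ℍ → ℂ) (hf : ∀ γ : SL(2, ℤ), γ ∈ Gamma0 p → f ∣[k] γ = f)
    (γ : SL(2, ℤ)) : ogFun p k f ∣[k] γ = ogFun p k f :=
  SlashInvariantForm.slash_action_generators_SL2Z (ogFun_slash_S p f hf) (ogFun_slash_T p f hf) γ

theorem og_slash_zero_apply (f : ℍ → ℂ) (γ : SL(2, ℤ)) (τ : ℍ) :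
    (f ∣[(0 : ℤ)] γ) τ = f (γ • τ) := by
  rw [ModularForm.SL_slash_apply]
  simp

theorem ogFz_zero_apply (f : ℍ → ℂ) (x : ZMod p) (τ : ℍ) :
    ogFz p 0 f x τ = f (ModularGroup.S • (heckeDiagMatrix p • (heckeMatrix p x.val • τ))) := by
  have hp : p ≠ 0 := (Fact.out : p.Prime).ne_zero
  have hp' : (p : ℂ) ≠ 0 := by exact_mod_cast hp
  have h2 : (ModularGroup.T ^ (x.val : ℤ) : SL(2, ℤ)) • τ =
      heckeDiagMatrix p • (heckeMatrix p x.val • τ) := by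
    apply UpperHalfPlane.ext
    rw [ModularGroup.coe_T_zpow_smul_eq, coe_heckeDiagMatrix_smul hp, coe_heckeMatrix_smul hp]
    field_simp
    simp
  rw [ogFz, og_slash_zero_apply, mul_smul, h2]

theorem ogFun_zero_apply (f : ℍ → ℂ) (τ : ℍ) :
    ogFun p 0 f τ = f τ + ∑ j ∈ Finset.range p,
      f (ModularGroup.S • (heckeDiagMatrix p • (heckeMatrix p j • τ))) := by
  rw [ogFun, Pi.add_apply, Finset.sum_apply, sum_range_eq_sum_zmod p
    (fun j => f (ModularGroup.S • (heckeDiagMatrix p • (heckeMatrix p j • τ))))]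
  congr 1
  exact Finset.sum_congr rfl fun x _ => ogFz_zero_apply p f x τ

theorem ogg_trace_inv (v : ℍ → ℂ)
    (hv : ∀ (γ : Gamma0 p) (τ : ℍ), v ((γ : SL(2, ℤ)) • τ) = v τ) (γ : SL(2, ℤ)) (τ : ℍ) :
    v (γ • τ) + ∑ j ∈ Finset.range p,
        v (ModularGroup.S • (heckeDiagMatrix p • (heckeMatrix p j • (γ • τ)))) =
      v τ + ∑ j ∈ Finset.range p,
        v (ModularGroup.S • (heckeDiagMatrix p • (heckeMatrix p j • τ))) := by
  have hf : ∀ γ : SL(2, ℤ), γ ∈ Gamma0 p → v ∣[(0 : ℤ)] γ = v := by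
    intro γ hγ
    funext τ
    rw [og_slash_zero_apply]
    exact hv ⟨γ, hγ⟩ τ
  rw [← ogFun_zero_apply, ← ogFun_zero_apply, ← og_slash_zero_apply (ogFun p 0 v), ogFun_slash p v hf]

end Fermat.Agent.S16Lib
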