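import Fermat.Agent.S16.OggMain
import Fermat.Agent.S16.OggTrace
import Fermat.Agent.S16.OggKappa

/-!
# S16 : Ogg's lemma
-/

set_option autoImplicit false

open UpperHalfPlane hiding I
open CongruenceSubgroup ModularForm ModularFormClass Complex Filter Function
open scoped MatrixGroups Real Manifold Topology

namespace Fermat.Agent.S16Lib

open Fermat.Agent.S22Lib Fermat.Agent.S24Lib

namespace Ogg

theorem nice_exp {G : ℍ → ℂ} (hG : G ∈ decaySubmodule 1) (c : ℂ) :
    Nice (fun τ => cexp (c * G τ)) ∧ (qExpansion 1 (fun τ => cexp (c * G τ))).coeff 0 = 1 := by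
  have ht : Tendsto (fun τ => cexp (c * G τ)) atImInfty (𝓝 1) := by
    have h1 : Tendsto G atImInfty (𝓝 0) := hG.2.2
    have h2 := (Complex.continuous_exp.tendsto (c * 0)).comp (h1.const_mul c)
    rw [mul_zero, Complex.exp_zero] at h2
    exact h2
  have hN : Nice (fun τ => cexp (c * G τ)) := by
    refine Nice.of_tendsto ?_ ?_ ht
    · have h1 := hG.1
      rw [UpperHalfPlane.mdifferentiable_iff] at h1 ⊢
      exact (h1.const_mul c).cexp
    · intro w
      have := hG.2.1 w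
      simp only [comp_apply] at this ⊢
      rw [this]
  exact ⟨hN, hN.coeff_zero ht⟩

end Ogg

open Ogg in
theorem dvd_twelve (p : ℕ) [Fact p.Prime] {μ : Additive (Gamma0 p) →+ ℤ} {EE : ℍ → ℂ}
    (hμ : IsMu p μ EE) (d : ℕ) (hd : ∀ γ, (d : ℤ) ∣ μ γ) : d ∣ 12 := by
  have hpp : p.Prime := Fact.out
  have hp : p ≠ 0 := hpp.ne_zero
  have hp2 : 2 ≤ p := hpp.two_le
  -- arithmetic of `d`
  have h1 : d ∣ p - 1 := by
    have := hd (Additive.ofMul (TG p))
    rw [hμ.atT] at this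
    have e : ((p : ℤ) - 1) = ((p - 1 : ℕ) : ℤ) := by
      rw [Nat.cast_sub (by omega)]; simp
    rw [e] at this
    exact_mod_cast this
  obtain ⟨m₀, hm₀⟩ := h1
  have hd0 : d ≠ 0 := by
    rintro rfl
    omega
  have hm1 : 1 ≤ m₀ := by
    rcases Nat.eq_zero_or_pos m₀ with rfl | h
    · omega
    · exact h
  have hdm : d * m₀ + 1 = p := by omega
  have hmp : m₀ < p := by
    have : m₀ ≤ d * m₀ := Nat.le_mul_of_pos_left _ (Nat.pos_of_ne_zero hd0)
    omega
  have hd' : (d : ℂ) ≠ 0 := by exact_mod_cast hd0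
  have hdmC : (d : ℂ) * m₀ + 1 = p := by exact_mod_cast hdm
  -- the primitive
  obtain ⟨G, hG, hGp⟩ := exists_prim one_pos (Mu.eisFun_sub_mem p hp)
  set EE₀ : ℍ → ℂ := fun τ => 2 * π * I * (((p : ℂ) - 1) / 24 * τ + G τ) with hEE₀
  have hE₀ : IsPrim EE₀ (fun τ => 2 * π * I * eisFun p τ) := by
    have h1 := ((Mu.isPrim_coe.const_smul (((p : ℂ) - 1) / 24)).add hGp).const_smul (2 * π * I)
    intro τ
    have := h1 τ
    simp only [Pi.smul_apply, Pi.add_apply, Pi.sub_apply, smul_eq_mul, mul_one,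
      add_sub_cancel] at this
    exact this
  set c : ℂ := 24 / d * (2 * π * I) with hc
  set L : ℍ → ℂ := fun τ => 24 / d * EE₀ τ with hL
  set h : ℍ → ℂ := fun τ => cexp (c * G τ) with hh
  set u : ℍ → ℂ := fun τ => cexp (-c * G τ) with hu
  obtain ⟨hhN, hh0⟩ := nice_exp hG c
  obtain ⟨huN, -⟩ := nice_exp hG (-c)
  have hhu : ∀ τ, h τ * u τ = 1 := by
    intro τ
    simp only [hh, hu]
    rw [← Complex.exp_add]
    simp
  have hvL : ∀ τ : ℍ, cexp (L τ) = qq τ ^ m₀ * h τ := by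
    intro τ
    simp only [hL, hEE₀, hh, hc]
    rw [qq_apply, ← Complex.exp_nat_mul, ← Complex.exp_add]
    congr 1
    have : (p : ℂ) - 1 = d * m₀ := by rw [← hdmC]; ring
    rw [this]
    field_simp
  have hLc : Continuous L := continuous_const.mul hE₀.mdiff.continuous
  -- invariance
  have hvinv : ∀ (γ : Gamma0 p) (τ : ℍ), cexp (L ((γ : SL(2, ℤ)) • τ)) = cexp (L τ) := by
    intro γ τ
    obtain ⟨k, hk⟩ := hd (Additive.ofMul γ)
    have h1 := hE₀.sub_eq_sub hμ.prim ((γ : SL(2, ℤ)) • τ) τ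
    have h2 := hμ.equiv γ τ
    have h3 : L ((γ : SL(2, ℤ)) • τ) = L τ + k * (2 * π * I) := by
      simp only [hL]
      have h4 : EE₀ ((γ : SL(2, ℤ)) • τ) = EE₀ τ + 2 * π * I / 24 * (μ (Additive.ofMul γ) : ℂ) := by
        rw [← h2]
        linear_combination h1
      rw [h4, hk]
      push_cast
      field_simp
    rw [h3, Complex.exp_add, Complex.exp_int_mul_two_pi_mul_I, mul_one]
  -- relation with `Δ`
  obtain ⟨C, hC, hCeq⟩ := Mu.eta_quot_eq p hp hE₀
  have hrel : ∀ τ : ℍ, cexp (d * L τ) * ModularForm.discriminant τ =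
      (C ^ 24)⁻¹ * ModularForm.discriminant (heckeDiagMatrix p • τ) := by
    intro τ
    have h1 : (d : ℂ) * L τ = (24 : ℕ) * EE₀ τ := by
      simp only [hL]
      push_cast
      field_simp
    have h2 := congrArg (· ^ 24) (hCeq τ)
    simp only [div_pow, mul_pow] at h2
    have hne : ModularForm.eta (τ : ℂ) ^ 24 ≠ 0 := pow_ne_zero _ (eta_ne_zero τ.im_pos)
    rw [div_eq_iff hne] at h2
    rw [h1, Complex.exp_nat_mul]
    simp only [ModularForm.discriminant, coe_heckeDiagMatrix_smul hp]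
    rw [h2]
    have hC24 : C ^ 24 ≠ 0 := pow_ne_zero _ hC
    field_simp
  obtain ⟨hC1, W₀, hW₀⟩ := W_rat p d m₀ hd0 hdm h hhN hh0 (C ^ 24)⁻¹ (fun τ => by
    rw [← hvL, ← Complex.exp_nat_mul]
    exact hrel τ)
  rw [hC1] at hrel
  simp only [one_mul] at hrel
  obtain ⟨κ, hκd, hκ⟩ := ogg_kappa p d hd0 L hLc hrel
  have hinv := ogg_trace_inv p (fun τ => cexp (L τ)) hvinv
  simp only [hvL] at hκ hinv
  obtain ⟨r, hr⟩ := main_step p m₀ hm1 hmp h u hhN huN hhu hh0 W₀ hW₀ κ hκ hinv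
  have hp' : (p : ℂ) ≠ 0 := by exact_mod_cast hp
  have hr0 : (r : ℂ) ≠ 0 := by
    intro hz
    rw [hz] at hr
    simp at hr
  refine dvd_twelve_of_rat p hpp d κ (-1 / (p * r)) ?_ hκd
  push_cast
  rw [eq_div_iff (mul_ne_zero hp' hr0)]
  linear_combination hr

end Fermat.Agent.S16Lib
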