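import Fermat.Agent.S16.Defs

/-!
# S16 [D1] : reduction of the statement to the two bounds
-/

set_option autoImplicit false

open ModularCurve CuspForm

namespace Fermat.Agent.S16Lib

theorem heckeEvalForms_surjective (N : ℕ) [NeZero N] (k : ℤ) :
    Function.Surjective (heckeEvalForms N k) := by
  rintro ⟨t, ht⟩
  induction ht using Algebra.adjoin_induction with
  | mem x hx =>
    rcases hx with ⟨ℓ, hℓ, hℓN, -, rfl⟩ | ⟨q, hqN, hq, -, rfl⟩
    · refine ⟨heckeGen ⟨ℓ, hℓ⟩, ?_⟩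
      rw [heckeEvalForms_heckeGen_of_not_dvd (ℓ := ⟨ℓ, hℓ⟩) hℓN]
      rfl
    · refine ⟨heckeGen ⟨q, hq⟩, ?_⟩
      rw [heckeEvalForms_heckeGen_of_dvd (q := ⟨q, hq⟩) hqN]
      rfl
  | algebraMap r =>
    refine ⟨MvPolynomial.C r, ?_⟩
    rw [heckeEvalForms_C]
    rfl
  | add x y hx hy ihx ihy =>
    obtain ⟨a, ha⟩ := ihx
    obtain ⟨b, hb⟩ := ihy
    refine ⟨a + b, ?_⟩
    rw [map_add, ha, hb]
    rfl
  | mul x y hx hy ihx ihy =>
    obtain ⟨a, ha⟩ := ihx
    obtain ⟨b, hb⟩ := ihy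
    refine ⟨a * b, ?_⟩
    rw [map_mul, ha, hb]
    rfl

theorem piHom_surjective (p : ℕ) [NeZero p] : Function.Surjective (piHom p) :=
  (latticeRestrictHom_surjective p ∅).comp (heckeEvalForms_surjective p 2)

theorem eisEval_C (p : ℕ) (c : ℤ) : eisEval p (MvPolynomial.C c) = c := by
  unfold eisEval
  rw [MvPolynomial.aeval_C]
  rfl

theorem mem_eisensteinIdeal_iff (p : ℕ) (P : HeckeAlg) :
    P ∈ eisensteinIdeal p ↔ eisEval p P = 0 := Iff.rfl

/-- abstract form of the reduction -/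
theorem card_quotient_of_bounds {A R : Type*} [CommRing A] [CommRing R] (π : A →+* R)
    (hπ : Function.Surjective π) (ε : A →+* ℤ) (n : ℕ)
    (hub : ∃ P : A, π P = 0 ∧ ε P = n) (hlb : ∀ P : A, π P = 0 → (n : ℤ) ∣ ε P) :
    Nat.card (R ⧸ Ideal.map π (RingHom.ker ε)) = n := by
  -- the two surjections from `A`
  let φ₁ : A →+* R ⧸ Ideal.map π (RingHom.ker ε) := (Ideal.Quotient.mk _).comp π
  let φ₂ : A →+* ZMod n := (Int.castRingHom (ZMod n)).comp ε
  have hε : Function.Surjective ε := by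
    intro c
    exact ⟨(c : A), by simp⟩
  have h₁ : Function.Surjective φ₁ := Ideal.Quotient.mk_surjective.comp hπ
  have h₂ : Function.Surjective φ₂ := (ZMod.intCast_surjective).comp hε
  have hker : RingHom.ker φ₁ = RingHom.ker φ₂ := by
    ext P
    rw [RingHom.mem_ker, RingHom.mem_ker]
    show Ideal.Quotient.mk _ (π P) = 0 ↔ ((ε P : ℤ) : ZMod n) = 0
    rw [Ideal.Quotient.eq_zero_iff_mem, ZMod.intCast_zmod_eq_zero_iff_dvd]
    constructor
    · intro h
      rw [Ideal.mem_map_iff_of_surjective π hπ] at h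
      obtain ⟨Q, hQ, hQP⟩ := h
      have h3 : π (P - Q) = 0 := by rw [map_sub, hQP, sub_self]
      have h4 := hlb _ h3
      rw [map_sub, RingHom.mem_ker.mp hQ, sub_zero] at h4
      exact h4
    · rintro ⟨c, hc⟩
      obtain ⟨P₀, hP₀, hP₀n⟩ := hub
      have h3 : P - (c : A) * P₀ ∈ RingHom.ker ε := by
        rw [RingHom.mem_ker, map_sub, map_mul, hP₀n, hc]
        simp
        ring
      have h4 := Ideal.mem_map_of_mem π h3
      rwa [map_sub, map_mul, hP₀, mul_zero, sub_zero] at h4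
  have e : (R ⧸ Ideal.map π (RingHom.ker ε)) ≃+* ZMod n :=
    (RingHom.quotientKerEquivOfSurjective h₁).symm.trans
      ((Ideal.quotEquivOfEq hker).trans (RingHom.quotientKerEquivOfSurjective h₂))
  rw [Nat.card_congr e.toEquiv, Nat.card_zmod]

/-- [D1] -/
theorem card_of_bounds (p : ℕ) [NeZero p]
    (hub : ∃ P : HeckeAlg, piHom p P = 0 ∧ eisEval p P = (eisensteinNumerator p : ℤ))
    (hlb : ∀ P : HeckeAlg, piHom p P = 0 → (eisensteinNumerator p : ℤ) ∣ eisEval p P) :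
    Nat.card (↥(heckeLatticeAlgebra p ∅) ⧸
        Ideal.map ((latticeRestrictHom p ∅).toRingHom.comp (heckeEvalForms p 2))
          (eisensteinIdeal p)) = eisensteinNumerator p :=
  card_quotient_of_bounds (piHom p) (piHom_surjective p) (eisEval p : HeckeAlg →+* ℤ)
    (eisensteinNumerator p) hub hlb

/-- the upper bound from duality and the congruence theorem -/
theorem exists_poly_of_congr (p : ℕ) [NeZero p]
    (hD : ∀ M : ℕ, (∀ P : HeckeAlg, piHom p P = 0 → (M : ℤ) ∣ eisEval p P) →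
      ∃ f : CuspForm (CongruenceSubgroup.Gamma0 p) 2, IsEisCongr p M f)
    (hU : ∀ (M : ℕ) (f : CuspForm (CongruenceSubgroup.Gamma0 p) 2), IsEisCongr p M f →
      M ∣ eisensteinNumerator p) :
    ∃ P : HeckeAlg, piHom p P = 0 ∧ eisEval p P = (eisensteinNumerator p : ℤ) := by
  -- the ideal `A = ε (ker π)` of `ℤ`
  let A : Ideal ℤ := Ideal.map (eisEval p : HeckeAlg →+* ℤ) (RingHom.ker (piHom p))
  have hε : Function.Surjective (eisEval p : HeckeAlg →+* ℤ) := fun c =>
    ⟨MvPolynomial.C c, eisEval_C p c⟩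
  have hA : ∀ c : ℤ, c ∈ A ↔ ∃ P : HeckeAlg, piHom p P = 0 ∧ eisEval p P = c := by
    intro c
    rw [Ideal.mem_map_iff_of_surjective _ hε]
    rfl
  obtain ⟨M, hM⟩ : ∃ M : ℕ, A = Ideal.span {(M : ℤ)} := by
    refine ⟨(Submodule.IsPrincipal.generator A).natAbs, ?_⟩
    rw [Int.span_natAbs, Ideal.span_singleton_generator]
  have h1 : ∀ P : HeckeAlg, piHom p P = 0 → (M : ℤ) ∣ eisEval p P := by
    intro P hP
    have : eisEval p P ∈ A := (hA _).mpr ⟨P, hP, rfl⟩
    rwa [hM, Ideal.mem_span_singleton] at this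
  obtain ⟨f, hf⟩ := hD M h1
  have h2 := hU M f hf
  have h3 : (eisensteinNumerator p : ℤ) ∈ A := by
    rw [hM, Ideal.mem_span_singleton]
    exact_mod_cast h2
  exact (hA _).mp h3

end Fermat.Agent.S16Lib
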