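import Fermat.Agent.S16.Sharp
import Fermat.Prelude.Thm_CongruenceSubgroup_one_mem_strictPeriods_Gamma0

/-!
# S16 : `vp f` and `sharp f` are modular forms on `Γ₀(p)`
-/

set_option autoImplicit false
set_option linter.unusedSectionVars false

open UpperHalfPlane hiding I
open CongruenceSubgroup ModularFormClass ModularForm Matrix.SpecialLinearGroup
open scoped MatrixGroups Real Manifold Pointwise

namespace Fermat.Agent.S16Lib

/-- restriction of the level -/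
def resLE {Γ Γ' : Subgroup (GL (Fin 2) ℝ)} (h : Γ ≤ Γ') {k : ℤ} (f : ModularForm Γ' k) :
    ModularForm Γ k where
  toFun := f
  slash_action_eq' γ hγ := f.slash_action_eq' γ (h hγ)
  holo' := f.holo'
  bdd_at_cusps' hc := f.bdd_at_cusps' (hc.mono h)

@[simp] theorem coe_resLE {Γ Γ' : Subgroup (GL (Fin 2) ℝ)} (h : Γ ≤ Γ') {k : ℤ}
    (f : ModularForm Γ' k) : (⇑(resLE h f) : ℍ → ℂ) = f := rfl

variable (p : ℕ) [Fact p.Prime]

theorem vp_eq_smul_slash (k : ℤ) (f : ℍ → ℂ) :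
    vp p f = ((p : ℂ) ^ (1 - k)) • (f ∣[k] heckeDiagMatrix p) := by
  have hp : p ≠ 0 := (Fact.out : p.Prime).ne_zero
  have hp' : (p : ℂ) ≠ 0 := by exact_mod_cast hp
  funext τ
  rw [Pi.smul_apply, slash_heckeDiagMatrix_apply k hp, smul_eq_mul, ← mul_assoc, ← zpow_add₀ hp']
  simp [vp_apply]

/-- `D γ D⁻¹` for `γ ∈ Γ₀(p)` -/
theorem exists_diag_conj (γ : SL(2, ℤ)) (hγ : γ ∈ Gamma0 p) :
    ∃ γ' : SL(2, ℤ), heckeDiagMatrix p * mapGL ℝ γ = mapGL ℝ γ' * heckeDiagMatrix p := by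
  have hp : p ≠ 0 := (Fact.out : p.Prime).ne_zero
  rw [Gamma0_mem, ZMod.intCast_zmod_eq_zero_iff_dvd] at hγ
  obtain ⟨c, hc⟩ := hγ
  have hdet := Matrix.det_fin_two γ.1
  rw [γ.2] at hdet
  refine ⟨⟨!![γ 0 0, p * γ 0 1; c, γ 1 1], ?_⟩, ?_⟩
  · rw [Matrix.det_fin_two_of]
    rw [hc] at hdet
    linarith
  · apply Units.ext
    rw [Units.val_mul, Units.val_mul, val_heckeDiagMatrix hp]
    ext i j
    fin_cases i <;> fin_cases j <;>
      simp [Matrix.mul_apply, Fin.sum_univ_two, mapGL, hc, mul_comm]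

theorem Gamma0_le_conj_diag :
    ((Gamma0 p : Subgroup SL(2, ℤ)) : Subgroup (GL (Fin 2) ℝ)) ≤
      ConjAct.toConjAct (heckeDiagMatrix p)⁻¹ • 𝒮ℒ := by
  rintro _ ⟨γ, hγ, rfl⟩
  rw [map_inv, Subgroup.mem_inv_pointwise_smul_iff, ConjAct.toConjAct_smul]
  obtain ⟨γ', h⟩ := exists_diag_conj p γ hγ
  refine ⟨γ', ?_⟩
  rw [h]
  simp

theorem exists_vp {k : ℤ} (f : ModularForm 𝒮ℒ k) :
    ∃ g : ModularForm (Gamma0 p) k, (⇑g : ℍ → ℂ) = vp p f := by
  refine ⟨((p : ℂ) ^ (1 - k)) • resLE (Gamma0_le_conj_diag p) (ModularForm.translate f (heckeDiagMatrix p)), ?_⟩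
  rw [vp_eq_smul_slash p k]
  rfl

/-- `W γ W⁻¹` for `γ ∈ Γ₀(p)`, `W = S D` -/
theorem exists_W_conj (γ : SL(2, ℤ)) (hγ : γ ∈ Gamma0 p) :
    ∃ γ' ∈ Gamma0 p, (mapGL ℝ ModularGroup.S * heckeDiagMatrix p) * mapGL ℝ γ =
      mapGL ℝ γ' * (mapGL ℝ ModularGroup.S * heckeDiagMatrix p) := by
  have hp : p ≠ 0 := (Fact.out : p.Prime).ne_zero
  rw [Gamma0_mem, ZMod.intCast_zmod_eq_zero_iff_dvd] at hγ
  obtain ⟨c, hc⟩ := hγ
  have hdet := Matrix.det_fin_two γ.1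
  rw [γ.2] at hdet
  refine ⟨⟨!![γ 1 1, -c; -(p * γ 0 1), γ 0 0], ?_⟩, ?_, ?_⟩
  · rw [Matrix.det_fin_two_of]
    rw [hc] at hdet
    linarith
  · rw [Gamma0_mem]
    simp
  · apply Units.ext
    simp only [Units.val_mul, val_heckeDiagMatrix hp]
    ext i j
    fin_cases i <;> fin_cases j <;>
      simp [Matrix.mul_apply, Fin.sum_univ_two, mapGL, hc, mul_comm, ModularGroup.S]

theorem Gamma0_le_conj_W :
    ((Gamma0 p : Subgroup SL(2, ℤ)) : Subgroup (GL (Fin 2) ℝ)) ≤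
      ConjAct.toConjAct (mapGL ℝ ModularGroup.S * heckeDiagMatrix p)⁻¹ •
        ((Gamma0 p : Subgroup SL(2, ℤ)) : Subgroup (GL (Fin 2) ℝ)) := by
  rintro _ ⟨γ, hγ, rfl⟩
  rw [map_inv, Subgroup.mem_inv_pointwise_smul_iff, ConjAct.toConjAct_smul]
  obtain ⟨γ', hγ', h⟩ := exists_W_conj p γ hγ
  refine ⟨γ', hγ', ?_⟩
  rw [h, mul_inv_cancel_right]

theorem exists_sharp' {k : ℤ} (f : ModularForm (Gamma0 p) k) :
    ∃ g : ModularForm (Gamma0 p) k, (⇑g : ℍ → ℂ) = sharp p k f := by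
  refine ⟨((p : ℂ) ^ (1 - k)) • resLE (Gamma0_le_conj_W p)
    (ModularForm.translate f (mapGL ℝ ModularGroup.S * heckeDiagMatrix p)), ?_⟩
  rw [sharp, vp_eq_smul_slash p k]
  change ((p : ℂ) ^ (1 - k)) • ((f : ℍ → ℂ) ∣[k] (mapGL ℝ ModularGroup.S * heckeDiagMatrix p)) = _
  rw [SlashAction.slash_mul]
  rfl

theorem exists_sharp {k : ℤ} (_hk : Even k) (f : ModularForm (Gamma0 p) k) :
    ∃ g : ModularForm (Gamma0 p) k, (⇑g : ℍ → ℂ) = sharp p k f :=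
  exists_sharp' p f

theorem qParam_diag_smul (τ : ℍ) :
    Function.Periodic.qParam 1 ((heckeDiagMatrix p • τ : ℍ) : ℂ) =
      Function.Periodic.qParam 1 (τ : ℂ) ^ p := by
  have hp : p ≠ 0 := (Fact.out : p.Prime).ne_zero
  rw [coe_heckeDiagMatrix_smul hp, Function.Periodic.qParam, Function.Periodic.qParam,
    ← Complex.exp_nat_mul]
  congr 1
  simp only [Complex.ofReal_one, div_one]
  ring

theorem qCoeff_vp {k : ℤ} (f : ModularForm 𝒮ℒ k) (n : ℕ) :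
    qCoeff (vp p f) n = if p ∣ n then qCoeff f (n / p) else 0 := by
  have hp : 0 < p := (Fact.out : p.Prime).pos
  obtain ⟨g, hg⟩ := exists_vp p f
  rw [← hg]
  symm
  refine ModularFormClass.qExpansion_coeff_unique
    (c := fun m => if p ∣ m then qCoeff f (m / p) else 0) one_pos
    (CongruenceSubgroup.one_mem_strictPeriods_Gamma0 p) (f := g) ?_ n
  intro τ
  have h1 := ModularForm.hasSum_qExpansion (f := f) one_pos
    _root_.one_mem_strictPeriods_SL (heckeDiagMatrix p • τ)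
  rw [hg, vp_apply]
  have hinj : Function.Injective (fun m : ℕ => p * m) := fun a b h =>
    Nat.eq_of_mul_eq_mul_left hp h
  rw [← hinj.hasSum_iff]
  · convert h1 using 2 with m
    simp only [Function.comp_apply, dvd_mul_right, if_true, Nat.mul_div_cancel_left _ hp,
      smul_eq_mul, qParam_diag_smul, ← pow_mul]
    rfl
  · intro m hm
    have : ¬ p ∣ m := fun ⟨c, hc⟩ => hm ⟨c, hc.symm⟩
    simp [this]

end Fermat.Agent.S16Lib
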