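import Fermat.Agent.S16.Eis
import Fermat.Agent.S16.SharpMF

/-!
# S16 : `eisFun p` is a modular form of weight two on `Γ₀(p)`
-/

set_option autoImplicit false

open UpperHalfPlane hiding I
open ModularCurve CuspForm CongruenceSubgroup ModularFormClass ModularForm EisensteinSeries
open Complex Filter Function Matrix.SpecialLinearGroup
open scoped MatrixGroups Real Manifold Topology Pointwise

namespace Fermat.Agent.S16Lib

theorem sub_slash_fun {G : Type*} [Monoid G] [SlashAction ℤ G (ℍ → ℂ)] (k : ℤ) (g : G)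
    (a b : ℍ → ℂ) : (a - b) ∣[k] g = a ∣[k] g - b ∣[k] g := by
  rw [sub_eq_add_neg, SlashAction.add_slash, SlashAction.neg_slash, ← sub_eq_add_neg]

theorem D2_bdd (γ : SL(2, ℤ)) : IsBoundedAtImInfty (D2 γ) := by
  rw [isBoundedAtImInfty_iff]
  refine ⟨2 * π, 1, fun z hz => ?_⟩
  unfold D2
  by_cases hc : γ 1 0 = 0
  · simp [hc, Real.pi_pos.le]
  have hc' : (1 : ℝ) ≤ |((γ 1 0 : ℤ) : ℝ)| := by
    have : (1 : ℤ) ≤ |γ 1 0| := Int.one_le_abs hc
    exact_mod_cast this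
  have hden : |((γ 1 0 : ℤ) : ℝ)| ≤ ‖denom γ z‖ := by
    have h1 : |(denom γ z).im| ≤ ‖denom γ z‖ := Complex.abs_im_le_norm _
    have h2 : (denom γ z).im = ((γ 1 0 : ℤ) : ℝ) * z.im := by
      rw [ModularGroup.denom_apply]
      simp
    rw [h2, abs_mul, abs_of_pos z.im_pos] at h1
    calc |((γ 1 0 : ℤ) : ℝ)| = |((γ 1 0 : ℤ) : ℝ)| * 1 := (mul_one _).symm
      _ ≤ |((γ 1 0 : ℤ) : ℝ)| * z.im := by gcongr
      _ ≤ _ := h1
  have hpos : 0 < ‖denom γ z‖ := lt_of_lt_of_le (by linarith) hden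
  rw [norm_div, div_le_iff₀ hpos]
  have : ‖(2 * π * I * (γ 1 0 : ℤ) : ℂ)‖ = 2 * π * |((γ 1 0 : ℤ) : ℝ)| := by
    simp [abs_of_pos Real.pi_pos]
  rw [this]
  gcongr

theorem E2_isBoundedAt {c : OnePoint ℝ} (hc : IsCusp c 𝒮ℒ) : c.IsBoundedAt E2 2 := by
  rw [OnePoint.isBoundedAt_iff_forall_SL2Z hc]
  intro γ _
  rw [E2_slash_action]
  exact (boundedAtImInftySubalgebra ℂ).sub_mem isBoundedAtImInfty_E2
    ((boundedAtImInftySubalgebra ℂ).smul_mem (D2_bdd γ) _)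

variable (p : ℕ) [Fact p.Prime]

theorem eisFun_eq_slash :
    eisFun p = ((1 : ℂ) / 24) • (E2 ∣[(2 : ℤ)] heckeDiagMatrix p - E2) := by
  have hp : p ≠ 0 := (Fact.out : p.Prime).ne_zero
  funext τ
  rw [Pi.smul_apply, Pi.sub_apply, slash_heckeDiagMatrix_apply 2 hp]
  simp only [eisFun, vp, smul_eq_mul]
  norm_num
  ring

theorem conj_diag_le :
    ConjAct.toConjAct (heckeDiagMatrix p) •
      ((Gamma0 p : Subgroup SL(2, ℤ)) : Subgroup (GL (Fin 2) ℝ)) ≤ 𝒮ℒ := by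
  intro g hg
  rw [Subgroup.mem_pointwise_smul_iff_inv_smul_mem] at hg
  obtain ⟨γ, hγ, h⟩ := hg
  obtain ⟨γ', h'⟩ := exists_diag_conj p γ hγ
  refine ⟨γ', ?_⟩
  rw [← map_inv, ConjAct.toConjAct_smul] at h
  have h2 : (mapGL ℝ) γ' = heckeDiagMatrix p * mapGL ℝ γ * (heckeDiagMatrix p)⁻¹ := by
    rw [h']; simp
  rw [h2]
  have h3 : (mapGL ℝ) γ = (heckeDiagMatrix p)⁻¹ * g * (heckeDiagMatrix p)⁻¹⁻¹ := h
  rw [h3]
  group

theorem eisFun_isBoundedAt {c : OnePoint ℝ}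
    (hc : IsCusp c ((Gamma0 p : Subgroup SL(2, ℤ)) : Subgroup (GL (Fin 2) ℝ))) :
    c.IsBoundedAt (eisFun p) 2 := by
  have h1 : c.IsBoundedAt E2 2 := E2_isBoundedAt (hc.mono (Gamma0_le_SL p))
  have h2 : c.IsBoundedAt (E2 ∣[(2 : ℤ)] heckeDiagMatrix p) 2 := by
    rw [← OnePoint.IsBoundedAt.smul_iff]
    exact E2_isBoundedAt ((hc.smul (heckeDiagMatrix p)).mono (conj_diag_le p))
  intro g hg
  rw [eisFun_eq_slash, ModularForm.smul_slash, sub_slash_fun]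
  exact (boundedAtImInftySubalgebra ℂ).smul_mem
    ((boundedAtImInftySubalgebra ℂ).sub_mem (h2 g hg) (h1 g hg)) _

theorem D2_slash_diag (γ γ' : SL(2, ℤ))
    (h : heckeDiagMatrix p * mapGL ℝ γ = mapGL ℝ γ' * heckeDiagMatrix p) :
    D2 γ' ∣[(2 : ℤ)] heckeDiagMatrix p = D2 γ := by
  have hp : p ≠ 0 := (Fact.out : p.Prime).ne_zero
  have hM := congrArg (fun g : GL (Fin 2) ℝ => (g : Matrix (Fin 2) (Fin 2) ℝ)) h
  simp only [Units.val_mul, val_heckeDiagMatrix hp] at hM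
  have h10 := congrFun (congrFun hM 1) 0
  have h11 := congrFun (congrFun hM 1) 1
  simp [Matrix.mul_apply, Fin.sum_univ_two, mapGL] at h10 h11
  have h10' : (γ 1 0 : ℂ) = (γ' 1 0 : ℂ) * p := by exact_mod_cast congrArg (fun x : ℝ => (x : ℂ)) h10
  have h11' : (γ 1 1 : ℂ) = (γ' 1 1 : ℂ) := by rw [h11]
  funext τ
  rw [slash_heckeDiagMatrix_apply 2 hp]
  unfold D2
  rw [ModularGroup.denom_apply, ModularGroup.denom_apply, coe_heckeDiagMatrix_smul hp, h10', h11']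
  norm_num
  ring

theorem eisFun_slash (γ : SL(2, ℤ)) (hγ : γ ∈ Gamma0 p) :
    eisFun p ∣[(2 : ℤ)] γ = eisFun p := by
  obtain ⟨γ', h⟩ := exists_diag_conj p γ hγ
  have h1 : (E2 ∣[(2 : ℤ)] heckeDiagMatrix p) ∣[(2 : ℤ)] γ =
      E2 ∣[(2 : ℤ)] heckeDiagMatrix p - (1 / (2 * riemannZeta 2)) • D2 γ := by
    change (E2 ∣[(2 : ℤ)] heckeDiagMatrix p) ∣[(2 : ℤ)] (mapGL ℝ γ) = _
    rw [← SlashAction.slash_mul, h, SlashAction.slash_mul]
    change (E2 ∣[(2 : ℤ)] γ') ∣[(2 : ℤ)] heckeDiagMatrix p = _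
    rw [E2_slash_action, sub_slash_fun, ModularForm.smul_slash, D2_slash_diag p γ γ' h,
      σ_heckeDiagMatrix]
    rfl
  rw [eisFun_eq_slash, ModularForm.SL_smul_slash, sub_slash_fun, h1, E2_slash_action]
  congr 1
  abel

theorem exists_eisE : ∃ E : ModularForm (Gamma0 p) 2, (⇑E : ℍ → ℂ) = eisFun p := by
  refine ⟨{ toFun := eisFun p
            slash_action_eq' := ?_
            holo' := eisFun_mdiff p (Fact.out : p.Prime).ne_zero
            bdd_at_cusps' := fun hc => eisFun_isBoundedAt p hc }, rfl⟩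
  rintro _ ⟨γ, hγ, rfl⟩
  exact eisFun_slash p γ hγ

end Fermat.Agent.S16Lib
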