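import Fermat.Agent.S16.SharpMF
import Fermat.Prelude.Thm_ModularFormClass_qCoeff_heckeU
import Fermat.Prelude.Thm_ModularForm_periodic_heckeU_comp_ofComplex
import Fermat.Prelude.Thm_ModularForm_isBoundedAtImInfty_heckeU
import Fermat.Prelude.Thm_ModularForm_mdifferentiable_heckeU

/-!
# S16 : the trace from `Γ₀(p)` to level one
-/

set_option autoImplicit false
set_option linter.unusedSectionVars false

open UpperHalfPlane hiding I
open CongruenceSubgroup ModularFormClass ModularForm Matrix.SpecialLinearGroup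
open scoped MatrixGroups Real Manifold Pointwise

namespace Fermat.Agent.S16Lib

variable (p : ℕ) [Fact p.Prime]

theorem slash_Gamma0 {k : ℤ} (f : ModularForm (Gamma0 p) k) (γ : SL(2, ℤ)) (hγ : γ ∈ Gamma0 p) :
    (f : ℍ → ℂ) ∣[k] γ = f :=
  f.slash_action_eq' _ ⟨γ, hγ, rfl⟩

/-- two elements of `SL₂(ℤ)` with proportional bottom rows mod `p` give the same translate -/
theorem slash_eq_of_dvd {k : ℤ} (f : ModularForm (Gamma0 p) k) (A B : SL(2, ℤ))
    (h : (p : ℤ) ∣ A 1 0 * B 1 1 - A 1 1 * B 1 0) :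
    (f : ℍ → ℂ) ∣[k] A = (f : ℍ → ℂ) ∣[k] B := by
  have hmem : A * B⁻¹ ∈ Gamma0 p := by
    rw [Gamma0_mem, ZMod.intCast_zmod_eq_zero_iff_dvd]
    have : (A * B⁻¹) 1 0 = A 1 0 * B 1 1 - A 1 1 * B 1 0 := by
      rw [Matrix.SpecialLinearGroup.coe_mul, Matrix.SpecialLinearGroup.coe_inv,
        Matrix.adjugate_fin_two, Matrix.mul_apply, Fin.sum_univ_two]
      simp
      ring
    rw [this]
    exact h
  have : A = (A * B⁻¹) * B := by group
  rw [this, SlashAction.slash_mul, slash_Gamma0 p f _ hmem]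

theorem ST_one_zero (m : ℤ) : (ModularGroup.S * ModularGroup.T ^ m) 1 0 = 1 := by
  rw [Matrix.SpecialLinearGroup.coe_mul, ModularGroup.coe_T_zpow, ModularGroup.coe_S]
  simp

theorem ST_one_one (m : ℤ) : (ModularGroup.S * ModularGroup.T ^ m) 1 1 = m := by
  rw [Matrix.SpecialLinearGroup.coe_mul, ModularGroup.coe_T_zpow, ModularGroup.coe_S]
  simp

theorem STS_one_zero (m : ℤ) :
    (ModularGroup.S * ModularGroup.T ^ m * ModularGroup.S) 1 0 = m := by
  rw [Matrix.SpecialLinearGroup.coe_mul, Matrix.SpecialLinearGroup.coe_mul,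
    ModularGroup.coe_T_zpow, ModularGroup.coe_S]
  simp

theorem STS_one_one (m : ℤ) :
    (ModularGroup.S * ModularGroup.T ^ m * ModularGroup.S) 1 1 = -1 := by
  rw [Matrix.SpecialLinearGroup.coe_mul, Matrix.SpecialLinearGroup.coe_mul,
    ModularGroup.coe_T_zpow, ModularGroup.coe_S]
  simp

/-- the translate `f ∣ S T^x`, `x ∈ ℤ/p` -/
noncomputable def trFz {k : ℤ} (f : ModularForm (Gamma0 p) k) (x : ZMod p) : ℍ → ℂ :=
  (f : ℍ → ℂ) ∣[k] (ModularGroup.S * ModularGroup.T ^ (x.val : ℤ))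

theorem slash_ST_eq {k : ℤ} (f : ModularForm (Gamma0 p) k) (m : ℤ) :
    (f : ℍ → ℂ) ∣[k] (ModularGroup.S * ModularGroup.T ^ m) = trFz p f (m : ZMod p) := by
  apply slash_eq_of_dvd
  rw [ST_one_zero, ST_one_one, ST_one_zero, ST_one_one,
    ← ZMod.intCast_zmod_eq_zero_iff_dvd]
  simp

theorem trFz_slash_T {k : ℤ} (f : ModularForm (Gamma0 p) k) (x : ZMod p) :
    trFz p f x ∣[k] ModularGroup.T = trFz p f (x + 1) := by
  rw [trFz, ← SlashAction.slash_mul, mul_assoc, ← zpow_add_one, slash_ST_eq]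
  simp

theorem trFz_zero {k : ℤ} (f : ModularForm (Gamma0 p) k) :
    trFz p f 0 = (f : ℍ → ℂ) ∣[k] ModularGroup.S := by
  simp [trFz]

theorem trFz_zero_slash_S {k : ℤ} (f : ModularForm (Gamma0 p) k) :
    trFz p f 0 ∣[k] ModularGroup.S = f := by
  rw [trFz, ← SlashAction.slash_mul]
  have := slash_eq_of_dvd p f
    (ModularGroup.S * ModularGroup.T ^ (((0 : ZMod p).val : ℕ) : ℤ) * ModularGroup.S) 1 (by
      rw [STS_one_zero, STS_one_one]; simp)
  rw [this]
  simp

theorem trFz_slash_S {k : ℤ} (f : ModularForm (Gamma0 p) k) (x : ZMod p) (hx : x ≠ 0) :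
    trFz p f x ∣[k] ModularGroup.S = trFz p f (-x⁻¹) := by
  rw [trFz, ← SlashAction.slash_mul, trFz]
  apply slash_eq_of_dvd
  rw [STS_one_zero, STS_one_one, ST_one_zero, ST_one_one,
    ← ZMod.intCast_zmod_eq_zero_iff_dvd]
  simp [hx]

/-- the trace, as a function -/
noncomputable def trFun {k : ℤ} (f : ModularForm (Gamma0 p) k) : ℍ → ℂ :=
  f + ∑ x : ZMod p, trFz p f x

theorem trFun_slash_T {k : ℤ} (f : ModularForm (Gamma0 p) k) :
    trFun p f ∣[k] ModularGroup.T = trFun p f := by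
  rw [trFun, SlashAction.add_slash, SlashAction.sum_slash,
    slash_Gamma0 p f _ (T_mem_Gamma0 p)]
  congr 1
  simp only [trFz_slash_T]
  exact Equiv.sum_comp (Equiv.addRight (1 : ZMod p)) (trFz p f)

theorem trFun_slash_S {k : ℤ} (f : ModularForm (Gamma0 p) k) :
    trFun p f ∣[k] ModularGroup.S = trFun p f := by
  rw [trFun, SlashAction.add_slash, SlashAction.sum_slash, ← trFz_zero,
    ← Finset.add_sum_erase Finset.univ _ (Finset.mem_univ (0 : ZMod p)),
    ← Finset.add_sum_erase Finset.univ (trFz p f) (Finset.mem_univ (0 : ZMod p)),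
    trFz_zero_slash_S]
  have : ∑ x ∈ Finset.univ.erase (0 : ZMod p), trFz p f x ∣[k] ModularGroup.S =
      ∑ x ∈ Finset.univ.erase (0 : ZMod p), trFz p f x := by
    refine Finset.sum_nbij' (fun x => -x⁻¹) (fun x => -x⁻¹) ?_ ?_ ?_ ?_ ?_
    · intro x hx
      simpa using hx
    · intro x hx
      simpa using hx
    · intro x _
      simp [inv_neg]
    · intro x _
      simp [inv_neg]
    · intro x hx
      exact trFz_slash_S p f x (by simpa using hx)
  rw [this]
  abel

theorem trFz_eq_translate {k : ℤ} (f : ModularForm (Gamma0 p) k) (x : ZMod p) :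
    trFz p f x = ⇑(ModularForm.translate f
      (mapGL ℝ (ModularGroup.S * ModularGroup.T ^ (x.val : ℤ)))) := rfl

/-- the trace, as a modular form of level one -/
noncomputable def trMF {k : ℤ} (f : ModularForm (Gamma0 p) k) : ModularForm 𝒮ℒ k where
  toFun := trFun p f
  slash_action_eq' := by
    rintro _ ⟨γ, rfl⟩
    exact SlashInvariantForm.slash_action_generators_SL2Z (trFun_slash_S p f) (trFun_slash_T p f) γ
  holo' := by
    refine f.holo'.add (MDifferentiable.sum fun x _ => ?_)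
    rw [trFz_eq_translate]
    exact (ModularForm.translate f _).holo'
  bdd_at_cusps' := by
    intro c hc γ hγ
    subst hγ
    rw [trFun, SlashAction.add_slash, SlashAction.sum_slash]
    refine Filter.BoundedAtFilter.add (f.bdd_at_cusps' hc.of_isFiniteRelIndex γ rfl) ?_
    rw [Filter.BoundedAtFilter, Finset.sum_fn]
    refine .fun_sum fun x _ => ?_
    rw [trFz_eq_translate]
    refine (ModularForm.translate f _).bdd_at_cusps' ?_ γ rfl
    exact hc.of_isFiniteRelIndex_conj (inv_mem ⟨_, rfl⟩)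

@[simp] theorem coe_trMF {k : ℤ} (f : ModularForm (Gamma0 p) k) :
    (⇑(trMF p f) : ℍ → ℂ) = trFun p f := rfl

theorem sum_range_eq_sum_zmod {M : Type*} [AddCommMonoid M] (G : ℕ → M) :
    ∑ j ∈ Finset.range p, G j = ∑ x : ZMod p, G x.val := by
  symm
  refine Finset.sum_bij (fun x _ => x.val) ?_ ?_ ?_ ?_
  · intro x _
    exact Finset.mem_range.mpr (ZMod.val_lt x)
  · intro x _ y _ h
    exact ZMod.val_injective p h
  · intro j hj
    exact ⟨(j : ZMod p), Finset.mem_univ _, ZMod.val_cast_of_lt (Finset.mem_range.mp hj)⟩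
  · intro x _
    rfl

theorem trFz_apply {k : ℤ} (f : ModularForm (Gamma0 p) k) (x : ZMod p) (τ : ℍ) :
    trFz p f x τ = sharp p k f (heckeMatrix p x.val • τ) := by
  have hp : p ≠ 0 := (Fact.out : p.Prime).ne_zero
  have hp' : (p : ℂ) ≠ 0 := by exact_mod_cast hp
  rw [trFz, SlashAction.slash_mul, ModularForm.SL_slash_apply, sharp_apply]
  have h1 : denom (ModularGroup.T ^ (x.val : ℤ) : SL(2, ℤ)) τ = 1 := by
    rw [ModularGroup.denom_apply, ModularGroup.coe_T_zpow]
    simp
  have h2 : (ModularGroup.T ^ (x.val : ℤ) : SL(2, ℤ)) • τ =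
      heckeDiagMatrix p • (heckeMatrix p x.val • τ) := by
    apply UpperHalfPlane.ext
    rw [ModularGroup.coe_T_zpow_smul_eq, coe_heckeDiagMatrix_smul hp, coe_heckeMatrix_smul hp]
    field_simp
    simp
  rw [h1, h2]
  simp

theorem trFun_eq {k : ℤ} (f : ModularForm (Gamma0 p) k) :
    trFun p f = f + (p : ℂ) • heckeU k p (sharp p k f) := by
  have hp : p ≠ 0 := (Fact.out : p.Prime).ne_zero
  have hp' : (p : ℂ) ≠ 0 := by exact_mod_cast hp
  rw [trFun]
  congr 1
  funext τ
  rw [Pi.smul_apply, heckeU_apply k hp, smul_eq_mul, mul_inv_cancel_left₀ hp', Finset.sum_apply,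
    sum_range_eq_sum_zmod p (fun j => sharp p k f (heckeMatrix p j • τ))]
  exact Finset.sum_congr rfl fun x _ => trFz_apply p f x τ

/-- the trace to level one -/
theorem exists_trace' {k : ℤ} (f : ModularForm (Gamma0 p) k) :
    ∃ t : ModularForm 𝒮ℒ k, (⇑t : ℍ → ℂ) = f + (p : ℂ) • heckeU k p (sharp p k f) :=
  ⟨trMF p f, trFun_eq p f⟩

theorem exists_trace {k : ℤ} (_hk : Even k) (f : ModularForm (Gamma0 p) k) :
    ∃ t : ModularForm 𝒮ℒ k, (⇑t : ℍ → ℂ) = f + (p : ℂ) • heckeU k p (sharp p k f) :=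
  exists_trace' p f

theorem analyticAt_cusp_Gamma0 {k : ℤ} (g : ModularForm (Gamma0 p) k) :
    AnalyticAt ℂ (cuspFunction 1 g) 0 :=
  ModularFormClass.analyticAt_cuspFunction_zero g one_pos
    (CongruenceSubgroup.one_mem_strictPeriods_Gamma0 p)

theorem analyticAt_cusp_heckeU {k : ℤ} (g : ModularForm (Gamma0 p) k) :
    AnalyticAt ℂ (cuspFunction 1 (heckeU k p g)) 0 :=
  UpperHalfPlane.analyticAt_cuspFunction_zero one_pos
    (ModularForm.periodic_heckeU_comp_ofComplex
      (SlashInvariantFormClass.periodic_comp_ofComplex g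
        (CongruenceSubgroup.one_mem_strictPeriods_Gamma0 p)) k p)
    (ModularForm.mdifferentiable_heckeU g.holo' k p)
    (ModularForm.isBoundedAtImInfty_heckeU (ModularFormClass.bdd_at_infty g) k p)

/-- the `q`-expansion of the trace -/
theorem qCoeff_trace {k : ℤ} (f : ModularForm (Gamma0 p) k) (n : ℕ) :
    qCoeff (f + (p : ℂ) • heckeU k p (sharp p k f)) n =
      qCoeff f n + (p : ℂ) * qCoeff (sharp p k f) (n * p) := by
  have hp : p ≠ 0 := (Fact.out : p.Prime).ne_zero
  obtain ⟨g, hg⟩ := exists_sharp' p f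
  rw [← hg]
  have h1 := analyticAt_cusp_heckeU p g
  have h2 : AnalyticAt ℂ (cuspFunction 1 ((p : ℂ) • heckeU k p g)) 0 := by
    rw [UpperHalfPlane.cuspFunction_smul h1.continuousAt]
    exact h1.const_smul
  rw [qCoeff, UpperHalfPlane.qExpansion_add (analyticAt_cusp_Gamma0 p f) h2,
    UpperHalfPlane.qExpansion_smul h1, map_add, PowerSeries.coeff_smul, smul_eq_mul]
  congr 2
  exact ModularFormClass.qCoeff_heckeU g (CongruenceSubgroup.one_mem_strictPeriods_Gamma0 p) hp n

end Fermat.Agent.S16Lib
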