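import Fermat.Agent.S16.TauRel
import Fermat.Agent.S16.Trace
import Fermat.Prelude.Thm_ModularFormClass_qCoeff_heckeU

/-!
# S16 : [UB2]  `24 M ∣ (p - 1) p¹¹ (p + 1)`
-/

set_option autoImplicit false

open UpperHalfPlane hiding I
open CongruenceSubgroup ModularFormClass ModularForm
open scoped MatrixGroups Real Manifold

namespace Fermat.Agent.S16Lib

open Fermat.Agent.S23L

theorem levelOne_weight_two_eq_zero (f : ModularForm 𝒮ℒ 2) : f = 0 :=
  rank_zero_iff_forall_zero.mp levelOne_weight_two_rank_zero f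

/-- `S₁₄(SL₂(ℤ)) = 0` -/
theorem levelOne_weight_fourteen_eq_zero {k : ℤ} (hk : k - 12 = 2) (t : ModularForm 𝒮ℒ k)
    (h0 : (qExpansion 1 t).coeff 0 = 0) : t = 0 := by
  have h1 : CuspForm.discriminantEquiv (toCuspForm t h0) = 0 := by
    have h3 : Module.rank ℂ (ModularForm 𝒮ℒ (k - 12)) = 0 := by
      rw [hk]
      exact levelOne_weight_two_rank_zero
    exact rank_zero_iff_forall_zero.mp h3 _
  have h2 : toCuspForm t h0 = 0 := by
    simpa [CuspForm.discriminantEquiv.map_eq_zero_iff] using h1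
  ext τ
  have := DFunLike.congr_fun h2 τ
  simpa using this

variable (p : ℕ) [Fact p.Prime]

/-- in weight two, the expansion at the cusp `0` is `- p⁻¹ U_p` -/
theorem sharp_weight_two (F : ModularForm (Gamma0 p) 2) :
    sharp p 2 F = (-(p : ℂ)⁻¹) • heckeU 2 p F := by
  have hp : (p : ℂ) ≠ 0 := by exact_mod_cast (Fact.out : p.Prime).ne_zero
  obtain ⟨F', hF'⟩ := exists_sharp p even_two F
  obtain ⟨t, ht⟩ := exists_trace p even_two F'
  rw [levelOne_weight_two_eq_zero t, hF', sharp_sharp p even_two, heckeU_smul, smul_smul] at ht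
  have h1 : sharp p 2 F = -(((p : ℂ) * (p : ℂ) ^ (-2 : ℤ)) • heckeU 2 p F) := by
    rw [eq_neg_iff_add_eq_zero]
    exact ht.symm
  have h2 : (p : ℂ) * (p : ℂ) ^ (-2 : ℤ) = (p : ℂ)⁻¹ := by
    rw [zpow_neg, zpow_ofNat]
    field_simp
  rw [h1, h2, _root_.neg_smul]

theorem coeff_mul_cast (a : ℤ) (D : ℕ) (A Y : PowerSeries ℤ) (n : ℕ) :
    ((PowerSeries.coeff n ((PowerSeries.C a + PowerSeries.C (D : ℤ) * A) * Y) : ℤ) : ZMod D)
      = (a : ZMod D) * ((PowerSeries.coeff n Y : ℤ) : ZMod D) := by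
  rw [add_mul, map_add, PowerSeries.coeff_C_mul, mul_assoc, PowerSeries.coeff_C_mul]
  push_cast
  simp

/-- [UB2], with the Eisenstein series as a hypothesis -/
theorem ub2_of_eis (E : ModularForm (Gamma0 p) 2) (hE0 : qCoeff E 0 = ((p : ℂ) - 1) / 24)
    (hEk : ∀ k, 1 ≤ k → qCoeff E k = (sig p k : ℂ)) (M : ℕ)
    (f : CuspForm (Gamma0 p) 2) (hf : IsEisCongr p M f) :
    24 * M ∣ (p - 1) * p ^ 11 * (p + 1) := by
  have hp : p.Prime := Fact.out
  have hpC : (p : ℂ) ≠ 0 := by exact_mod_cast hp.ne_zero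
  obtain ⟨A, hA⟩ := exists_gZ p E hE0 hEk M f hf
  have hcast : (24 * M : ℤ) = ((24 * M : ℕ) : ℤ) := by push_cast; ring
  rw [hcast] at hA
  set gZ : PowerSeries ℤ :=
    PowerSeries.C ((p : ℤ) - 1) + PowerSeries.C ((24 * M : ℕ) : ℤ) * A with hgZ
  let Gm : ModularForm (Gamma0 p) 2 := (24 : ℂ) • (E - cuspToMF f)
  have hGm : (⇑Gm : ℍ → ℂ) = (24 : ℂ) • ((⇑E : ℍ → ℂ) - ⇑f) := rfl
  have hqG : qx Gm = iq gZ := by rw [hGm, hA]
  let DM : ModularForm 𝒮ℒ 12 := cuspToMF CuspForm.discriminant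
  have hqDM : qx DM = iq deltaZ := qExpansion_discriminant
  obtain ⟨Dp, hDp⟩ := exists_vp p DM
  let dpZ : PowerSeries ℤ := PowerSeries.mk fun n =>
    if p ∣ n then PowerSeries.coeff (n / p) deltaZ else 0
  have hqDp : qx Dp = iq dpZ := by
    ext n
    rw [hDp, ← qCoeff_eq_coeff_qx, qCoeff_vp, qCoeff_eq_coeff_qx, hqDM]
    simp only [PowerSeries.coeff_map, dpZ, PowerSeries.coeff_mk]
    split_ifs <;> simp
  let W : ModularForm (Gamma0 p) (2 + 12) := Gm.mul Dp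
  have hW : (⇑W : ℍ → ℂ) = ⇑Gm * ⇑Dp := rfl
  have hqW : qx W = iq (gZ * dpZ) := by
    rw [hW, qx_mul (IsQF.of_Gamma0 Gm) (IsQF.of_Gamma0 Dp), hqG, hqDp, map_mul]
  obtain ⟨t, ht⟩ := exists_trace p (by decide : Even ((2 : ℤ) + 12)) W
  let UG : ModularForm (Gamma0 p) 2 := ModularForm.heckeULin 2 (dvd_refl p) Gm
  let uZ : PowerSeries ℤ := PowerSeries.mk fun n => PowerSeries.coeff (n * p) gZ
  have hqUG : qx UG = iq uZ := by
    ext n
    rw [← qCoeff_eq_coeff_qx, ModularForm.coe_heckeULin_apply,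
      ModularFormClass.qCoeff_heckeU Gm (one_mem_strictPeriods_Gamma0 p) hp.ne_zero n,
      ModularForm.coeffHeckeU_apply, qCoeff_eq_coeff_qx, hqG]
    simp only [PowerSeries.coeff_map, uZ, PowerSeries.coeff_mk]
  let Dl : ModularForm (Gamma0 p) 12 := resMF p DM
  have hqDl : qx Dl = iq deltaZ := qExpansion_discriminant
  let Y0 : ModularForm (Gamma0 p) (2 + 12) := UG.mul Dl
  have hY0 : (⇑Y0 : ℍ → ℂ) = ⇑UG * ⇑Dl := rfl
  have hqY0 : qx Y0 = iq (uZ * deltaZ) := by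
    rw [hY0, qx_mul (IsQF.of_Gamma0 UG) (IsQF.of_Gamma0 Dl), hqUG, hqDl, map_mul]
  let UY : ModularForm (Gamma0 p) (2 + 12) := ModularForm.heckeULin (2 + 12) (dvd_refl p) Y0
  have hqUY : ∀ n, (qx UY).coeff n = ((PowerSeries.coeff (n * p) (uZ * deltaZ) : ℤ) : ℂ) := by
    intro n
    rw [← qCoeff_eq_coeff_qx, ModularForm.coe_heckeULin_apply,
      ModularFormClass.qCoeff_heckeU Y0 (one_mem_strictPeriods_Gamma0 p) hp.ne_zero n,
      ModularForm.coeffHeckeU_apply, qCoeff_eq_coeff_qx, hqY0]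
    simp only [PowerSeries.coeff_map]
    rfl
  have hsharpW : sharp p (2 + 12) W = (-(p : ℂ)⁻¹ * (p : ℂ) ^ (-12 : ℤ)) • (⇑Y0 : ℍ → ℂ) := by
    rw [hW, hDp, sharp_mul, sharp_weight_two, sharp_vp, hY0]
    ext τ
    simp only [Pi.mul_apply, Pi.smul_apply, smul_eq_mul]
    change _ = _ * (heckeU 2 p (⇑Gm) τ * DM τ)
    ring
  have ht' : (⇑t : ℍ → ℂ) = ⇑W - ((p : ℂ) ^ (-12 : ℤ)) • (⇑UY : ℍ → ℂ) := by
    rw [ht, hsharpW, heckeU_smul, smul_smul]
    have : (p : ℂ) * (-(p : ℂ)⁻¹ * (p : ℂ) ^ (-12 : ℤ)) = -((p : ℂ) ^ (-12 : ℤ)) := by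
      field_simp
    rw [this, _root_.neg_smul, ← sub_eq_add_neg]
    rfl
  have hqt : ∀ n, (qx t).coeff n = ((PowerSeries.coeff n (gZ * dpZ) : ℤ) : ℂ)
      - (p : ℂ) ^ (-12 : ℤ) * ((PowerSeries.coeff (n * p) (uZ * deltaZ) : ℤ) : ℂ) := by
    intro n
    rw [ht', qx_sub (IsQF.of_Gamma0 W) ((IsQF.of_Gamma0 UY).smul _),
      qx_smul _ (IsQF.of_Gamma0 UY), map_sub, hqW, PowerSeries.coeff_map, map_smul, hqUY]
    rfl
  have ht0 : t = 0 := by
    apply levelOne_weight_fourteen_eq_zero (by norm_num) t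
    change (qx t).coeff 0 = 0
    rw [hqt]
    simp [PowerSeries.coeff_zero_eq_constantCoeff_apply, dpZ, deltaZ]
  have key : ∀ n, (p : ℤ) ^ 12 * PowerSeries.coeff n (gZ * dpZ)
      = PowerSeries.coeff (n * p) (uZ * deltaZ) := by
    intro n
    have h1 := hqt n
    rw [ht0, FunLike.coe_zero, qx_zero, map_zero] at h1
    have h2 : ((p : ℂ) ^ 12) * ((PowerSeries.coeff n (gZ * dpZ) : ℤ) : ℂ)
        = ((PowerSeries.coeff (n * p) (uZ * deltaZ) : ℤ) : ℂ) := by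
      have h3 : (p : ℂ) ^ (-12 : ℤ) = ((p : ℂ) ^ 12)⁻¹ := by
        rw [zpow_neg, zpow_ofNat]
      rw [h3] at h1
      have h4 : ((p : ℂ) ^ 12) ≠ 0 := pow_ne_zero _ hpC
      field_simp at h1
      linear_combination -h1
    exact_mod_cast h2
  have huZ : uZ = PowerSeries.C ((p : ℤ) - 1) + PowerSeries.C ((24 * M : ℕ) : ℤ) *
      PowerSeries.mk fun n => PowerSeries.coeff (n * p) A := by
    ext n
    simp only [uZ, PowerSeries.coeff_mk, hgZ, map_add, PowerSeries.coeff_C_mul, PowerSeries.coeff_C]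
    have : n * p = 0 ↔ n = 0 := by simp [hp.ne_zero]
    simp only [this]
  have kred : ∀ n, ((p : ZMod (24 * M)) ^ 12) * ((((p : ℤ) - 1 : ℤ) : ZMod (24 * M)) *
      ((PowerSeries.coeff n dpZ : ℤ) : ZMod (24 * M)))
      = (((p : ℤ) - 1 : ℤ) : ZMod (24 * M)) *
        ((PowerSeries.coeff (n * p) deltaZ : ℤ) : ZMod (24 * M)) := by
    intro n
    have h1 := congrArg (Int.cast : ℤ → ZMod (24 * M)) (key n)
    rw [Int.cast_mul, hgZ, coeff_mul_cast, huZ, coeff_mul_cast] at h1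
    simpa using h1
  have k1 := kred 1
  have kp := kred p
  have hp1 : ¬ p ∣ 1 := fun h => hp.one_lt.ne' (Nat.dvd_one.1 h)
  simp only [dpZ, PowerSeries.coeff_mk, hp1, if_false, dvd_refl, if_true, Nat.div_self hp.pos,
    coeff_one_deltaZ, one_mul] at k1 kp
  have htau := congrArg (Int.cast : ℤ → ZMod (24 * M)) (tau_hecke p hp p)
  simp only [dvd_refl, if_true, Nat.div_self hp.pos, coeff_one_deltaZ] at htau
  push_cast at htau k1 kp
  rw [← ZMod.natCast_eq_zero_iff]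
  have h1p : ((p - 1 : ℕ) : ZMod (24 * M)) = (p : ZMod (24 * M)) - 1 := by
    rw [Nat.cast_sub hp.one_le]; simp
  push_cast
  rw [h1p]
  linear_combination kp + ((p : ZMod (24 * M)) - 1) * htau
    - ((PowerSeries.coeff p deltaZ : ℤ) : ZMod (24 * M)) * k1

end Fermat.Agent.S16Lib
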