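import Fermat.Agent.S16.UB1
import Fermat.Agent.S16.UB2
import Fermat.Agent.S16.EisForm

/-!
# S16 : [UB1], [UB2]
-/

set_option autoImplicit false

open UpperHalfPlane hiding I
open CongruenceSubgroup ModularFormClass ModularForm
open scoped MatrixGroups Real Manifold

namespace Fermat.Agent.S16Lib

variable (p : ℕ) [Fact p.Prime]

theorem ub1 (M : ℕ) (f : CuspForm (Gamma0 p) 2) (hf : IsEisCongr p M f) : M ∣ p - 1 := by
  obtain ⟨E, hE⟩ := exists_eisE p
  exact ub1_of_eis p E (by rw [hE]; exact qCoeff_eisFun_zero p)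
    (fun k hk => by rw [hE]; exact qCoeff_eisFun p k hk) M f hf

theorem ub2 (M : ℕ) (f : CuspForm (Gamma0 p) 2) (hf : IsEisCongr p M f) :
    24 * M ∣ (p - 1) * p ^ 11 * (p + 1) := by
  obtain ⟨E, hE⟩ := exists_eisE p
  exact ub2_of_eis p E (by rw [hE]; exact qCoeff_eisFun_zero p)
    (fun k hk => by rw [hE]; exact qCoeff_eisFun p k hk) M f hf

end Fermat.Agent.S16Lib
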