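import Fermat.Agent.S16.Defs

/-!
# S16 : restriction of the level, products with cusp forms
-/

set_option autoImplicit false

open UpperHalfPlane hiding I
open CongruenceSubgroup ModularFormClass ModularForm Matrix.SpecialLinearGroup
open scoped MatrixGroups Real Manifold

namespace Fermat.Agent.S16Lib

theorem Gamma0_le_SL (N : ℕ) : ((Gamma0 N : Subgroup SL(2, ℤ)) : Subgroup (GL (Fin 2) ℝ)) ≤ 𝒮ℒ := by
  rintro _ ⟨γ, -, rfl⟩
  exact ⟨γ, rfl⟩

/-- a level one modular form as a form on `Γ₀(N)` -/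
def resMF (N : ℕ) {k : ℤ} (f : ModularForm 𝒮ℒ k) : ModularForm (Gamma0 N) k where
  toFun := f
  slash_action_eq' γ hγ := f.slash_action_eq' γ (Gamma0_le_SL N hγ)
  holo' := f.holo'
  bdd_at_cusps' hc := f.bdd_at_cusps' (hc.mono (Gamma0_le_SL N))

@[simp] theorem coe_resMF (N : ℕ) {k : ℤ} (f : ModularForm 𝒮ℒ k) :
    (⇑(resMF N f) : ℍ → ℂ) = f := rfl

/-- a level one cusp form as a form on `Γ₀(N)` -/
def resCF (N : ℕ) {k : ℤ} (f : CuspForm 𝒮ℒ k) : CuspForm (Gamma0 N) k where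
  toFun := f
  slash_action_eq' γ hγ := f.slash_action_eq' γ (Gamma0_le_SL N hγ)
  holo' := f.holo'
  zero_at_cusps' hc := f.zero_at_cusps' (hc.mono (Gamma0_le_SL N))

@[simp] theorem coe_resCF (N : ℕ) {k : ℤ} (f : CuspForm 𝒮ℒ k) :
    (⇑(resCF N f) : ℍ → ℂ) = f := rfl

/-- a cusp form as a modular form -/
def cuspToMF {Γ : Subgroup (GL (Fin 2) ℝ)} {k : ℤ} (f : CuspForm Γ k) : ModularForm Γ k where
  toFun := f
  slash_action_eq' := f.slash_action_eq'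
  holo' := f.holo'
  bdd_at_cusps' hc g hg := (f.zero_at_cusps' hc g hg).isBoundedAtImInfty

@[simp] theorem coe_cuspToMF {Γ : Subgroup (GL (Fin 2) ℝ)} {k : ℤ} (f : CuspForm Γ k) :
    (⇑(cuspToMF f) : ℍ → ℂ) = f := rfl

/-- modular form times cusp form -/
def mulCF {Γ : Subgroup (GL (Fin 2) ℝ)} [Γ.HasDetPlusMinusOne] {k₁ k₂ : ℤ}
    (f : ModularForm Γ k₁) (g : CuspForm Γ k₂) : CuspForm Γ (k₁ + k₂) where
  toSlashInvariantForm := f.1.mul g.1
  holo' := f.holo'.mul g.holo'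
  zero_at_cusps' hc γ hγ := by
    have h1 := f.bdd_at_cusps' hc γ hγ
    have h2 := g.zero_at_cusps' hc γ hγ
    have h3 : IsZeroAtImInfty ((⇑f ∣[k₁] γ) * (⇑g ∣[k₂] γ)) :=
      Filter.BoundedAtFilter.mul_zeroAtFilter h1 h2
    simpa [mul_slash] using! Filter.ZeroAtFilter.smul _ h3

@[simp] theorem coe_mulCF {Γ : Subgroup (GL (Fin 2) ℝ)} [Γ.HasDetPlusMinusOne] {k₁ k₂ : ℤ}
    (f : ModularForm Γ k₁) (g : CuspForm Γ k₂) : (⇑(mulCF f g) : ℍ → ℂ) = ⇑f * ⇑g := rfl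

end Fermat.Agent.S16Lib
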