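import Fermat.Agent.S16.IntQ

/-!
# S16 [UB3] : the Sturm bound modulo `M` for level one forms with integral `q`-expansion
(weights divisible by `12`)
-/

set_option autoImplicit false

open UpperHalfPlane hiding I
open ModularForm EisensteinSeries Filter Topology PowerSeries
open scoped MatrixGroups Manifold

namespace Fermat.Agent.S16Lib

theorem coeff_zero_e4Z : PowerSeries.coeff 0 e4Z = 1 := by simp [e4Z]

theorem deltaZ_unit_mul : ModularCurve.dedekindEtaUnit * ModularCurve.dedekindEtaUnitInv = 1 :=
  ModularCurve.dedekindEtaUnit_mul_inv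

/-- **Sturm bound mod `M`**, level one, weight `12 m`. -/
theorem sturm_levelOne_mod (M : ℤ) (m : ℕ) : ∀ {k : ℤ} (_ : k = 12 * m) (f : ModularForm 𝒮ℒ k)
    (P : PowerSeries ℤ) (_ : qExpansion 1 f = iq P) (_ : ∀ n ≤ m, M ∣ PowerSeries.coeff n P),
    ∀ n, M ∣ PowerSeries.coeff n P := by
  induction m with
  | zero =>
    intro k hk f P hP h n
    obtain rfl : k = 0 := by simpa using hk
    obtain ⟨c, hc⟩ := ModularFormClass.levelOne_weight_zero_const f
    rcases Nat.eq_zero_or_pos n with rfl | hn
    · exact h 0 le_rfl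
    · have h1 : (⇑f : ℍ → ℂ) = c • (1 : ℍ → ℂ) := by
        rw [hc]; funext z; simp
      have han : AnalyticAt ℂ (cuspFunction 1 (1 : ℍ → ℂ)) 0 :=
        ModularFormClass.analyticAt_cuspFunction_zero (1 : ModularForm 𝒮ℒ 0) one_pos
          one_mem_strictPeriods_SL
      have h2 : qExpansion 1 (⇑f) = c • (1 : PowerSeries ℂ) := by
        rw [h1, qExpansion_smul han, qExpansion_one]
      have h3 : PowerSeries.coeff n (iq P) = 0 := by
        rw [← hP, h2]
        simp [PowerSeries.coeff_one, hn.ne']
      rw [PowerSeries.coeff_map] at h3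
      have h4 : PowerSeries.coeff n P = 0 := by simpa using h3
      rw [h4]; exact dvd_zero _
  | succ m ih =>
    intro k hk f P hP h
    set a0 : ℤ := PowerSeries.coeff 0 P with ha0
    have hMa0 : M ∣ a0 := h 0 (Nat.zero_le _)
    -- the form `E₄ ^ (3 (m+1))`
    let G : ModularForm 𝒮ℒ k := ModularForm.mcast (by rw [hk]; push_cast; ring)
      (E₄.pow (3 * (m + 1)))
    have hG : qExpansion 1 G = iq (e4Z ^ (3 * (m + 1))) := by
      rw [ModularForm.qExpansion_mcast, ModularForm.qExpansion_pow one_pos
        one_mem_strictPeriods_SL, qExpansion_E4, map_pow]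
    set g : ModularForm 𝒮ℒ k := f - (a0 : ℂ) • G with hg
    set P1 : PowerSeries ℤ := P - PowerSeries.C a0 * e4Z ^ (3 * (m + 1)) with hP1
    have hgq : qExpansion 1 g = iq P1 := by
      have e1 : (⇑g : ℍ → ℂ) = ⇑f - ⇑((a0 : ℂ) • G) := rfl
      have e2 : (⇑((a0 : ℂ) • G) : ℍ → ℂ) = (a0 : ℂ) • ⇑G := rfl
      rw [e1, ModularForm.qExpansion_sub one_pos one_mem_strictPeriods_SL, e2,
        ModularForm.qExpansion_smul one_pos one_mem_strictPeriods_SL, hP, hG, hP1, map_sub,
        map_mul, PowerSeries.map_C]
      congr 1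
      ext n
      rw [PowerSeries.coeff_C_mul]
      simp
    have hP10 : PowerSeries.coeff 0 P1 = 0 := by
      rw [hP1, map_sub, PowerSeries.coeff_C_mul, PowerSeries.coeff_zero_eq_constantCoeff_apply,
        PowerSeries.coeff_zero_eq_constantCoeff_apply, map_pow,
        ← PowerSeries.coeff_zero_eq_constantCoeff_apply e4Z, coeff_zero_e4Z,
        ← PowerSeries.coeff_zero_eq_constantCoeff_apply P]
      simp [ha0]
    have hcusp : (qExpansion 1 g).coeff 0 = 0 := by
      rw [hgq, PowerSeries.coeff_map, hP10]; simp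
    have hfac := qExpansion_eq_qExpansion_discriminant_mul g hcusp
    set hh := CuspForm.discriminantEquiv (toCuspForm g hcusp) with hhh
    -- `P1 = X * P2`
    obtain ⟨P2, hP2⟩ : PowerSeries.X ∣ P1 := by
      rw [PowerSeries.X_dvd_iff, ← PowerSeries.coeff_zero_eq_constantCoeff_apply]
      exact hP10
    set P3 := ModularCurve.dedekindEtaUnitInv * P2 with hP3
    have hP13 : P1 = deltaZ * P3 := by
      rw [hP2, deltaZ, hP3]
      calc PowerSeries.X * P2 = PowerSeries.X *
            ((ModularCurve.dedekindEtaUnit * ModularCurve.dedekindEtaUnitInv) * P2) := by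
              rw [deltaZ_unit_mul, one_mul]
        _ = _ := by ring
    have hhq : qExpansion 1 hh = iq P3 := by
      rw [hgq, qExpansion_discriminant, hP13, map_mul] at hfac
      have hne : iq deltaZ ≠ 0 := by
        rw [← qExpansion_discriminant]
        intro h0
        have := discriminant_qExpansion_coeff_one
        rw [h0] at this
        simp at this
      exact (mul_left_cancel₀ hne hfac).symm
    -- divisibility of the first coefficients of `P3`
    have hP1dvd : ∀ n ≤ m + 1, M ∣ PowerSeries.coeff n P1 := by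
      intro n hn
      rw [hP1, map_sub, PowerSeries.coeff_C_mul]
      exact dvd_sub (h n hn) (Dvd.dvd.mul_right hMa0 _)
    have hP2dvd : ∀ n ≤ m, M ∣ PowerSeries.coeff n P2 := by
      intro n hn
      have := hP1dvd (n + 1) (by omega)
      rwa [hP2, PowerSeries.coeff_succ_X_mul] at this
    have hP3dvd : ∀ n ≤ m, M ∣ PowerSeries.coeff n P3 := by
      intro n hn
      rw [hP3, PowerSeries.coeff_mul]
      refine Finset.dvd_sum fun ij hij => ?_
      have : ij.2 ≤ n := by
        have := Finset.HasAntidiagonal.mem_antidiagonal.1 hij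
        omega
      exact Dvd.dvd.mul_left (hP2dvd _ (this.trans hn)) _
    have hall := ih (k := k - 12) (by rw [hk]; push_cast; ring) hh P3 hhq hP3dvd
    intro n
    have hP : P = PowerSeries.C a0 * e4Z ^ (3 * (m + 1)) + deltaZ * P3 := by
      rw [← hP13, hP1]; ring
    rw [hP, map_add, PowerSeries.coeff_C_mul, PowerSeries.coeff_mul]
    refine dvd_add (Dvd.dvd.mul_right hMa0 _) (Finset.dvd_sum fun ij _ => ?_)
    exact Dvd.dvd.mul_left (hall _) _

end Fermat.Agent.S16Lib
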