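import Fermat.Agent.S16.UB3Formal
import Fermat.Agent.S16.Sturm2
import Fermat.Agent.S16.Basic
import Fermat.Agent.S16.EisForm
import Fermat.Agent.S16.Trace
import Fermat.Prelude.Thm_CongruenceSubgroup_one_mem_strictPeriods_Gamma0
import Fermat.Prelude.Thm_ModularFormClass_qCoeff_heckeU
import Fermat.Prelude.Def_ModularForm_HeckeOperatorForms

/-!
# S16 [UB3] : if `p ≡ 7 mod 8` there is no Eisenstein congruence modulo `2`
-/

set_option autoImplicit false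
set_option linter.unusedSectionVars false

open UpperHalfPlane hiding I
open CongruenceSubgroup ModularFormClass ModularForm EisensteinSeries PowerSeries
open scoped MatrixGroups Real Manifold

namespace Fermat.Agent.S16Lib

variable (p : ℕ) [Fact p.Prime]

/-- `φ` is a modular form of weight `k` on `Γ₀(p)` with `q`-expansion `A` -/
def MFq (k : ℤ) (φ : ℍ → ℂ) (A : ℂ⟦X⟧) : Prop :=
  (∃ g : ModularForm (Gamma0 p) k, (⇑g : ℍ → ℂ) = φ) ∧ qExpansion 1 φ = A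

namespace MFq

variable {p}

theorem add {k : ℤ} {φ ψ : ℍ → ℂ} {A B : ℂ⟦X⟧} (h1 : MFq p k φ A) (h2 : MFq p k ψ B) :
    MFq p k (φ + ψ) (A + B) := by
  obtain ⟨⟨g1, rfl⟩, rfl⟩ := h1
  obtain ⟨⟨g2, rfl⟩, rfl⟩ := h2
  exact ⟨⟨g1 + g2, rfl⟩, ModularForm.qExpansion_add one_pos (one_mem_strictPeriods_Gamma0 p) g1 g2⟩

theorem sub {k : ℤ} {φ ψ : ℍ → ℂ} {A B : ℂ⟦X⟧} (h1 : MFq p k φ A) (h2 : MFq p k ψ B) :
    MFq p k (φ - ψ) (A - B) := by
  obtain ⟨⟨g1, rfl⟩, rfl⟩ := h1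
  obtain ⟨⟨g2, rfl⟩, rfl⟩ := h2
  exact ⟨⟨g1 - g2, rfl⟩, ModularForm.qExpansion_sub one_pos (one_mem_strictPeriods_Gamma0 p) g1 g2⟩

theorem smul {k : ℤ} {φ : ℍ → ℂ} {A : ℂ⟦X⟧} (c : ℂ) (h1 : MFq p k φ A) :
    MFq p k (c • φ) (c • A) := by
  obtain ⟨⟨g1, rfl⟩, rfl⟩ := h1
  exact ⟨⟨c • g1, rfl⟩, ModularForm.qExpansion_smul one_pos (one_mem_strictPeriods_Gamma0 p) c g1⟩

theorem mul {k₁ k₂ k : ℤ} {φ ψ : ℍ → ℂ} {A B : ℂ⟦X⟧} (h1 : MFq p k₁ φ A) (h2 : MFq p k₂ ψ B)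
    (hk : k = k₁ + k₂) : MFq p k (φ * ψ) (A * B) := by
  subst hk
  obtain ⟨⟨g1, rfl⟩, rfl⟩ := h1
  obtain ⟨⟨g2, rfl⟩, rfl⟩ := h2
  exact ⟨⟨g1.mul g2, rfl⟩,
    ModularForm.qExpansion_mul one_pos (one_mem_strictPeriods_Gamma0 p) g1 g2⟩

theorem pow {k₁ k : ℤ} {φ : ℍ → ℂ} {A : ℂ⟦X⟧} (h1 : MFq p k₁ φ A) (n : ℕ)
    (hk : k = n * k₁) : MFq p k (φ ^ n) (A ^ n) := by
  subst hk
  obtain ⟨⟨g1, rfl⟩, rfl⟩ := h1
  refine ⟨⟨g1.pow n, ModularForm.coe_pow g1 n⟩, ?_⟩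
  rw [← ModularForm.coe_pow g1 n]
  exact ModularForm.qExpansion_pow one_pos (one_mem_strictPeriods_Gamma0 p) g1 n

theorem heckeU {k : ℤ} {φ : ℍ → ℂ} {A : ℂ⟦X⟧} (h1 : MFq p k φ A) :
    MFq p k (ModularForm.heckeU k p φ) (upS p A) := by
  obtain ⟨⟨g1, rfl⟩, rfl⟩ := h1
  haveI : NeZero p := ⟨(Fact.out : p.Prime).ne_zero⟩
  refine ⟨⟨ModularForm.heckeULin k (dvd_refl p) g1, rfl⟩, ?_⟩
  ext n
  rw [coeff_upS]
  exact ModularFormClass.qCoeff_heckeU g1 (one_mem_strictPeriods_Gamma0 p)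
    (Fact.out : p.Prime).ne_zero n

theorem congr {k : ℤ} {φ ψ : ℍ → ℂ} {A B : ℂ⟦X⟧} (h1 : MFq p k φ A) (hφ : φ = ψ) (hA : A = B) :
    MFq p k ψ B := by
  subst hφ hA
  exact h1

theorem of_levelOne {k : ℤ} (f : ModularForm 𝒮ℒ k) : MFq p k f (qExpansion 1 f) :=
  ⟨⟨resMF p f, rfl⟩, rfl⟩

theorem vp_levelOne {k : ℤ} (f : ModularForm 𝒮ℒ k) :
    MFq p k (vp p f) (expand p (Fact.out : p.Prime).ne_zero (qExpansion 1 f)) := by
  refine ⟨exists_vp p f, ?_⟩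
  ext n
  rw [coeff_expand]
  exact qCoeff_vp p f n

end MFq

/-- the weight `8` form `(Q² + 10 F² Q - 8 F R - 3 F⁴) / 256` -/
noncomputable def wFun (F Q R : ℍ → ℂ) : ℍ → ℂ :=
  (256 : ℂ)⁻¹ • (Q * Q + (10 : ℂ) • (F * F * Q) - (8 : ℂ) • (F * R) - (3 : ℂ) • (F * F * (F * F)))

theorem MFq.wFun {F Q R : ℍ → ℂ} {F' Q' R' W' : ℤ⟦X⟧} (hF : MFq p 2 F (iq F'))
    (hQ : MFq p 4 Q (iq Q')) (hR : MFq p 6 R (iq R'))
    (hW : 256 * W' = Q' ^ 2 + 10 * F' ^ 2 * Q' - 8 * F' * R' - 3 * F' ^ 4) :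
    MFq p 8 (wFun F Q R) (iq W') := by
  have hFF : MFq p 4 (F * F) (iq F' * iq F') := hF.mul hF (by norm_num)
  have h1 := (((hQ.mul hQ (k := 8) (by norm_num)).add
    ((hFF.mul hQ (k := 8) (by norm_num)).smul 10)).sub
    ((hF.mul hR (k := 8) (by norm_num)).smul 8)).sub ((hFF.mul hFF (k := 8) (by norm_num)).smul 3)
  refine (h1.smul (256 : ℂ)⁻¹).congr rfl ?_
  have h2 := congrArg iq hW
  simp only [map_mul, map_add, map_sub, map_pow, map_ofNat] at h2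
  have h3 : iq W' = (256 : ℂ)⁻¹ • ((256 : ℂ⟦X⟧) * iq W') := by
    rw [← map_ofNat (C (R := ℂ)) 256, ← smul_eq_C_mul, smul_smul]
    norm_num
  rw [h3, h2]
  congr 1
  simp only [smul_eq_C_mul, map_ofNat]
  ring

theorem sharp_sub' (k : ℤ) (f g : ℍ → ℂ) : sharp p k (f - g) = sharp p k f - sharp p k g := by
  have : f - g = f + (-1 : ℂ) • g := by
    funext τ; simp [sub_eq_add_neg]
  rw [this, sharp_add, sharp_smul]
  funext τ; simp [sub_eq_add_neg]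

theorem sharp_mul' {k k₁ k₂ : ℤ} (hk : k = k₁ + k₂) (f g : ℍ → ℂ) :
    sharp p k (f * g) = sharp p k₁ f * sharp p k₂ g := by
  subst hk
  exact sharp_mul p k₁ k₂ f g

theorem sharp_wFun (F Q R : ℍ → ℂ) :
    sharp p 8 (wFun F Q R) = wFun (sharp p 2 F) (sharp p 4 Q) (sharp p 6 R) := by
  have hFF : sharp p 4 (F * F) = sharp p 2 F * sharp p 2 F := sharp_mul' p (by norm_num) F F
  rw [wFun, wFun, sharp_smul, sharp_sub', sharp_sub', sharp_add, sharp_smul, sharp_smul, sharp_smul,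
    sharp_mul' p (show (8 : ℤ) = 4 + 4 by norm_num) Q Q,
    sharp_mul' p (show (8 : ℤ) = 4 + 4 by norm_num) (F * F) Q,
    sharp_mul' p (show (8 : ℤ) = 2 + 6 by norm_num) F R,
    sharp_mul' p (show (8 : ℤ) = 4 + 4 by norm_num) (F * F) (F * F), hFF]

theorem wFun_homog (c : ℂ) (F Q R : ℍ → ℂ) :
    wFun (c • F) (c ^ 2 • Q) (c ^ 3 • R) = c ^ 4 • wFun F Q R := by
  funext τ
  simp only [wFun, Pi.smul_apply, Pi.sub_apply, Pi.add_apply, Pi.mul_apply, smul_eq_mul]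
  ring

theorem sharp_pow' (k : ℤ) (f : ℍ → ℂ) (n : ℕ) :
    sharp p (n * k) (f ^ n) = (sharp p k f) ^ n := by
  induction n with
  | zero =>
    have h := sharp_levelOne p (1 : ModularForm 𝒮ℒ 0)
    simp only [Nat.cast_zero, zero_mul, pow_zero]
    have h1 : (⇑(1 : ModularForm 𝒮ℒ 0) : ℍ → ℂ) = 1 := by
      funext τ; simp
    rw [h1] at h
    rw [h]
    rfl
  | succ n ih =>
    rw [pow_succ, pow_succ, sharp_mul' p (k₁ := n * k) (k₂ := k) (by push_cast; ring), ih]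

/-- weight two : the Atkin-Lehner involution is `-U_p` -/
theorem sharp_two (F : ModularForm (Gamma0 p) 2) :
    (p : ℂ) • sharp p 2 F = -ModularForm.heckeU 2 p F := by
  have hp0 : (p : ℂ) ≠ 0 := Nat.cast_ne_zero.2 (Fact.out : p.Prime).ne_zero
  obtain ⟨F', hF'⟩ := exists_sharp p (by decide : Even (2 : ℤ)) F
  obtain ⟨t, ht⟩ := exists_trace p (by decide : Even (2 : ℤ)) F'
  have ht0 : t = 0 := rank_zero_iff_forall_zero.mp levelOne_weight_two_rank_zero t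
  rw [ht0, hF', sharp_sharp p (by decide : Even (2 : ℤ)), heckeU_smul] at ht
  funext τ
  have := congrFun ht τ
  simp only [FunLike.coe_zero, Pi.zero_apply, Pi.add_apply, Pi.smul_apply, smul_eq_mul] at this
  simp only [Pi.smul_apply, Pi.neg_apply, smul_eq_mul]
  have hz : (p : ℂ) ^ (-2 : ℤ) = ((p : ℂ) ^ 2)⁻¹ := by
    rw [zpow_neg]; norm_cast
  rw [hz] at this
  field_simp at this
  linear_combination -this

/-- the weight two form `F ≡ 1 mod 8` -/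
theorem ub3_exists_F (M : ℕ) (f : CuspForm (Gamma0 p) 2) (hf : IsEisCongr p M f)
    (hp : p % 8 = 7) (hM : 2 ∣ M) :
    ∃ (F : ModularForm (Gamma0 p) 2) (A : ℤ⟦X⟧), qExpansion 1 F = iq (1 + 8 * A) := by
  obtain ⟨t, ht⟩ : ∃ t, p = 8 * t + 7 := ⟨p / 8, by omega⟩
  obtain ⟨E, hE⟩ := exists_eisE p
  have h1 : ∀ k : ℕ, ∃ d : ℤ, 1 ≤ k → qCoeff f k = (sig p k : ℂ) + 2 * d := by
    intro k
    by_cases hk : 1 ≤ k
    · obtain ⟨c, hc, hd⟩ := hf k hk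
      obtain ⟨d, hd⟩ := (Int.natCast_dvd_natCast.2 hM).trans hd
      refine ⟨d, fun _ => ?_⟩
      rw [hc]
      have : c = sig p k + 2 * d := by
        push_cast at hd
        linarith
      rw [this]; push_cast; ring
    · exact ⟨0, fun h => absurd h hk⟩
  choose d hd using h1
  refine ⟨(12 * (4 * (t : ℂ) + 3)) • (E - cuspToMF f),
    PowerSeries.mk fun n => if n = 0 then 2 * (t : ℤ) ^ 2 + 3 * t + 1
      else -3 * (4 * (t : ℤ) + 3) * d n, ?_⟩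
  have hq : qExpansion 1 ((12 * (4 * (t : ℂ) + 3)) • (E - cuspToMF f) : ModularForm (Gamma0 p) 2)
      = (12 * (4 * (t : ℂ) + 3)) • (qExpansion 1 E - qExpansion 1 f) := by
    have e1 := ModularForm.qExpansion_smul one_pos (one_mem_strictPeriods_Gamma0 p)
      (12 * (4 * (t : ℂ) + 3)) (E - cuspToMF f)
    have e2 := ModularForm.qExpansion_sub one_pos (one_mem_strictPeriods_Gamma0 p) E (cuspToMF f)
    rw [coe_cuspToMF] at e2
    rw [← e2]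
    exact e1
  rw [hq]
  ext n
  have hEn : coeff n (qExpansion 1 E) = qCoeff (eisFun p) n := by rw [hE]; rfl
  have hfn : coeff n (qExpansion 1 f) = qCoeff f n := rfl
  rw [coeff_smul, map_sub, hEn, hfn, coeff_map, map_add, ← map_ofNat (C (R := ℤ)) 8, coeff_C_mul,
    coeff_mk, coeff_one]
  rcases Nat.eq_zero_or_pos n with rfl | hn
  · have hf0 : qCoeff f 0 = 0 :=
      CuspFormClass.qExpansion_coeff_zero f one_pos (one_mem_strictPeriods_Gamma0 p)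
    rw [qCoeff_eisFun_zero, hf0, ht]
    simp only [if_true, eq_intCast, smul_eq_mul]
    push_cast
    ring
  · rw [qCoeff_eisFun p n hn, hd n hn, if_neg hn.ne', if_neg hn.ne']
    simp only [eq_intCast, smul_eq_mul]
    push_cast
    ring

theorem ub3_iq_natCast_pow_mul (n : ℕ) (A : ℤ⟦X⟧) :
    iq ((p : ℤ⟦X⟧) ^ n * A) = ((p : ℂ) ^ n) • iq A := by
  rw [map_mul, map_pow, map_natCast, smul_eq_C_mul, map_pow, map_natCast]

theorem MFq.vp_scaled {k : ℤ} (f : ModularForm 𝒮ℒ k) (A : ℤ⟦X⟧) (hA : qExpansion 1 f = iq A)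
    (n : ℕ) : MFq p k (((p : ℂ) ^ n) • vp p f)
      (iq ((p : ℤ⟦X⟧) ^ n * expand p (Fact.out : p.Prime).ne_zero A)) := by
  refine ((MFq.vp_levelOne f).smul ((p : ℂ) ^ n)).congr rfl ?_
  rw [ub3_iq_natCast_pow_mul, map_expand, hA]

theorem ub3 (M : ℕ) (f : CuspForm (Gamma0 p) 2) (hf : IsEisCongr p M f) (hp : p % 8 = 7) :
    ¬ 2 ∣ M := by
  intro hM
  have hp0 : p ≠ 0 := (Fact.out : p.Prime).ne_zero
  have hpc : (p : ℂ) ≠ 0 := Nat.cast_ne_zero.2 hp0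
  obtain ⟨F, A, hFA⟩ := ub3_exists_F p M f hf hp hM
  obtain ⟨W, W', Z, Z', hW, hW', hZ, hZ'⟩ := ub3_drops p hp hp0 (1 + 8 * A) A rfl
  set Fh : ℤ⟦X⟧ := 1 + 8 * A with hFh
  -- the basic forms
  have mF : MFq p 2 F (iq Fh) := ⟨⟨F, rfl⟩, hFA⟩
  have mQ : MFq p 4 E₄ (iq e4Z) := (MFq.of_levelOne E₄).congr rfl qExpansion_E4
  have mR : MFq p 6 E₆ (iq e6Z) := (MFq.of_levelOne E₆).congr rfl qExpansion_E6
  have mD : MFq p 12 discriminant (iq deltaZ) :=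
    (MFq.of_levelOne (cuspToMF CuspForm.discriminant)).congr rfl qExpansion_discriminant
  have mQ' := MFq.vp_scaled p E₄ e4Z qExpansion_E4 2
  have mR' := MFq.vp_scaled p E₆ e6Z qExpansion_E6 3
  have mVD : MFq p 12 (vp p discriminant) (iq (expand p hp0 deltaZ)) := by
    refine (MFq.vp_levelOne (cuspToMF CuspForm.discriminant)).congr rfl ?_
    rw [map_expand]
    congr 1
    exact qExpansion_discriminant
  have mF' : MFq p 2 ((p : ℂ) • sharp p 2 F) (iq (-upS p Fh)) := by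
    refine (mF.heckeU.smul (-1)).congr ?_ ?_
    · rw [sharp_two]; funext τ; simp
    · rw [map_neg, map_upS]; simp
  have mW : MFq p 8 (wFun F E₄ E₆) (iq W) := MFq.wFun p mF mQ mR hW
  have mW' := MFq.wFun p mF' mQ' mR' hW'
  have hsW : (p : ℂ) ^ 4 • sharp p 8 (wFun F E₄ E₆) =
      wFun ((p : ℂ) • sharp p 2 F) ((p : ℂ) ^ 2 • vp p E₄) ((p : ℂ) ^ 3 • vp p E₆) := by
    rw [sharp_wFun, sharp_levelOne, sharp_levelOne, wFun_homog]
  set Wf := wFun F E₄ E₆ with hWf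
  set Wf' := wFun ((p : ℂ) • sharp p 2 F) ((p : ℂ) ^ 2 • vp p E₄) ((p : ℂ) ^ 3 • vp p E₆) with hWf'
  -- the form `Y`
  set a : ℕ := 3 * p with ha
  set k : ℤ := (a : ℤ) * 8 + (p : ℤ) * 12 with hk
  have hk12 : k = 12 * (a : ℕ) := by rw [hk, ha]; push_cast; ring
  have hkeven : Even k := ⟨(a : ℤ) * 4 + (p : ℤ) * 6, by rw [hk]; ring⟩
  have mY : MFq p k (Wf ^ a * (vp p discriminant) ^ p) (iq W ^ a * iq (expand p hp0 deltaZ) ^ p) :=
    (mW.pow a rfl).mul (mVD.pow p rfl) rfl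
  have mY' : MFq p k (Wf' ^ a * discriminant ^ p) (iq W' ^ a * iq deltaZ ^ p) :=
    (mW'.pow a rfl).mul (mD.pow p rfl) rfl
  obtain ⟨Y, hY⟩ := mY.1
  obtain ⟨t, ht⟩ := exists_trace p hkeven Y
  have hsY : sharp p k Y = (sharp p 8 Wf) ^ a * (((p : ℂ) ^ (-12 : ℤ)) • discriminant) ^ p := by
    rw [hY, sharp_mul' p hk, sharp_pow', sharp_pow']
    congr 2
    exact sharp_vp p (cuspToMF CuspForm.discriminant)
  obtain ⟨N, hN⟩ : ∃ N, N + 1 = 4 * a + 12 * p := ⟨4 * a + 12 * p - 1, by omega⟩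
  have hsY' : ((p : ℂ) ^ (N + 1)) • sharp p k Y = Wf' ^ a * discriminant ^ p := by
    rw [hsY, ← hsW, hN]
    funext τ
    simp only [Pi.smul_apply, Pi.mul_apply, Pi.pow_apply, smul_eq_mul]
    have hz : (p : ℂ) ^ 12 * (p : ℂ) ^ (-12 : ℤ) = 1 := by
      rw [zpow_neg]
      have : (p : ℂ) ^ (12 : ℤ) = (p : ℂ) ^ 12 := by norm_cast
      rw [this]
      exact mul_inv_cancel₀ (pow_ne_zero _ hpc)
    calc (p : ℂ) ^ (4 * a + 12 * p) * (sharp p 8 Wf τ ^ a * ((p : ℂ) ^ (-12 : ℤ) * discriminant τ) ^ p)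
        = ((p : ℂ) ^ 4 * sharp p 8 Wf τ) ^ a * (((p : ℂ) ^ 12 * (p : ℂ) ^ (-12 : ℤ)) ^ p
            * discriminant τ ^ p) := by
          rw [pow_add, pow_mul, pow_mul, mul_pow, mul_pow, mul_pow]; ring
      _ = _ := by rw [hz, one_pow, one_mul]
  have hT : (⇑(((p : ℂ) ^ N) • t) : ℍ → ℂ) =
      ((p : ℂ) ^ N) • (Wf ^ a * (vp p discriminant) ^ p)
        + ModularForm.heckeU k p (Wf' ^ a * discriminant ^ p) := by
    rw [← hsY', heckeU_smul, ← hY, pow_succ, mul_smul, ← smul_add, ← ht]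
    rfl
  have mT := ((mY.smul ((p : ℂ) ^ N)).add mY'.heckeU)
  have hq : qExpansion 1 (⇑(((p : ℂ) ^ N) • t : ModularForm 𝒮ℒ k) : ℍ → ℂ) = iq ((p : ℤ⟦X⟧) ^ N * (W ^ a * (expand p hp0 deltaZ) ^ p)
        + upS p (W' ^ a * deltaZ ^ p)) := by
    rw [hT, mT.2, map_add, ub3_iq_natCast_pow_mul, map_upS, map_mul, map_mul, map_pow, map_pow,
      map_pow, map_pow]
  obtain ⟨h1, h2⟩ := ub3_parity p (by omega) (Fact.out : p.Prime).two_le hp0 a N W W' Z Z' hZ hZ'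
  exact h2 (sturm_levelOne_mod 2 a hk12 (((p : ℂ) ^ N) • t) _ hq h1 (a + 1))

end Fermat.Agent.S16Lib
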