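import Fermat.Agent.S16.Defs

/-!
# S16 [UB-arith]
-/

set_option autoImplicit false

open ModularCurve

namespace Fermat.Agent.S16Lib

theorem ub_arith (p : ℕ) [hp : Fact p.Prime] (M : ℕ) (h1 : M ∣ p - 1)
    (h2 : 24 * M ∣ (p - 1) * p ^ 11 * (p + 1)) (h3 : p % 8 = 7 → ¬ 2 ∣ M) :
    M ∣ eisensteinNumerator p := by
  have hp2 : 2 ≤ p := hp.out.two_le
  obtain ⟨c, hc⟩ := h1
  have ha : 0 < p - 1 := by omega
  have hM : 0 < M := by
    rcases Nat.eq_zero_or_pos M with h | h
    · rw [h, zero_mul] at hc; omega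
    · exact h
  -- `24 ∣ c * p ^ 11 * (p + 1)`
  have h24 : 24 ∣ c * (p ^ 11 * (p + 1)) := by
    have : M * 24 ∣ M * (c * (p ^ 11 * (p + 1))) := by
      have e : M * (c * (p ^ 11 * (p + 1))) = (p - 1) * p ^ 11 * (p + 1) := by rw [hc]; ring
      rw [e, mul_comm M 24]; exact h2
    exact Nat.dvd_of_mul_dvd_mul_left hM this
  -- the `3`-part
  have h3part : Nat.gcd (p - 1) 3 ∣ c := by
    by_cases h : 3 ∣ p - 1
    · have hg : Nat.gcd (p - 1) 3 = 3 := Nat.gcd_eq_right h
      rw [hg]
      have h31 : 3 ∣ c * (p ^ 11 * (p + 1)) := Dvd.dvd.trans (by norm_num) h24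
      have hpm : p % 3 = 1 := by omega
      have hcop : Nat.Coprime 3 (p ^ 11 * (p + 1)) := by
        apply Nat.Coprime.mul_right
        · apply Nat.Coprime.pow_right
          rw [Nat.coprime_comm, Nat.coprime_iff_gcd_eq_one] 
          have := Nat.gcd_rec 3 p
          rw [Nat.gcd_comm, Nat.gcd_rec, hpm]
          rfl
        · rw [Nat.coprime_iff_gcd_eq_one, Nat.gcd_rec]
          have : (p + 1) % 3 = 2 := by omega
          rw [this]
          rfl
      exact hcop.dvd_of_dvd_mul_right h31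
    · have hg : Nat.gcd (p - 1) 3 = 1 := by
        have := (Nat.Prime.coprime_iff_not_dvd Nat.prime_three).mpr h
        rw [Nat.gcd_comm]; exact this
      rw [hg]; exact one_dvd _
  -- the `2`-part
  have h4part : Nat.gcd (p - 1) 4 ∣ c := by
    rcases hp.out.eq_two_or_odd with h | hodd
    · subst h
      simp
    · have h8 : 8 ∣ c * (p ^ 11 * (p + 1)) := Dvd.dvd.trans (by norm_num) h24
      have hcop : Nat.Coprime 8 (p ^ 11) := by
        apply Nat.Coprime.pow_right
        have : Nat.Coprime 2 p := by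
          rw [Nat.coprime_iff_gcd_eq_one, Nat.gcd_rec, hodd]; rfl
        exact Nat.Coprime.pow_left 3 this
      have h8' : 8 ∣ c * (p + 1) := by
        have : 8 ∣ (c * (p + 1)) * p ^ 11 := by
          have e : (c * (p + 1)) * p ^ 11 = c * (p ^ 11 * (p + 1)) := by ring
          rw [e]; exact h8
        exact hcop.dvd_of_dvd_mul_right this
      have hcases : p % 8 = 1 ∨ p % 8 = 3 ∨ p % 8 = 5 ∨ p % 8 = 7 := by omega
      rcases hcases with h | h | h | h
      · -- `p ≡ 1 mod 8`
        have hg : Nat.gcd (p - 1) 4 = 4 := Nat.gcd_eq_right (by omega)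
        rw [hg]
        obtain ⟨t, ht⟩ : ∃ t, p + 1 = 2 * (2 * t + 1) := ⟨(p - 1) / 4, by omega⟩
        rw [ht] at h8'
        have : 4 ∣ c * (2 * t + 1) := by
          have : 2 * 4 ∣ 2 * (c * (2 * t + 1)) := by
            have e : 2 * (c * (2 * t + 1)) = c * (2 * (2 * t + 1)) := by ring
            rw [e]; exact h8'
          exact Nat.dvd_of_mul_dvd_mul_left (by norm_num) this
        have hc2 : Nat.Coprime 4 (2 * t + 1) := by
          have : Nat.Coprime 2 (2 * t + 1) := by
            rw [Nat.coprime_iff_gcd_eq_one, Nat.gcd_rec]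
            have : (2 * t + 1) % 2 = 1 := by omega
            rw [this]; rfl
          exact Nat.Coprime.pow_left 2 this
        exact hc2.dvd_of_dvd_mul_right this
      · -- `p ≡ 3 mod 8`
        have hg : Nat.gcd (p - 1) 4 = 2 := by
          obtain ⟨t, ht⟩ : ∃ t, p - 1 = 2 * (2 * t + 1) := ⟨(p - 3) / 4, by omega⟩
          rw [ht, show (4 : ℕ) = 2 * 2 by norm_num, Nat.gcd_mul_left]
          have : Nat.gcd (2 * t + 1) 2 = 1 := by
            rw [Nat.gcd_comm, Nat.gcd_rec]
            have : (2 * t + 1) % 2 = 1 := by omega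
            rw [this]; rfl
          rw [this]
        rw [hg]
        obtain ⟨t, ht⟩ : ∃ t, p + 1 = 4 * (2 * t + 1) := ⟨(p - 3) / 8, by omega⟩
        rw [ht] at h8'
        have : 2 ∣ c * (2 * t + 1) := by
          have : 4 * 2 ∣ 4 * (c * (2 * t + 1)) := by
            have e : 4 * (c * (2 * t + 1)) = c * (4 * (2 * t + 1)) := by ring
            rw [e]; exact h8'
          exact Nat.dvd_of_mul_dvd_mul_left (by norm_num) this
        have hc2 : Nat.Coprime 2 (2 * t + 1) := by
          rw [Nat.coprime_iff_gcd_eq_one, Nat.gcd_rec]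
          have : (2 * t + 1) % 2 = 1 := by omega
          rw [this]; rfl
        exact hc2.dvd_of_dvd_mul_right this
      · -- `p ≡ 5 mod 8`
        have hg : Nat.gcd (p - 1) 4 = 4 := Nat.gcd_eq_right (by omega)
        rw [hg]
        obtain ⟨t, ht⟩ : ∃ t, p + 1 = 2 * (2 * t + 1) := ⟨(p - 1) / 4, by omega⟩
        rw [ht] at h8'
        have : 4 ∣ c * (2 * t + 1) := by
          have : 2 * 4 ∣ 2 * (c * (2 * t + 1)) := by
            have e : 2 * (c * (2 * t + 1)) = c * (2 * (2 * t + 1)) := by ring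
            rw [e]; exact h8'
          exact Nat.dvd_of_mul_dvd_mul_left (by norm_num) this
        have hc2 : Nat.Coprime 4 (2 * t + 1) := by
          have : Nat.Coprime 2 (2 * t + 1) := by
            rw [Nat.coprime_iff_gcd_eq_one, Nat.gcd_rec]
            have : (2 * t + 1) % 2 = 1 := by omega
            rw [this]; rfl
          exact Nat.Coprime.pow_left 2 this
        exact hc2.dvd_of_dvd_mul_right this
      · -- `p ≡ 7 mod 8`
        have hg : Nat.gcd (p - 1) 4 = 2 := by
          obtain ⟨t, ht⟩ : ∃ t, p - 1 = 2 * (2 * t + 1) := ⟨(p - 3) / 4, by omega⟩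
          rw [ht, show (4 : ℕ) = 2 * 2 by norm_num, Nat.gcd_mul_left]
          have : Nat.gcd (2 * t + 1) 2 = 1 := by
            rw [Nat.gcd_comm, Nat.gcd_rec]
            have : (2 * t + 1) % 2 = 1 := by omega
            rw [this]; rfl
          rw [this]
        rw [hg]
        have hMo := h3 h
        have h2a : 2 ∣ M * c := by rw [← hc]; omega
        exact (Nat.Prime.dvd_mul Nat.prime_two).mp h2a |>.resolve_left hMo
  -- put together
  have hg12 : Nat.gcd (p - 1) 12 = Nat.gcd (p - 1) 4 * Nat.gcd (p - 1) 3 := by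
    rw [show (12 : ℕ) = 4 * 3 by norm_num]
    exact Nat.Coprime.gcd_mul (p - 1) (by norm_num)
  have hcop43 : Nat.Coprime (Nat.gcd (p - 1) 4) (Nat.gcd (p - 1) 3) :=
    Nat.Coprime.coprime_dvd_left (Nat.gcd_dvd_right _ _)
      (Nat.Coprime.coprime_dvd_right (Nat.gcd_dvd_right _ _) (by norm_num))
  have hgc : Nat.gcd (p - 1) 12 ∣ c := by
    rw [hg12]
    exact hcop43.mul_dvd_of_dvd_of_dvd h4part h3part
  obtain ⟨e, he⟩ := hgc
  unfold eisensteinNumerator
  refine ⟨e, ?_⟩
  have hgpos : 0 < Nat.gcd (p - 1) 12 := Nat.gcd_pos_of_pos_right _ (by norm_num)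
  apply Nat.div_eq_of_eq_mul_right hgpos
  generalize Nat.gcd (p - 1) 12 = g at he ⊢
  rw [hc, he]
  ring

end Fermat.Agent.S16Lib
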