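import Fermat.Agent.S16.QInt

/-!
# S16 : the integral `q`-expansion of `24 (E - f)`
-/

set_option autoImplicit false

open UpperHalfPlane hiding I
open CongruenceSubgroup ModularFormClass ModularForm
open scoped MatrixGroups Real Manifold

namespace Fermat.Agent.S16Lib

open Fermat.Agent.S23L

theorem coeff_zero_deltaZ : PowerSeries.coeff 0 deltaZ = 0 := by
  simp [deltaZ]

theorem coeff_one_deltaZ : PowerSeries.coeff 1 deltaZ = 1 := by
  rw [deltaZ, show (1 : ℕ) = 0 + 1 from rfl, PowerSeries.coeff_succ_X_mul,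
    PowerSeries.coeff_zero_eq_constantCoeff_apply, ModularCurve.constantCoeff_dedekindEtaUnit]

theorem qCoeff_cusp_zero {N : ℕ} {k : ℤ} (f : CuspForm (Gamma0 N) k) : qCoeff f 0 = 0 :=
  CuspFormClass.qExpansion_coeff_zero f one_pos (one_mem_strictPeriods_Gamma0 N)

variable (p : ℕ) [Fact p.Prime]

/-- `24 (E - f) = (p - 1) + 24 M (...)` -/
theorem exists_gZ (E : ModularForm (Gamma0 p) 2) (hE0 : qCoeff E 0 = ((p : ℂ) - 1) / 24)
    (hEk : ∀ k, 1 ≤ k → qCoeff E k = (sig p k : ℂ)) (M : ℕ)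
    (f : CuspForm (Gamma0 p) 2) (hf : IsEisCongr p M f) :
    ∃ A : PowerSeries ℤ, qx ((24 : ℂ) • ((⇑E : ℍ → ℂ) - ⇑f)) =
      iq (PowerSeries.C ((p : ℤ) - 1) + PowerSeries.C (24 * M : ℤ) * A) := by
  have h1 : ∀ k : ℕ, ∃ e : ℤ, 24 * (qCoeff E k - qCoeff f k) =
      (((if k = 0 then (p : ℤ) - 1 else 0) + 24 * M * e : ℤ) : ℂ) := by
    intro k
    rcases Nat.eq_zero_or_pos k with rfl | hk
    · refine ⟨0, ?_⟩
      rw [hE0, qCoeff_cusp_zero]
      push_cast
      simp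
      ring
    · obtain ⟨c, hc, e, he⟩ := hf k hk
      refine ⟨-e, ?_⟩
      rw [hEk k hk, hc, if_neg hk.ne']
      have : (c : ℂ) - (sig p k : ℂ) = (M : ℂ) * e := by exact_mod_cast congrArg (Int.cast : ℤ → ℂ) he
      push_cast
      linear_combination (-24 : ℂ) * this
  choose e he using h1
  refine ⟨PowerSeries.mk e, ?_⟩
  ext k
  rw [qx_smul _ ((IsQF.of_Gamma0 E).sub (IsQF.of_Gamma0_cusp f)),
    qx_sub (IsQF.of_Gamma0 E) (IsQF.of_Gamma0_cusp f), PowerSeries.coeff_map, map_add,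
    PowerSeries.coeff_C_mul, PowerSeries.coeff_mk, PowerSeries.coeff_C]
  have := he k
  rw [qCoeff_eq_coeff_qx, qCoeff_eq_coeff_qx] at this
  simpa using this

end Fermat.Agent.S16Lib
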