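import Mathlib
import Fermat.Prelude.Def_CuspForm_HeckeLocal
import Fermat.Prelude.Def_CuspForm_HeckeEvalForms
import Fermat.Prelude.Def_HeckeGalois_EichlerShimura
import Fermat.Prelude.Def_ModularCurve_ModularUnit
import Fermat.Prelude.Def_ModularForm_HeckeOperator

/-!
# S16 : shared definitions
-/

set_option autoImplicit false

open UpperHalfPlane hiding I
open ModularCurve CuspForm CongruenceSubgroup ModularFormClass ModularForm EisensteinSeries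
open scoped MatrixGroups Real

namespace Fermat.Agent.S16Lib

/-- `σ'(k)` : the sum of the divisors of `k` prime to `p` -/
def sig (p k : ℕ) : ℕ := ∑ d ∈ k.divisors with ¬ p ∣ d, d

/-- the surjection `ℤ[X_ℓ] → 𝕋` of the statement -/
noncomputable def piHom (p : ℕ) [NeZero p] : HeckeAlg →+* ↥(heckeLatticeAlgebra p ∅) :=
  (latticeRestrictHom p ∅).toRingHom.comp (heckeEvalForms p 2)

/-- the Eisenstein character `ℤ[X_ℓ] → ℤ` -/
noncomputable def eisEval (p : ℕ) : HeckeAlg →ₐ[ℤ] ℤ := MvPolynomial.aeval (eisensteinSystem p)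

/-- `f(p τ)` -/
noncomputable def vp (p : ℕ) (f : ℍ → ℂ) : ℍ → ℂ := fun τ => f (heckeDiagMatrix p • τ)

/-- the Eisenstein series `E = (p E₂(pτ) - E₂(τ)) / 24 = (p-1)/24 + ∑ σ'(k) q^k` -/
noncomputable def eisFun (p : ℕ) : ℍ → ℂ := fun τ => ((p : ℂ) * vp p E2 τ - E2 τ) / 24

/-- the expansion at the cusp `0`, in the variable `q` : `(f ∣[k] S)(p τ)` -/
noncomputable def sharp (p : ℕ) (k : ℤ) (f : ℍ → ℂ) : ℍ → ℂ := vp p (f ∣[k] ModularGroup.S)

theorem T_mem_Gamma0 (p : ℕ) : ModularGroup.T ∈ Gamma0 p := by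
  rw [Gamma0_mem]
  simp [ModularGroup.T]

/-- `T` as an element of `Γ₀(p)` -/
def TG (p : ℕ) : Gamma0 p := ⟨ModularGroup.T, T_mem_Gamma0 p⟩

/-- `μ` is the Dedekind-Rademacher homomorphism of `η(pτ)/η(τ)`, `EE` a primitive of `2πi E` -/
structure IsMu (p : ℕ) (μ : Additive (Gamma0 p) →+ ℤ) (EE : ℍ → ℂ) : Prop where
  prim : ∀ τ : ℍ, HasDerivAt (EE ∘ ofComplex) (2 * π * Complex.I * eisFun p τ) (τ : ℂ)
  equiv : ∀ (γ : Gamma0 p) (τ : ℍ),
    EE ((γ : SL(2, ℤ)) • τ) - EE τ = 2 * π * Complex.I / 24 * (μ (Additive.ofMul γ) : ℂ)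
  atT : μ (Additive.ofMul (TG p)) = (p : ℤ) - 1

/-- the hypothesis of the upper bound: `f ≡ ∑ σ'(k) q^k mod M` -/
def IsEisCongr (p M : ℕ) (f : CuspForm (Gamma0 p) 2) : Prop :=
  ∀ k : ℕ, 1 ≤ k → ∃ c : ℤ, qCoeff f k = (c : ℂ) ∧ (M : ℤ) ∣ c - (sig p k : ℤ)

end Fermat.Agent.S16Lib
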