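import Mathlib

/-!
# S16 [UB3] : the formal "filtration drop" identity
-/

set_option autoImplicit false

namespace Fermat.Agent.S16Lib

/-- If `Q³ - R² = 1728 Δ`, `F Q ≡ R mod 8`, `F² ≡ Q mod 16`, `F² ≡ 1 mod 4`, then
`W = (Q² + 10 F² Q - 8 F R - 3 F⁴) / 256` exists and is `≡ Δ mod 2`. -/
theorem drop_identity {B : Type*} [CommRing B] (h2 : ∀ x : B, 2 * x = 0 → x = 0)
    {F Q R Dl D D' e : B} (hQR : Q ^ 3 - R ^ 2 = 1728 * Dl) (hD : F * Q - R = 8 * D)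
    (hD' : F ^ 2 - Q = 16 * D') (he : F ^ 2 = 1 + 4 * e) :
    ∃ W Z : B, 256 * W = Q ^ 2 + 10 * F ^ 2 * Q - 8 * F * R - 3 * F ^ 4 ∧ W - Dl = 2 * Z := by
  have h4 : ∀ x : B, 4 * x = 0 → x = 0 := by
    intro x hx
    apply h2; apply h2
    linear_combination hx
  have h16 : ∀ x : B, 16 * x = 0 → x = 0 := by
    intro x hx
    apply h4; apply h4
    linear_combination hx
  have hQ : Q = F ^ 2 - 16 * D' := by linear_combination -hD'
  have hR : R = F ^ 3 - 8 * (D + 2 * F * D') := by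
    linear_combination -hD + F * hQ
  set D1 := D + 2 * F * D' with hD1
  have key : F ^ 3 * (D - F * D') =
      4 * (27 * Dl + D1 ^ 2 - 12 * F ^ 2 * D' ^ 2 + 64 * D' ^ 3) := by
    have : 16 * (F ^ 3 * (D - F * D') -
        4 * (27 * Dl + D1 ^ 2 - 12 * F ^ 2 * D' ^ 2 + 64 * D' ^ 3)) = 0 := by
      rw [hQ, hR] at hQR
      linear_combination hQR
    exact sub_eq_zero.1 (h16 _ this)
  set T := 27 * Dl + D1 ^ 2 - 12 * F ^ 2 * D' ^ 2 + 64 * D' ^ 3 with hT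
  -- `D - F D'` is divisible by `4`
  set D2 := F * T - (2 * e + 4 * e ^ 2) * (D - F * D') with hD2
  have hdiv : D - F * D' = 4 * D2 := by
    have hF4 : F ^ 4 = 1 + 4 * (2 * e + 4 * e ^ 2) := by
      have : F ^ 4 = (F ^ 2) ^ 2 := by ring
      rw [this, he]; ring
    linear_combination F * key - (D - F * D') * hF4
  have key2 : F ^ 3 * D2 = T := by
    have : 4 * (F ^ 3 * D2 - T) = 0 := by
      linear_combination key - F ^ 3 * hdiv
    exact sub_eq_zero.1 (h4 _ this)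
  refine ⟨F * D2 + D' ^ 2, ?_, ?_, ?_⟩
  · exact 13 * Dl + 8 * D2 ^ 2 + 12 * D2 * F * D' + 5 * F ^ 2 * D' ^ 2 - 6 * F ^ 2 * D' ^ 2
      + 32 * D' ^ 3 - 2 * e * (F * D2 + D' ^ 2)
  · linear_combination (-64 * F) * hdiv + (-8 * F) * hD + (4 * F ^ 2 - (F ^ 2 - Q) - 16 * D') * hD'
  · have hD1' : D1 = 4 * D2 + 3 * F * D' := by
      rw [hD1]; linear_combination hdiv
    rw [hT, hD1'] at key2
    linear_combination key2 - (F * D2 + D' ^ 2) * he

end Fermat.Agent.S16Lib
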