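import Fermat.Agent.S16.Defs

/-!
# S16 : arithmetic of `sig p k` (sum of the divisors of `k` prime to `p`)
-/

set_option autoImplicit false

namespace Fermat.Agent.S16Lib

open Finset

theorem sig_zero (p : ℕ) : sig p 0 = 0 := by simp [sig]

/-- `σ(n) = σ'(n) + [p ∣ n] p σ(n/p)` -/
theorem sigma_eq_sig_add (p : ℕ) (hp : p ≠ 0) (n : ℕ) :
    ArithmeticFunction.sigma 1 n = sig p n + if p ∣ n then p * ArithmeticFunction.sigma 1 (n / p) else 0 := by
  rw [ArithmeticFunction.sigma_one_apply, sig,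
    ← Finset.sum_filter_not_add_sum_filter (s := n.divisors) (p := fun d => p ∣ d)]
  congr 1
  split_ifs with h
  · obtain ⟨m, rfl⟩ := h
    rw [Nat.mul_div_cancel_left _ (Nat.pos_of_ne_zero hp), ArithmeticFunction.sigma_one_apply,
      Finset.mul_sum]
    symm
    refine Finset.sum_bij (fun d _ => p * d) ?_ ?_ ?_ ?_
    · intro d hd
      rw [Nat.mem_divisors] at hd
      simp only [Finset.mem_filter, Nat.mem_divisors]
      exact ⟨⟨Nat.mul_dvd_mul_left _ hd.1, Nat.mul_ne_zero hp hd.2⟩, Dvd.intro _ rfl⟩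
    · intro a _ b _ hab
      exact Nat.eq_of_mul_eq_mul_left (Nat.pos_of_ne_zero hp) hab
    · intro b hb
      simp only [Finset.mem_filter, Nat.mem_divisors] at hb
      obtain ⟨⟨h1, h2⟩, c, rfl⟩ := hb
      refine ⟨c, ?_, rfl⟩
      rw [Nat.mem_divisors]
      exact ⟨Nat.dvd_of_mul_dvd_mul_left (Nat.pos_of_ne_zero hp) h1, fun h => h2 (by simp [h])⟩
    · intro a _
      rfl
  · apply Finset.sum_eq_zero
    intro d hd
    simp only [Finset.mem_filter, Nat.mem_divisors] at hd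
    exact absurd (hd.2.trans hd.1.1) h

/-- `σ'(n p) = σ'(n)` -/
theorem sig_mul_self (p : ℕ) (hp : p.Prime) (n : ℕ) : sig p (n * p) = sig p n := by
  rcases Nat.eq_zero_or_pos n with rfl | hn
  · simp
  unfold sig
  congr 1
  ext d
  simp only [Finset.mem_filter, Nat.mem_divisors]
  constructor
  · rintro ⟨⟨h1, _⟩, h3⟩
    refine ⟨⟨?_, hn.ne'⟩, h3⟩
    exact (Nat.Coprime.dvd_of_dvd_mul_right
      ((Nat.Prime.coprime_iff_not_dvd hp).2 h3).symm h1)
  · rintro ⟨⟨h1, h2⟩, h3⟩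
    exact ⟨⟨Dvd.dvd.mul_right h1 _, Nat.mul_ne_zero h2 hp.ne_zero⟩, h3⟩

/-- the Hecke relation at a prime `ℓ ≠ p` -/
theorem sig_mul_prime (p : ℕ) (hp : p.Prime) (ℓ : ℕ) (hℓ : ℓ.Prime) (hℓp : ℓ ≠ p) (n : ℕ) :
    sig p (n * ℓ) + (if ℓ ∣ n then ℓ * sig p (n / ℓ) else 0) = (1 + ℓ) * sig p n := by
  rcases Nat.eq_zero_or_pos n with rfl | hn
  · simp [sig_zero]
  have hpl : ¬ p ∣ ℓ := fun h => hℓp ((Nat.prime_dvd_prime_iff_eq hp hℓ).1 h).symm
  -- split the divisors of `n ℓ` according to divisibility by `ℓ`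
  have h1 : sig p (n * ℓ) = (∑ d ∈ n.divisors with (¬ p ∣ d ∧ ¬ ℓ ∣ d), d) + ℓ * sig p n := by
    unfold sig
    rw [← Finset.sum_filter_not_add_sum_filter (s := (n * ℓ).divisors.filter fun d => ¬ p ∣ d)
      (p := fun d => ℓ ∣ d)]
    congr 1
    · apply Finset.sum_congr _ (fun _ _ => rfl)
      ext d
      simp only [Finset.mem_filter, Nat.mem_divisors]
      constructor
      · rintro ⟨⟨⟨h1, _⟩, h3⟩, h4⟩
        exact ⟨⟨Nat.Coprime.dvd_of_dvd_mul_right
          ((Nat.Prime.coprime_iff_not_dvd hℓ).2 h4).symm h1, hn.ne'⟩, h3, h4⟩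
      · rintro ⟨⟨h1, h2⟩, h3, h4⟩
        exact ⟨⟨⟨Dvd.dvd.mul_right h1 _, Nat.mul_ne_zero h2 hℓ.ne_zero⟩, h3⟩, h4⟩
    · rw [Finset.mul_sum]
      symm
      refine Finset.sum_bij (fun d _ => ℓ * d) ?_ ?_ ?_ ?_
      · intro d hd
        simp only [Finset.mem_filter, Nat.mem_divisors] at hd ⊢
        refine ⟨⟨⟨?_, Nat.mul_ne_zero hd.1.2 hℓ.ne_zero⟩, ?_⟩, Dvd.intro _ rfl⟩
        · rw [mul_comm n ℓ]; exact Nat.mul_dvd_mul_left _ hd.1.1
        · intro h
          rcases (Nat.Prime.dvd_mul hp).1 h with h | h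
          · exact hpl h
          · exact hd.2 h
      · intro a _ b _ hab
        exact Nat.eq_of_mul_eq_mul_left hℓ.pos hab
      · intro b hb
        simp only [Finset.mem_filter, Nat.mem_divisors] at hb
        obtain ⟨⟨⟨h1, h2⟩, h3⟩, c, rfl⟩ := hb
        refine ⟨c, ?_, rfl⟩
        simp only [Finset.mem_filter, Nat.mem_divisors]
        refine ⟨⟨?_, hn.ne'⟩, fun h => h3 (Dvd.dvd.mul_left h _)⟩
        rw [mul_comm n ℓ] at h1
        exact Nat.dvd_of_mul_dvd_mul_left hℓ.pos h1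
      · intro a _
        rfl
  have h2 : sig p n = (∑ d ∈ n.divisors with (¬ p ∣ d ∧ ¬ ℓ ∣ d), d) +
      (if ℓ ∣ n then ℓ * sig p (n / ℓ) else 0) := by
    unfold sig
    rw [← Finset.sum_filter_not_add_sum_filter (s := n.divisors.filter fun d => ¬ p ∣ d)
      (p := fun d => ℓ ∣ d), Finset.filter_filter]
    congr 1
    split_ifs with h
    · obtain ⟨m, rfl⟩ := h
      rw [Nat.mul_div_cancel_left _ hℓ.pos, Finset.mul_sum]
      symm
      refine Finset.sum_bij (fun d _ => ℓ * d) ?_ ?_ ?_ ?_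
      · intro d hd
        simp only [Finset.mem_filter, Nat.mem_divisors] at hd ⊢
        refine ⟨⟨⟨Nat.mul_dvd_mul_left _ hd.1.1, hn.ne'⟩, ?_⟩, Dvd.intro _ rfl⟩
        intro h
        rcases (Nat.Prime.dvd_mul hp).1 h with h | h
        · exact hpl h
        · exact hd.2 h
      · intro a _ b _ hab
        exact Nat.eq_of_mul_eq_mul_left hℓ.pos hab
      · intro b hb
        simp only [Finset.mem_filter, Nat.mem_divisors] at hb
        obtain ⟨⟨⟨h1, h2⟩, h3⟩, c, rfl⟩ := hb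
        refine ⟨c, ?_, rfl⟩
        simp only [Finset.mem_filter, Nat.mem_divisors]
        refine ⟨⟨Nat.dvd_of_mul_dvd_mul_left hℓ.pos h1, fun h => h2 (by simp [h])⟩,
          fun h => h3 (Dvd.dvd.mul_left h _)⟩
      · intro a _
        rfl
    · apply Finset.sum_eq_zero
      intro d hd
      simp only [Finset.mem_filter, Nat.mem_divisors] at hd
      exact absurd (hd.2.trans hd.1.1.1) h
  rw [h1, add_mul, one_mul]
  nth_rewrite 2 [h2]
  ring

end Fermat.Agent.S16Lib
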