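import Fermat.Agent.S16.Mu
import Fermat.Agent.S16.SigArith
import Fermat.Prelude.Thm_UpperHalfPlane_qCoeff_heckeT
import Fermat.Prelude.Thm_UpperHalfPlane_qCoeff_heckeU
import Fermat.Prelude.Thm_UpperHalfPlane_eq_of_forall_qCoeff_eq
import Fermat.Prelude.Thm_ModularForm_isBoundedAtImInfty_heckeT
import Fermat.Prelude.Thm_ModularForm_isBoundedAtImInfty_heckeU
import Fermat.Prelude.Thm_ModularForm_mdifferentiable_heckeT
import Fermat.Prelude.Thm_ModularForm_mdifferentiable_heckeU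
import Fermat.Prelude.Thm_ModularForm_periodic_heckeT_comp_ofComplex
import Fermat.Prelude.Thm_ModularForm_periodic_heckeU_comp_ofComplex

/-!
# S16 : the Eisenstein series `E = (p E₂(pτ) - E₂(τ))/24` of weight two on `Γ₀(p)`
-/

set_option autoImplicit false

open UpperHalfPlane hiding I
open ModularCurve CuspForm CongruenceSubgroup ModularFormClass ModularForm EisensteinSeries
open Complex Filter Function
open scoped MatrixGroups Real Manifold Topology

namespace Fermat.Agent.S16Lib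

local notation "𝕢" => Periodic.qParam

/-- the `q`-coefficients of `eisFun p` -/
noncomputable def eisCoeff (p : ℕ) (n : ℕ) : ℂ := if n = 0 then ((p : ℂ) - 1) / 24 else (sig p n : ℂ)

theorem hasSum_E2' (τ : ℍ) : HasSum (fun m : ℕ ↦
    (if m = 0 then 1 else -24 * ArithmeticFunction.sigma 1 m : ℂ) • 𝕢 1 τ ^ m) (E2 τ) := by
  simpa only [Function.Periodic.qParam, ofReal_one, div_one] using hasSum_qExpansion_E2 (z := τ)

theorem qParam_diag (p : ℕ) (hp : p ≠ 0) (τ : ℍ) :
    𝕢 1 ((heckeDiagMatrix p • τ : ℍ) : ℂ) = 𝕢 1 τ ^ p := by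
  rw [coe_heckeDiagMatrix_smul hp]
  simp only [Function.Periodic.qParam, ofReal_one, div_one]
  rw [← Complex.exp_nat_mul]
  congr 1
  ring

theorem hasSum_vp_E2 (p : ℕ) (hp : p ≠ 0) (τ : ℍ) : HasSum (fun n : ℕ ↦
    (if p ∣ n then (if n / p = 0 then 1 else -24 * ArithmeticFunction.sigma 1 (n / p) : ℂ) else 0)
      • 𝕢 1 τ ^ n) (vp p E2 τ) := by
  have h := hasSum_E2' (heckeDiagMatrix p • τ)
  rw [qParam_diag p hp] at h
  have hinj : Function.Injective (fun m : ℕ => p * m) := fun a b hab =>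
    Nat.eq_of_mul_eq_mul_left (Nat.pos_of_ne_zero hp) hab
  rw [← hinj.hasSum_iff]
  · have hfun : ((fun n : ℕ ↦
        (if p ∣ n then (if n / p = 0 then 1 else -24 * ArithmeticFunction.sigma 1 (n / p) : ℂ)
          else 0) • 𝕢 1 τ ^ n) ∘ fun m : ℕ => p * m) = fun m : ℕ ↦
        (if m = 0 then 1 else -24 * ArithmeticFunction.sigma 1 m : ℂ) • (𝕢 1 τ ^ p) ^ m := by
      funext m
      simp only [Function.comp_apply, Nat.mul_div_cancel_left _ (Nat.pos_of_ne_zero hp), pow_mul,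
        if_pos (Dvd.intro m rfl)]
    rw [hfun]
    exact h
  · intro n hn
    have : ¬ p ∣ n := fun ⟨m, hm⟩ => hn ⟨m, hm.symm⟩
    simp [this]

theorem hasSum_eisFun (p : ℕ) (hp : p ≠ 0) (τ : ℍ) :
    HasSum (fun n : ℕ ↦ eisCoeff p n • 𝕢 1 τ ^ n) (eisFun p τ) := by
  have h := (((hasSum_vp_E2 p hp τ).mul_left (p : ℂ)).sub (hasSum_E2' τ)).div_const 24
  have hfun : (fun n : ℕ ↦ eisCoeff p n • 𝕢 1 τ ^ n) = fun i : ℕ =>
      ((p : ℂ) * (if p ∣ i then (if i / p = 0 then 1 else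
        -24 * ArithmeticFunction.sigma 1 (i / p) : ℂ) else 0) • 𝕢 1 τ ^ i -
          (if i = 0 then 1 else -24 * ArithmeticFunction.sigma 1 i : ℂ) • 𝕢 1 τ ^ i) / 24 := ?_
  · rw [hfun]
    exact h
  funext n
  rw [smul_eq_mul, smul_eq_mul, smul_eq_mul, ← mul_assoc, ← sub_mul, mul_div_right_comm]
  congr 1
  unfold eisCoeff
  rcases Nat.eq_zero_or_pos n with rfl | hn
  · simp
  · rw [if_neg hn.ne', if_neg hn.ne']
    have h1 := sigma_eq_sig_add p hp n
    have h2 : (ArithmeticFunction.sigma 1 n : ℂ) = (sig p n : ℂ) +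
        if p ∣ n then (p : ℂ) * ArithmeticFunction.sigma 1 (n / p) else 0 := by
      rw [h1]
      split_ifs <;> push_cast <;> ring
    rw [h2]
    split_ifs with h3 h4
    · exfalso
      obtain ⟨m, rfl⟩ := h3
      rw [Nat.mul_div_cancel_left _ (Nat.pos_of_ne_zero hp)] at h4
      subst h4
      simp at hn
    · ring
    · ring

theorem eisFun_mdiff (p : ℕ) (hp : p ≠ 0) : MDiff (eisFun p) := by
  have h := (Mu.eisFun_sub_mem p hp).1
  have := h.add (mdifferentiable_const (c := ((p : ℂ) - 1) / 24))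
  convert this using 1
  funext τ
  simp

theorem eisFun_periodic (p : ℕ) (hp : p ≠ 0) : Periodic (eisFun p ∘ ofComplex) 1 := by
  have h := (Mu.eisFun_sub_mem p hp).2.1
  intro w
  have := h w
  simp only [comp_apply, Pi.sub_apply, ofReal_one] at this ⊢
  exact sub_left_injective this

theorem eisFun_bdd (p : ℕ) (hp : p ≠ 0) : IsBoundedAtImInfty (eisFun p) :=
  isBoundedAtImInfty_of_hasSum_qExpansion one_pos (hasSum_eisFun p hp)

theorem eisFun_analyticAt (p : ℕ) (hp : p ≠ 0) : AnalyticAt ℂ (cuspFunction 1 (eisFun p)) 0 :=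
  analyticAt_cuspFunction_zero one_pos (by simpa using eisFun_periodic p hp) (eisFun_mdiff p hp)
    (eisFun_bdd p hp)

/-- uniqueness of `q`-expansions, for plain functions -/
theorem qExpansion_coeff_unique_fun {h : ℝ} (f : ℍ → ℂ) {c : ℕ → ℂ} (hh : 0 < h)
    (hfanalytic : AnalyticAt ℂ (cuspFunction h f) 0)
    (hf : ∀ τ : ℍ, HasSum (fun m ↦ c m • 𝕢 h τ ^ m) (f τ)) (m : ℕ) :
    c m = (qExpansion h f).coeff m := by
  have h1 := (hasFPowerSeriesOnBall_cuspFunction hh hfanalytic hf).hasFPowerSeriesAt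
  have h2 : HasFPowerSeriesAt (cuspFunction h f)
      (.ofScalars ℂ fun m ↦ (qExpansion h f).coeff m) 0 := by
    simpa [qExpansion_coeff, div_eq_mul_inv, mul_comm]
      using hfanalytic.hasFPowerSeriesAt
  simpa [FormalMultilinearSeries.coeff_ofScalars] using
    congr_arg (FormalMultilinearSeries.coeff · m) (h1.eq_formalMultilinearSeries h2)

theorem qCoeff_eisFun_eq (p : ℕ) (hp : p ≠ 0) (n : ℕ) : qCoeff (eisFun p) n = eisCoeff p n :=
  (qExpansion_coeff_unique_fun (eisFun p) one_pos (eisFun_analyticAt p hp)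
    (hasSum_eisFun p hp) n).symm

variable (p : ℕ) [Fact p.Prime]

theorem qCoeff_eisFun_zero : qCoeff (eisFun p) 0 = ((p : ℂ) - 1) / 24 := by
  rw [qCoeff_eisFun_eq p (Fact.out : p.Prime).ne_zero]
  simp [eisCoeff]

theorem qCoeff_eisFun (k : ℕ) (hk : 1 ≤ k) : qCoeff (eisFun p) k = (sig p k : ℂ) := by
  rw [qCoeff_eisFun_eq p (Fact.out : p.Prime).ne_zero, eisCoeff, if_neg (by omega)]

theorem qCoeff_smul_eisFun (c : ℂ) (n : ℕ) :
    qCoeff (c • eisFun p) n = c * qCoeff (eisFun p) n := by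
  unfold qCoeff
  rw [qExpansion_smul (eisFun_analyticAt p (Fact.out : p.Prime).ne_zero)]
  simp

theorem heckeT_eisFun (ℓ : ℕ) (hℓ : ℓ.Prime) (hℓp : ℓ ≠ p) :
    heckeT 2 ℓ (eisFun p) = ((1 : ℂ) + ℓ) • eisFun p := by
  have hp : p.Prime := Fact.out
  have hper := eisFun_periodic p hp.ne_zero
  have hhol := eisFun_mdiff p hp.ne_zero
  have hbdd := eisFun_bdd p hp.ne_zero
  refine UpperHalfPlane.eq_of_forall_qCoeff_eq (periodic_heckeT_comp_ofComplex hper 2 ℓ)
    (mdifferentiable_heckeT hhol 2 ℓ) (isBoundedAtImInfty_heckeT hbdd 2 ℓ) ?_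
    (hhol.const_smul _) ?_ ?_
  · intro w
    have := hper w
    simp only [comp_apply, Pi.smul_apply] at this ⊢
    rw [this]
  · exact (boundedAtImInftySubalgebra ℂ).smul_mem hbdd _
  · intro n
    rw [UpperHalfPlane.qCoeff_heckeT hper hhol hbdd 2 hℓ.ne_zero, qCoeff_smul_eisFun,
      coeffHeckeT_apply]
    simp only [qCoeff_eisFun_eq p hp.ne_zero]
    rcases Nat.eq_zero_or_pos n with rfl | hn
    · simp [eisCoeff]
      ring
    · have h := sig_mul_prime p hp ℓ hℓ hℓp n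
      have h' : (sig p (n * ℓ) : ℂ) + (if ℓ ∣ n then (ℓ : ℂ) * sig p (n / ℓ) else 0) =
          (1 + ℓ) * sig p n := by
        have h2 := congrArg (Nat.cast : ℕ → ℂ) h
        push_cast at h2
        rw [← h2]
      unfold eisCoeff
      rw [if_neg (Nat.mul_ne_zero hn.ne' hℓ.ne_zero), if_neg hn.ne', ← h']
      congr 1
      split_ifs with h1 h2
      · exfalso
        obtain ⟨m, rfl⟩ := h1
        rw [Nat.mul_div_cancel_left _ hℓ.pos] at h2
        subst h2
        simp at hn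
      · norm_num
      · rfl

theorem heckeU_eisFun : heckeU 2 p (eisFun p) = eisFun p := by
  have hp : p.Prime := Fact.out
  have hper := eisFun_periodic p hp.ne_zero
  have hhol := eisFun_mdiff p hp.ne_zero
  have hbdd := eisFun_bdd p hp.ne_zero
  refine UpperHalfPlane.eq_of_forall_qCoeff_eq (periodic_heckeU_comp_ofComplex hper 2 p)
    (mdifferentiable_heckeU hhol 2 p) (isBoundedAtImInfty_heckeU hbdd 2 p) hper hhol hbdd ?_
  intro n
  rw [UpperHalfPlane.qCoeff_heckeU hper hhol hbdd 2 hp.ne_zero, coeffHeckeU_apply]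
  simp only [qCoeff_eisFun_eq p hp.ne_zero]
  rcases Nat.eq_zero_or_pos n with rfl | hn
  · simp
  · unfold eisCoeff
    rw [if_neg (Nat.mul_ne_zero hn.ne' hp.ne_zero), if_neg hn.ne', sig_mul_self p hp]

end Fermat.Agent.S16Lib
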