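import Fermat.Agent.S16.Defs
import Fermat.Agent.S21.Inj
import Fermat.Agent.S22.Decay

/-!
# S16 [LB-Hecke] : the lattice of (periods, Dedekind-Rademacher value) is Hecke stable
-/

set_option autoImplicit false
set_option linter.unusedSectionVars false

open UpperHalfPlane hiding I
open ModularCurve CuspForm CongruenceSubgroup ModularFormClass ModularForm EisensteinSeries
open ModularCurve.Period Matrix.SpecialLinearGroup
open P2MW.S_ModularForm_heckeT_slash_eq_self_of_mem_Gamma0.ModularForm.HeckeSlashInvariance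
open scoped MatrixGroups Real Manifold

namespace Fermat.Agent.S16Lib

open Fermat.Agent.S21Lib Fermat.Agent.S22Lib

section Abstract

variable {N : ℕ} [NeZero N]

/-- the abstract transfer formula: if `G` is a primitive of `g` whose `Γ₀(N)`-increments are given
by `c`, then any primitive `G'` of `∑ g ∣ αᵢ` has increments `∑ c (γᵢ)`. -/
theorem hl_transfer {ι' : Type*} [Fintype ι'] (α : ι' → GL (Fin 2) ℝ)
    (hα : ∀ i, 0 < (α i).val.det) {G g G' : ℍ → ℂ} (hG : IsPrim G g)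
    (hG' : IsPrim G' (∑ i, g ∣[(2 : ℤ)] α i)) (c : Gamma0 N → ℂ)
    (hc : ∀ (γ : Gamma0 N) (z : ℍ), G ((γ : SL(2, ℤ)) • z) - G z = c γ)
    (γ : Gamma0 N) (σ : Equiv.Perm ι') (γ' : ι' → Gamma0 N)
    (hmul : ∀ i, α i * mapGL ℝ (γ : SL(2, ℤ)) = mapGL ℝ (γ' i : SL(2, ℤ)) * α (σ i)) (z : ℍ) :
    G' ((γ : SL(2, ℤ)) • z) - G' z = ∑ i, c (γ' i) := by
  have h2 : IsPrim (fun τ => ∑ i, G (α i • τ)) (fun τ => ∑ i, (g ∣[(2 : ℤ)] α i) τ) :=
    IsPrim.sum Finset.univ fun i _ => IsPrim.comp_smul hG (α i) (hα i)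
  have h3 : (fun τ => ∑ i, (g ∣[(2 : ℤ)] α i) τ) = ∑ i, g ∣[(2 : ℤ)] α i := by
    funext τ
    rw [Finset.sum_apply]
  rw [h3] at h2
  have h4 := hG'.sub_eq_sub h2 ((γ : SL(2, ℤ)) • z) z
  have h5 : G' ((γ : SL(2, ℤ)) • z) - G' z =
      ∑ i, G (α i • ((γ : SL(2, ℤ)) • z)) - ∑ i, G (α i • z) := by
    linear_combination h4
  rw [h5, ← Equiv.sum_comp σ (fun i => G (α i • z)), ← Finset.sum_sub_distrib]
  refine Finset.sum_congr rfl fun i _ => ?_
  rw [← hc (γ' i) (α (σ i) • z)]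
  congr 2
  have e1 : α i • ((γ : SL(2, ℤ)) • z) = (α i * mapGL ℝ (γ : SL(2, ℤ))) • z := by
    rw [mul_smul]; rfl
  have e2 : ((γ' i : Gamma0 N) : SL(2, ℤ)) • (α (σ i) • z) =
      (mapGL ℝ (γ' i : SL(2, ℤ)) * α (σ i)) • z := by
    rw [mul_smul]; rfl
  rw [e1, e2, hmul i]

theorem hl_map_prod {A : Type*} [AddCommMonoid A] {ι' : Type*} [Fintype ι']
    (χ : Additive (Gamma0 N) →+ A) (γs : ι' → Gamma0 N) :
    χ (Additive.ofMul ((Finset.univ.toList.map γs).prod)) = ∑ i, χ (Additive.ofMul (γs i)) := by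
  rw [ofMul_list_prod, map_list_sum, List.map_map, List.map_map, Finset.sum_map_toList]
  rfl

theorem hl_per_eq (f : CuspForm (Gamma0 N) 2) (γ : Gamma0 N) :
    per f γ = (FP_equivariant f).periodHom (Additive.ofMul γ) := rfl

end Abstract

section Step

variable {p : ℕ} [Fact p.Prime]

theorem hl_smul_slash {A : GL (Fin 2) ℝ} (hA : 0 < A.val.det) (c : ℂ) (f : ℍ → ℂ) :
    (c • f) ∣[(2 : ℤ)] A = c • (f ∣[(2 : ℤ)] A) := by
  have hA' : 0 < A.det.val := by simpa [Matrix.GeneralLinearGroup.val_det_apply] using hA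
  have hσ : σ A = .refl ℝ ℂ := by rw [σ, if_pos hA']
  rw [ModularForm.smul_slash, hσ]
  rfl

/-- one Hecke step -/
theorem hl_step {μ : Additive (Gamma0 p) →+ ℤ} {EE : ℍ → ℂ} (hμ : IsMu p μ EE)
    {ι' : Type*} [Fintype ι'] (α : ι' → GL (Fin 2) ℝ) (hα : ∀ i, 0 < (α i).val.det)
    (hperm : ∀ g ∈ Gamma0 p, ∃ σ : Equiv.Perm ι', ∀ i,
      ∃ g' ∈ Gamma0 p, α i * mapGL ℝ g = mapGL ℝ g' * α (σ i))
    (T : Module.End ℂ (CuspForm (Gamma0 p) 2))
    (hT : ∀ f : CuspForm (Gamma0 p) 2, (⇑(T f) : ℍ → ℂ) = ∑ i, ⇑f ∣[(2 : ℤ)] α i)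
    (lam : ℤ) (hE : ∑ i, eisFun p ∣[(2 : ℤ)] α i = (lam : ℂ) • eisFun p) (γ : Gamma0 p) :
    ∃ γ' : Gamma0 p, (∀ f : CuspForm (Gamma0 p) 2, per f γ' = per (T f) γ) ∧
      μ (Additive.ofMul γ') = lam * μ (Additive.ofMul γ) := by
  obtain ⟨σ', hσ'⟩ := hperm γ γ.2
  choose g' hg' hmul using hσ'
  let γs : ι' → Gamma0 p := fun i => ⟨g' i, hg' i⟩
  refine ⟨(Finset.univ.toList.map γs).prod, fun f => ?_, ?_⟩
  · rw [hl_per_eq, hl_map_prod]
    have h1 : IsPrim (FP (T f)) (∑ i, ⇑f ∣[(2 : ℤ)] α i) := by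
      rw [← hT f]; exact FP_isPrim (T f)
    have h2 := hl_transfer α hα (FP_isPrim f) h1 (fun γ => per f γ)
      (fun γ z => FP_smul_sub f γ z) γ σ' γs hmul UpperHalfPlane.I
    rw [FP_smul_sub] at h2
    rw [h2]
    rfl
  · have hc0 : (2 * π * Complex.I / 24 : ℂ) ≠ 0 := by
      have : (π : ℂ) ≠ 0 := by exact_mod_cast Real.pi_ne_zero
      simp [this]
    have hP : IsPrim EE ((2 * π * Complex.I : ℂ) • eisFun p) := fun τ => hμ.prim τ
    have h1 : IsPrim ((lam : ℂ) • EE)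
        (∑ i, ((2 * π * Complex.I : ℂ) • eisFun p) ∣[(2 : ℤ)] α i) := by
      have e : ∑ i, ((2 * π * Complex.I : ℂ) • eisFun p) ∣[(2 : ℤ)] α i =
          (lam : ℂ) • ((2 * π * Complex.I : ℂ) • eisFun p) := by
        simp only [hl_smul_slash (hα _)]
        rw [← Finset.smul_sum, hE, smul_comm]
      rw [e]
      exact hP.const_smul _
    have h2 := hl_transfer α hα hP h1
      (fun γ => 2 * π * Complex.I / 24 * (μ (Additive.ofMul γ) : ℂ))
      (fun γ z => hμ.equiv γ z) γ σ' γs hmul UpperHalfPlane.I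
    rw [hl_map_prod]
    have h3 : ((lam : ℂ) • EE) ((γ : SL(2, ℤ)) • UpperHalfPlane.I) -
        ((lam : ℂ) • EE) UpperHalfPlane.I =
        (lam : ℂ) * (2 * π * Complex.I / 24 * (μ (Additive.ofMul γ) : ℂ)) := by
      rw [← hμ.equiv γ UpperHalfPlane.I]
      simp only [Pi.smul_apply, smul_eq_mul]
      ring
    rw [h3, ← Finset.mul_sum] at h2
    have h4 : ((lam * μ (Additive.ofMul γ) : ℤ) : ℂ) =
        ((∑ i, μ (Additive.ofMul (γs i)) : ℤ) : ℂ) := by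
      push_cast
      apply mul_left_cancel₀ hc0
      linear_combination h2
    exact_mod_cast h4.symm

theorem hl_det_heckeMatrix_pos (q j : ℕ) : 0 < (heckeMatrix q j).val.det := by
  rw [← Matrix.GeneralLinearGroup.val_det_apply]
  exact det_heckeMatrix_pos q j

theorem hl_det_heckeRep_pos (q : ℕ) (x : OnePoint (ZMod q)) : 0 < (heckeRep q x).val.det := by
  induction x using OnePoint.rec with
  | infty =>
    rw [← Matrix.GeneralLinearGroup.val_det_apply]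
    exact det_heckeDiagMatrix_pos q
  | coe j => exact hl_det_heckeMatrix_pos q j.val

/-- the step for a generator -/
theorem hl_step_gen {μ : Additive (Gamma0 p) →+ ℤ} {EE : ℍ → ℂ} (hμ : IsMu p μ EE)
    (hET : ∀ ℓ : ℕ, ℓ.Prime → ℓ ≠ p → heckeT 2 ℓ (eisFun p) = ((1 : ℂ) + ℓ) • eisFun p)
    (hEU : heckeU 2 p (eisFun p) = eisFun p)
    (ℓ : Nat.Primes) (γ : Gamma0 p) :
    ∃ γ' : Gamma0 p, (∀ f : CuspForm (Gamma0 p) 2, per f γ' =
        per ((heckeFormsGen p 2 ℓ : Module.End ℂ (CuspForm (Gamma0 p) 2)) f) γ) ∧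
      μ (Additive.ofMul γ') = eisensteinSystem p ℓ * μ (Additive.ofMul γ) := by
  have hp : p.Prime := Fact.out
  by_cases h : (ℓ : ℕ) ∣ p
  · have hℓp : (ℓ : ℕ) = p := (Nat.prime_dvd_prime_iff_eq ℓ.2 hp).mp h
    rw [heckeFormsGen_of_dvd h, eisensteinSystem_of_dvd h, heckeAlgebra.coe_U]
    have : NeZero (ℓ : ℕ) := ⟨ℓ.2.ne_zero⟩
    refine hl_step hμ (fun x : ZMod (ℓ : ℕ) => heckeMatrix ℓ x.val)
      (fun x => hl_det_heckeMatrix_pos _ _) (fun g hg => ?_) _ (fun f => ?_) 1 ?_ γ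
    · have hcN : (p : ℤ) ∣ g 1 0 :=
        (ZMod.intCast_zmod_eq_zero_iff_dvd _ _).mp (Gamma0_mem.mp hg)
      have hc : ((ℓ : ℕ) : ℤ) ∣ g 1 0 := (Int.natCast_dvd_natCast.mpr h).trans hcN
      refine ⟨affinePerm g ((ZMod.intCast_zmod_eq_zero_iff_dvd _ _).mpr hc), fun x => ?_⟩
      obtain ⟨g', hg', hmul⟩ := heckeMatrix_mul_of_dvd g hc x
      refine ⟨g', ?_, hmul⟩
      rw [Gamma0_mem, hg']
      push_cast
      rw [Gamma0_mem.mp hg, mul_zero]
    · rw [CuspForm.coe_heckeULin_apply, heckeU_eq_sum_zmod]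
    · rw [← heckeU_eq_sum_zmod, hℓp, hEU]
      simp
  · have hℓp : (ℓ : ℕ) ≠ p := fun e => h (e ▸ dvd_rfl)
    rw [heckeFormsGen_of_not_dvd h, eisensteinSystem_of_not_dvd h, heckeAlgebra.coe_T]
    have : Fact (ℓ : ℕ).Prime := ⟨ℓ.2⟩
    refine hl_step hμ (heckeRep ℓ) (hl_det_heckeRep_pos _) (fun g hg => ?_) _ (fun f => ?_)
      (1 + (ℓ : ℕ)) ?_ γ
    · have hcN : (p : ℤ) ∣ g 1 0 :=
        (ZMod.intCast_zmod_eq_zero_iff_dvd _ _).mp (Gamma0_mem.mp hg)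
      refine ⟨MulAction.toPerm (redMatrix ℓ g), fun x => ?_⟩
      obtain ⟨g', hg', hmul⟩ := heckeRep_mul h g hcN x
      exact ⟨g', Gamma0_mem.mpr ((ZMod.intCast_zmod_eq_zero_iff_dvd _ _).mpr hg'), hmul⟩
    · rw [CuspForm.coe_heckeTLin_apply, heckeT_eq_sum_onePoint]
    · rw [← heckeT_eq_sum_onePoint, hET ℓ ℓ.2 hℓp]
      push_cast
      rfl

theorem hl_per_mul (f : CuspForm (Gamma0 p) 2) (a b : Gamma0 p) :
    per f (a * b) = per f a + per f b := (FP_equivariant f).period_mul a b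

theorem hl_per_zpow (f : CuspForm (Gamma0 p) 2) (a : Gamma0 p) (n : ℤ) :
    per f (a ^ n) = n * per f a := by
  rw [hl_per_eq, hl_per_eq, ofMul_zpow, map_zsmul]
  simp

theorem hl_per_add (f g : CuspForm (Gamma0 p) 2) (a : Gamma0 p) :
    per (f + g) a = per f a + per g a := by
  unfold per
  rw [FP_add]
  simp only [Pi.add_apply]
  ring

theorem hl_per_smul (c : ℂ) (f : CuspForm (Gamma0 p) 2) (a : Gamma0 p) :
    per (c • f) a = c * per f a := by
  unfold per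
  rw [FP_smul]
  simp only [Pi.smul_apply, smul_eq_mul]
  ring

/-- the form of `hecke_stable` with the Eisenstein eigen-equations as hypotheses -/
theorem hecke_stable_aux {μ : Additive (Gamma0 p) →+ ℤ} {EE : ℍ → ℂ} (hμ : IsMu p μ EE)
    (hET : ∀ ℓ : ℕ, ℓ.Prime → ℓ ≠ p → heckeT 2 ℓ (eisFun p) = ((1 : ℂ) + ℓ) • eisFun p)
    (hEU : heckeU 2 p (eisFun p) = eisFun p)
    (P : HeckeAlg) (γ : Gamma0 p) :
    ∃ γ' : Gamma0 p,
      (∀ f : CuspForm (Gamma0 p) 2, per f γ' =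
        per ((heckeEvalForms p 2 P : Module.End ℂ (CuspForm (Gamma0 p) 2)) f) γ) ∧
      μ (Additive.ofMul γ') = eisEval p P * μ (Additive.ofMul γ) := by
  induction P using MvPolynomial.induction_on generalizing γ with
  | C a =>
    refine ⟨γ ^ a, fun f => ?_, ?_⟩
    · rw [hl_per_zpow, heckeEvalForms_C]
      have : ((algebraMap ℤ (heckeAlgebra p 2 ∅) a : heckeAlgebra p 2 ∅) :
          Module.End ℂ (CuspForm (Gamma0 p) 2)) f = (a : ℂ) • f := by
        rw [Subalgebra.coe_algebraMap]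
        simp only [Module.algebraMap_end_apply]
        exact (Int.cast_smul_eq_zsmul ℂ a f).symm
      rw [this, hl_per_smul]
    · rw [ofMul_zpow, map_zsmul]
      simp [eisEval]
  | add P Q hP hQ =>
    obtain ⟨γ₁, h1, h1'⟩ := hP γ
    obtain ⟨γ₂, h2, h2'⟩ := hQ γ
    refine ⟨γ₁ * γ₂, fun f => ?_, ?_⟩
    · rw [hl_per_mul, h1, h2, map_add, Subalgebra.coe_add, LinearMap.add_apply, hl_per_add]
    · rw [ofMul_mul, map_add, h1', h2', map_add]
      ring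
  | mul_X P ℓ hP =>
    obtain ⟨γ₁, h1, h1'⟩ := hP γ
    obtain ⟨γ₂, h2, h2'⟩ := hl_step_gen hμ hET hEU ℓ γ₁
    refine ⟨γ₂, fun f => ?_, ?_⟩
    · rw [h2, h1, map_mul]
      have : heckeEvalForms p 2 (MvPolynomial.X ℓ) = heckeFormsGen p 2 ℓ :=
        heckeEvalForms_heckeGen p 2 ℓ
      rw [this, Subalgebra.coe_mul]
      rfl
    · rw [h2', h1', map_mul]
      have : eisEval p (MvPolynomial.X ℓ) = eisensteinSystem p ℓ := by
        simp [eisEval]
      rw [this]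
      ring

end Step

end Fermat.Agent.S16Lib
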