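import Fermat.Agent.S24.JExp

/-!
# S16 : integral `q`-expansions of `E₄`, `E₆`, `Δ`
-/

set_option autoImplicit false

open UpperHalfPlane hiding I
open ModularForm EisensteinSeries Filter Topology PowerSeries
open scoped MatrixGroups Manifold

namespace Fermat.Agent.S16Lib

open Fermat.Agent.S24Lib

/-- coefficientwise embedding `ℤ⟦X⟧ → ℂ⟦X⟧` -/
noncomputable abbrev iq : PowerSeries ℤ →+* PowerSeries ℂ := PowerSeries.map (Int.castRingHom ℂ)

theorem iq_injective : Function.Injective iq :=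
  PowerSeries.map_injective _ (RingHom.injective_int _)

/-- `E₄ = 1 + 240 ∑ σ₃(n) qⁿ` -/
noncomputable def e4Z : PowerSeries ℤ :=
  PowerSeries.mk fun n => if n = 0 then 1 else 240 * ∑ d ∈ n.divisors, (d : ℤ) ^ 3

/-- `E₆ = 1 - 504 ∑ σ₅(n) qⁿ` -/
noncomputable def e6Z : PowerSeries ℤ :=
  PowerSeries.mk fun n => if n = 0 then 1 else -504 * ∑ d ∈ n.divisors, (d : ℤ) ^ 5

/-- `Δ = q ∏ (1 - qⁿ)²⁴` -/
noncomputable def deltaZ : PowerSeries ℤ := PowerSeries.X * ModularCurve.dedekindEtaUnit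

theorem qExpansion_E4 : qExpansion 1 E₄ = iq e4Z := eisenstein4_map.symm

theorem qExpansion_E6 : qExpansion 1 E₆ = iq e6Z := by
  ext m
  rw [E_qExpansion_coeff _ ⟨3, rfl⟩, PowerSeries.coeff_map, e6Z, PowerSeries.coeff_mk]
  split_ifs with h
  · simp
  · have hb : bernoulli 6 = 1 / 42 := by decide +kernel
    rw [hb, ArithmeticFunction.sigma_apply]
    push_cast
    norm_num

theorem qExpansion_discriminant : qExpansion 1 discriminant = iq deltaZ := by
  have h1 : qExpansion 1 discriminant = tay (cuspFunction 1 discriminant) := rfl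
  have h2 : cuspFunction 1 discriminant =ᶠ[𝓝 0] fun z => z * eulerP z ^ 24 := by
    filter_upwards [Metric.ball_mem_nhds (0 : ℂ) one_pos] with z hz
    rw [discriminant_cuspFunction_eqOn hz]
    have hz1 : ‖z‖ < 1 := by simpa using hz
    have h4 := (multipliable_one_sub_pow hz1).tprod_pow 24
    simp only
    rw [h4]
    rfl
  have hid : AnalyticAt ℂ (fun z : ℂ => z) 0 := analyticAt_id
  have h24 : AnalyticAt ℂ (fun z : ℂ => eulerP z ^ 24) 0 := analyticAt_eulerP.pow 24
  rw [h1, tay_congr h2, tay_mul hid h24, tay_id, tay_pow analyticAt_eulerP, tay_eulerP, deltaZ,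
    map_mul, PowerSeries.map_X, ModularCurve.dedekindEtaUnit, map_pow]

theorem e4Z_eq : ∃ A : PowerSeries ℤ, e4Z = 1 + 240 * (PowerSeries.X * A) := by
  refine ⟨PowerSeries.mk fun n => ∑ d ∈ (n + 1).divisors, (d : ℤ) ^ 3, ?_⟩
  ext n
  cases n with
  | zero => simp [e4Z]
  | succ n =>
    have : (240 : PowerSeries ℤ) = PowerSeries.C 240 := by simp
    rw [this, map_add, PowerSeries.coeff_C_mul, PowerSeries.coeff_succ_X_mul]
    simp [e4Z, PowerSeries.coeff_one]

theorem e6Z_eq : ∃ A : PowerSeries ℤ, e6Z = 1 - 504 * (PowerSeries.X * A) := by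
  refine ⟨PowerSeries.mk fun n => ∑ d ∈ (n + 1).divisors, (d : ℤ) ^ 5, ?_⟩
  ext n
  cases n with
  | zero => simp [e6Z]
  | succ n =>
    have : (504 : PowerSeries ℤ) = PowerSeries.C 504 := by simp
    rw [this, map_sub, PowerSeries.coeff_C_mul, PowerSeries.coeff_succ_X_mul]
    simp [e6Z, PowerSeries.coeff_one]

theorem e4Z_cube_sub_e6Z_sq : e4Z ^ 3 - e6Z ^ 2 = 1728 * deltaZ := by
  apply iq_injective
  have hfun : ((1728 : ℂ) • ⇑CuspForm.discriminant : ℍ → ℂ) = ⇑(E₄.pow 3) - ⇑(E₆.pow 2) := by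
    funext z
    have := discriminant_eq_E₄_cube_sub_E₆_sq z
    simp only [Pi.smul_apply, CuspForm.coe_discriminant, smul_eq_mul,
      Pi.sub_apply, ModularForm.coe_pow, Pi.pow_apply]
    rw [this]
    ring
  have h1 := ModularForm.qExpansion_smul one_pos one_mem_strictPeriods_SL (1728 : ℂ)
    CuspForm.discriminant
  have h2 := qExpansion_sub (h := 1)
    (ModularFormClass.analyticAt_cuspFunction_zero (E₄.pow 3) one_pos one_mem_strictPeriods_SL)
    (ModularFormClass.analyticAt_cuspFunction_zero (E₆.pow 2) one_pos one_mem_strictPeriods_SL)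
  rw [← hfun, h1, ModularForm.qExpansion_pow one_pos one_mem_strictPeriods_SL,
    ModularForm.qExpansion_pow one_pos one_mem_strictPeriods_SL, qExpansion_E4, qExpansion_E6,
    CuspForm.coe_discriminant, qExpansion_discriminant] at h2
  rw [map_sub, map_pow, map_pow, ← h2, map_mul]
  ext n
  have : (iq 1728 : PowerSeries ℂ) = PowerSeries.C 1728 := by
    have h0 : (1728 : PowerSeries ℤ) = PowerSeries.C 1728 := (map_ofNat PowerSeries.C 1728).symm
    rw [h0, PowerSeries.map_C]
    simp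
  rw [this, PowerSeries.coeff_C_mul]
  simp

end Fermat.Agent.S16Lib
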