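import Fermat.Agent.S16.KLemmaAux
import Fermat.Agent.S16.Psi

/-!
# S16 : [LB-K]
-/

set_option autoImplicit false

open UpperHalfPlane hiding I
open ModularCurve CongruenceSubgroup
open scoped MatrixGroups

namespace Fermat.Agent.S16Lib

open Fermat.Agent.S21Lib

variable (p : ℕ) [Fact p.Prime]

theorem dvd_mu_of_per_eq_zero {μ : Additive (Gamma0 p) →+ ℤ} {EE : ℍ → ℂ} (hμ : IsMu p μ EE)
    (γ : Gamma0 p) (h : ∀ f : CuspForm (Gamma0 p) 2, per f γ = 0) :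
    ((p : ℤ) - 1) ∣ μ (Additive.ofMul γ) := by
  obtain ⟨ψ, hψ⟩ := exists_psi p
  exact dvd_mu_of_per_eq_zero_aux p hμ ψ hψ γ h

end Fermat.Agent.S16Lib
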