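import Mathlib

/-!
# S16 : algebraic lemmas for Ogg's lemma
-/

set_option autoImplicit false

open PowerSeries

namespace Fermat.Agent.S16Lib.Ogg

/-- coefficientwise embedding `ℚ⟦X⟧ → ℂ⟦X⟧` -/
noncomputable abbrev rq : PowerSeries ℚ →+* PowerSeries ℂ := PowerSeries.map (algebraMap ℚ ℂ)

/-- a `d`-th root with constant term `1` of a rational power series is rational -/
theorem rat_root_coeff (d : ℕ) (hd : d ≠ 0) (W : PowerSeries ℂ) (Q : PowerSeries ℚ)
    (h0 : coeff 0 W = 1) (h : W ^ d = rq Q) (n : ℕ) : ∃ r : ℚ, coeff n W = (r : ℂ) := by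
  induction n using Nat.strong_induction_on with
  | _ n ih =>
    rcases Nat.eq_zero_or_pos n with rfl | hn
    · exact ⟨1, by simp [h0]⟩
    choose! r hr using ih
    set T₀ : PowerSeries ℚ := PowerSeries.mk (fun k => if k < n then r k else 0) with hT₀
    set T : PowerSeries ℂ := rq T₀ with hT
    have hdvd : (X : PowerSeries ℂ) ^ n ∣ W - T := by
      rw [PowerSeries.X_pow_dvd_iff]
      intro m hm
      rw [map_sub, hT, PowerSeries.coeff_map, hT₀, PowerSeries.coeff_mk, if_pos hm, hr m hm]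
      simp
    obtain ⟨V, hV⟩ := hdvd
    have hW : W = T + X ^ n * V := by rw [← hV]; ring
    have hTn : coeff n T = 0 := by
      rw [hT, PowerSeries.coeff_map, hT₀, PowerSeries.coeff_mk, if_neg (lt_irrefl n)]
      simp
    have hT0 : coeff 0 T = 1 := by
      rw [hT, PowerSeries.coeff_map, hT₀, PowerSeries.coeff_mk, if_pos hn]
      have := hr 0 hn
      rw [h0] at this
      simpa using this.symm
    have hWn : coeff n W = coeff 0 V := by
      rw [hW, map_add, hTn, zero_add]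
      have := PowerSeries.coeff_X_pow_mul V n 0
      simpa using this
    obtain ⟨k, hk⟩ := Polynomial.powAddExpansion T (X ^ n * V) d
    rw [← hW, h] at hk
    have h1 := congrArg (coeff n) hk
    rw [map_add, map_add, PowerSeries.coeff_map] at h1
    have h2 : coeff n (k * (X ^ n * V) ^ 2) = 0 := by
      have : k * (X ^ n * V) ^ 2 = X ^ (n + 1) * (X ^ (n - 1) * (k * V ^ 2)) := by
        rw [← mul_assoc, ← pow_add]
        have : n + 1 + (n - 1) = n * 2 := by omega
        rw [this, mul_pow, ← pow_mul]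
        ring
      rw [this]
      exact (PowerSeries.X_pow_dvd_iff.1 (Dvd.intro _ rfl)) n (Nat.lt_succ_self n)
    have h3 : coeff n ((d : PowerSeries ℂ) * T ^ (d - 1) * (X ^ n * V)) = d * coeff 0 V := by
      have e : (d : PowerSeries ℂ) * T ^ (d - 1) * (X ^ n * V) =
          X ^ n * ((d : PowerSeries ℂ) * T ^ (d - 1) * V) := by ring
      rw [e]
      have := PowerSeries.coeff_X_pow_mul ((d : PowerSeries ℂ) * T ^ (d - 1) * V) n 0
      rw [zero_add] at this
      rw [this]
      simp only [PowerSeries.coeff_zero_eq_constantCoeff, map_mul, map_pow, map_natCast] at hT0 ⊢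
      rw [hT0]
      simp
    have h4 : coeff n (T ^ d) = ((coeff n (T₀ ^ d) : ℚ) : ℂ) := by
      rw [hT, ← map_pow, PowerSeries.coeff_map]
      rfl
    rw [h2, h3, h4, add_zero] at h1
    refine ⟨(coeff n Q - coeff n (T₀ ^ d)) / d, ?_⟩
    rw [hWn]
    have hd' : (d : ℂ) ≠ 0 := by exact_mod_cast hd
    push_cast
    rw [eq_div_iff hd']
    have h5 : (algebraMap ℚ ℂ) (coeff n Q) = ((coeff n Q : ℚ) : ℂ) := rfl
    rw [h5] at h1
    rw [h1]
    ring

theorem rat_root (d : ℕ) (hd : d ≠ 0) (W : PowerSeries ℂ) (Q : PowerSeries ℚ)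
    (h0 : coeff 0 W = 1) (h : W ^ d = rq Q) : ∃ W₀ : PowerSeries ℚ, W = rq W₀ := by
  choose r hr using rat_root_coeff d hd W Q h0 h
  refine ⟨PowerSeries.mk r, ?_⟩
  ext n
  rw [PowerSeries.coeff_map, PowerSeries.coeff_mk, hr n]
  rfl

/-- the final arithmetic step -/
theorem dvd_twelve_of_rat (p : ℕ) (hp : p.Prime) (d : ℕ) (κ : ℂ) (s : ℚ) (hs : κ = (s : ℂ))
    (hκ : κ ^ d = ((p : ℂ) ^ 12)⁻¹) : d ∣ 12 := by
  have := Fact.mk hp
  have h1 : s ^ d = ((p : ℚ) ^ 12)⁻¹ := by
    have : ((s ^ d : ℚ) : ℂ) = ((((p : ℚ) ^ 12)⁻¹ : ℚ) : ℂ) := by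
      push_cast
      rw [← hs, hκ]
    exact_mod_cast this
  have h2 := congrArg (padicValRat p) h1
  rw [padicValRat.pow, padicValRat.self_pow_inv] at h2
  have h3 : (d : ℤ) ∣ 12 := ⟨-padicValRat p s, by push_cast at h2; linarith⟩
  exact_mod_cast h3

end Fermat.Agent.S16Lib.Ogg
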