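import Mathlib

/-!
# S16 [LB-Ogg] : two purely algebraic lemmas
-/

set_option autoImplicit false

namespace Fermat.Agent.S16Lib

/-- a rational `d`-th root of `p ^ 12` exists only if `d ∣ 12` -/
theorem ogg_dvd_twelve_of_rat (p : ℕ) [Fact p.Prime] (d : ℕ) (κ : ℚ)
    (h : κ ^ d = (p : ℚ) ^ 12) : d ∣ 12 := by
  have hp : (p : ℚ) ≠ 0 := by exact_mod_cast (Fact.out : p.Prime).ne_zero
  have hκ : κ ≠ 0 := by
    rintro rfl
    rcases Nat.eq_zero_or_pos d with rfl | hd
    · simp only [pow_zero] at h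
      have h1 : (1 : ℚ) < (p : ℚ) ^ 12 := by
        have : (1 : ℚ) < p := by exact_mod_cast (Fact.out : p.Prime).one_lt
        exact one_lt_pow₀ this (by norm_num)
      rw [← h] at h1
      exact lt_irrefl _ h1
    · rw [zero_pow hd.ne'] at h
      exact pow_ne_zero 12 hp h.symm
  have h1 := congrArg (padicValRat p) h
  rw [padicValRat.pow, padicValRat.pow, padicValRat.self (Fact.out : p.Prime).one_lt] at h1
  have h2 : (d : ℤ) ∣ 12 := ⟨padicValRat p κ, by simpa using h1.symm⟩
  exact_mod_cast h2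

/-- variant : `κ ^ d * p ^ 12 = 1` -/
theorem ogg_dvd_twelve_of_rat' (p : ℕ) [Fact p.Prime] (d : ℕ) (κ : ℚ)
    (h : κ ^ d * (p : ℚ) ^ 12 = 1) : d ∣ 12 := by
  apply ogg_dvd_twelve_of_rat p d κ⁻¹
  have hp : (p : ℚ) ^ 12 ≠ 0 := pow_ne_zero _ (by exact_mod_cast (Fact.out : p.Prime).ne_zero)
  have hκ : κ ^ d ≠ 0 := by
    intro h0
    rw [h0, zero_mul] at h
    exact zero_ne_one h
  rw [inv_pow]
  field_simp
  linarith

/-- complex version : `κ : ℂ` is the cast of a rational number -/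
theorem ogg_dvd_twelve_of_rat_complex (p : ℕ) [Fact p.Prime] (d : ℕ) (κ : ℚ)
    (h : (κ : ℂ) ^ d = (p : ℂ) ^ 12) : d ∣ 12 := by
  apply ogg_dvd_twelve_of_rat p d κ
  exact_mod_cast h

open PowerSeries in
/-- the `d`-th root with constant coefficient `1` of a rational power series is rational -/
theorem ogg_root_rat {d : ℕ} (hd : 0 < d) (A : PowerSeries ℂ) (B : PowerSeries ℚ)
    (hA0 : PowerSeries.coeff 0 A = 1)
    (hAB : A ^ d = PowerSeries.map (algebraMap ℚ ℂ) B) :
    ∃ A' : PowerSeries ℚ, PowerSeries.map (algebraMap ℚ ℂ) A' = A := by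
  set Bc : PowerSeries ℂ := PowerSeries.map (algebraMap ℚ ℂ) B with hBc
  -- the differential equation `d B A' = B' A`
  have hde : (d : PowerSeries ℂ) * (Bc * d⁄dX ℂ A) = d⁄dX ℂ Bc * A := by
    rw [← hAB, Derivation.leibniz_pow]
    obtain ⟨e, rfl⟩ : ∃ e, d = e + 1 := ⟨d - 1, by omega⟩
    simp only [Nat.add_sub_cancel, smul_eq_mul, nsmul_eq_mul]
    ring
  have hB0 : PowerSeries.coeff 0 Bc = 1 := by
    rw [← hAB]
    simp only [PowerSeries.coeff_zero_eq_constantCoeff, map_pow] at hA0 ⊢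
    rw [hA0, one_pow]
  have key : ∀ n : ℕ, ∃ r : ℚ, PowerSeries.coeff n A = (r : ℂ) := by
    intro n
    induction n using Nat.strong_induction_on with
    | _ n ih =>
      rcases Nat.eq_zero_or_pos n with rfl | hn
      · exact ⟨1, by simpa using hA0⟩
      obtain ⟨m, rfl⟩ : ∃ m, n = m + 1 := ⟨n - 1, by omega⟩
      choose! r hr using ih
      have h1 := congrArg (PowerSeries.coeff m) hde
      have hdC : (d : PowerSeries ℂ) = PowerSeries.C (d : ℂ) := by simp
      rw [hdC, PowerSeries.coeff_C_mul, PowerSeries.coeff_mul, PowerSeries.coeff_mul,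
        Finset.Nat.sum_antidiagonal_eq_sum_range_succ_mk,
        Finset.Nat.sum_antidiagonal_eq_sum_range_succ_mk, Finset.sum_range_succ'] at h1
      simp only [PowerSeries.coeff_derivative, Nat.sub_zero, hB0, one_mul] at h1
      have e1 : ∑ k ∈ Finset.range m, PowerSeries.coeff (k + 1) Bc *
          (PowerSeries.coeff (m - (k + 1) + 1) A * (((m - (k + 1) : ℕ) : ℂ) + 1)) =
          ((∑ k ∈ Finset.range m, PowerSeries.coeff (k + 1) B *
          (r (m - (k + 1) + 1) * (((m - (k + 1) : ℕ) : ℚ) + 1)) : ℚ) : ℂ) := by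
        push_cast
        refine Finset.sum_congr rfl fun k hk => ?_
        rw [Finset.mem_range] at hk
        rw [hr _ (by omega), hBc, PowerSeries.coeff_map]
        simp
      have e2 : ∑ k ∈ Finset.range (m + 1), PowerSeries.coeff (k + 1) Bc * ((k : ℂ) + 1) *
          PowerSeries.coeff (m - k) A =
          ((∑ k ∈ Finset.range (m + 1), PowerSeries.coeff (k + 1) B * ((k : ℚ) + 1) *
          r (m - k) : ℚ) : ℂ) := by
        push_cast
        refine Finset.sum_congr rfl fun k hk => ?_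
        rw [hr _ (by omega), hBc, PowerSeries.coeff_map]
        simp
      rw [e1, e2] at h1
      set s1 : ℚ := ∑ k ∈ Finset.range m, PowerSeries.coeff (k + 1) B *
          (r (m - (k + 1) + 1) * (((m - (k + 1) : ℕ) : ℚ) + 1))
      set s2 : ℚ := ∑ k ∈ Finset.range (m + 1), PowerSeries.coeff (k + 1) B * ((k : ℚ) + 1) *
          r (m - k)
      refine ⟨(s2 / d - s1) / (m + 1), ?_⟩
      have hd' : (d : ℂ) ≠ 0 := by exact_mod_cast hd.ne'
      have hm' : (m : ℂ) + 1 ≠ 0 := by exact_mod_cast (Nat.succ_ne_zero m)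
      push_cast
      field_simp
      linear_combination h1
  choose r hr using key
  refine ⟨PowerSeries.mk r, ?_⟩
  ext n
  rw [PowerSeries.coeff_map, PowerSeries.coeff_mk, hr]
  rfl

end Fermat.Agent.S16Lib
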