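import Fermat.Agent.S16.OggRat
import Fermat.Agent.S20.Basic
import Fermat.Prelude.Thm_UpperHalfPlane_qCoeff_heckeU
import Fermat.Prelude.Thm_ModularForm_periodic_heckeU_comp_ofComplex
import Fermat.Prelude.Thm_ModularForm_isBoundedAtImInfty_heckeU
import Fermat.Prelude.Thm_ModularForm_mdifferentiable_heckeU

/-!
# S16 : Ogg's lemma, the main step: the trace of `v` is constant
-/

set_option autoImplicit false

open UpperHalfPlane hiding I
open ModularForm ModularFormClass Complex Filter Function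
open scoped MatrixGroups Real Manifold Topology

namespace Fermat.Agent.S16Lib.Ogg

open Fermat.Agent.S22Lib Fermat.Agent.S24Lib

theorem Nice.heckeU {f : ℍ → ℂ} (hf : Nice f) (k : ℤ) (p : ℕ) : Nice (heckeU k p f) where
  hol := mdifferentiable_heckeU hf.hol k p
  per := by
    have := periodic_heckeU_comp_ofComplex (f := f) (by simpa using hf.per) k p
    simpa using this
  bdd := isBoundedAtImInfty_heckeU hf.bdd k p

theorem Nice.coeff_heckeU {f : ℍ → ℂ} (hf : Nice f) (k : ℤ) {p : ℕ} (hp : p ≠ 0) (n : ℕ) :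
    (qExpansion 1 (ModularForm.heckeU k p f)).coeff n = (qExpansion 1 f).coeff (n * p) :=
  UpperHalfPlane.qCoeff_heckeU (by simpa using hf.per) hf.hol hf.bdd k hp n

theorem qq_heckeMatrix_pow {p : ℕ} (hp : p ≠ 0) (j : ℕ) (τ : ℍ) :
    qq (heckeMatrix p j • τ) ^ p = qq τ := by
  have hp' : (p : ℂ) ≠ 0 := by exact_mod_cast hp
  rw [qq_apply, qq_apply, coe_heckeMatrix_smul hp, ← Complex.exp_nat_mul]
  have : (p : ℂ) * (2 * π * I * (((τ : ℂ) + j) / p)) = 2 * π * I * τ + j * (2 * π * I) := by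
    field_simp
  rw [this, Complex.exp_add, Complex.exp_nat_mul_two_pi_mul_I, mul_one]

variable (p : ℕ) [Fact p.Prime]

theorem main_step (m₀ : ℕ) (hm1 : 1 ≤ m₀) (hmp : m₀ < p) (h u : ℍ → ℂ) (hh : Nice h) (hu : Nice u)
    (hhu : ∀ τ, h τ * u τ = 1) (h0 : (qExpansion 1 h).coeff 0 = 1)
    (W₀ : PowerSeries ℚ) (hW : qExpansion 1 h = rq W₀) (κ : ℂ)
    (hκ : ∀ τ : ℍ, (qq (ModularGroup.S • (heckeDiagMatrix p • τ)) ^ m₀ *
      h (ModularGroup.S • (heckeDiagMatrix p • τ))) * (qq τ ^ m₀ * h τ) = κ)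
    (hinv : ∀ (γ : SL(2, ℤ)) (τ : ℍ),
      (qq (γ • τ) ^ m₀ * h (γ • τ)) + ∑ j ∈ Finset.range p,
        (qq (ModularGroup.S • (heckeDiagMatrix p • (heckeMatrix p j • (γ • τ)))) ^ m₀ *
          h (ModularGroup.S • (heckeDiagMatrix p • (heckeMatrix p j • (γ • τ))))) =
      (qq τ ^ m₀ * h τ) + ∑ j ∈ Finset.range p,
        (qq (ModularGroup.S • (heckeDiagMatrix p • (heckeMatrix p j • τ))) ^ m₀ *
          h (ModularGroup.S • (heckeDiagMatrix p • (heckeMatrix p j • τ))))) :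
    ∃ r : ℚ, κ * p * r = -1 := by
  have hp : p ≠ 0 := (Fact.out : p.Prime).ne_zero
  have hp' : (p : ℂ) ≠ 0 := by exact_mod_cast hp
  set v : ℍ → ℂ := qq ^ m₀ * h with hv
  have hvN : Nice v := (nice_qq.pow m₀).mul hh
  set Tr : ℍ → ℂ := fun τ => v τ + ∑ j ∈ Finset.range p,
    v (ModularGroup.S • (heckeDiagMatrix p • (heckeMatrix p j • τ))) with hTr
  set A : ℍ → ℂ := qq ^ (p - m₀) * u with hA
  have hAN : Nice A := (nice_qq.pow (p - m₀)).mul hu
  have hterm : ∀ (τ : ℍ) (j : ℕ),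
      qq τ * v (ModularGroup.S • (heckeDiagMatrix p • (heckeMatrix p j • τ))) =
        κ * A (heckeMatrix p j • τ) := by
    intro τ j
    set z := heckeMatrix p j • τ with hz
    have h1 : v (ModularGroup.S • (heckeDiagMatrix p • z)) * (qq z ^ m₀ * h z) = κ := hκ z
    have h2 : qq z ^ p = qq τ := qq_heckeMatrix_pow hp j τ
    have h3 : qq z ^ p = qq z ^ (p - m₀) * qq z ^ m₀ := by
      rw [← pow_add, Nat.sub_add_cancel hmp.le]
    simp only [hA, Pi.mul_apply, Pi.pow_apply]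
    rw [← h1, ← h2, h3]
    have := hhu z
    linear_combination (- qq z ^ (p - m₀) * qq z ^ m₀ *
      v (ModularGroup.S • (heckeDiagMatrix p • z))) * this
  have hqTr : qq * Tr = qq * v + (κ * p) • ModularForm.heckeU 0 p A := by
    funext τ
    simp only [Pi.mul_apply, Pi.add_apply, Pi.smul_apply, smul_eq_mul, hTr, heckeU_apply 0 hp,
      mul_add, Finset.mul_sum, hterm]
    congr 1
    refine Finset.sum_congr rfl fun j _ => ?_
    field_simp
  have hUN : Nice (ModularForm.heckeU 0 p A) := hAN.heckeU 0 p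
  have hqTrN : Nice (qq * Tr) := by
    rw [hqTr]
    exact (nice_qq.mul hvN).add (hUN.smul _)
  have hqA : qExpansion 1 A = PowerSeries.X ^ (p - m₀) * qExpansion 1 u := by
    rw [hA, (nice_qq.pow (p - m₀)).qExp_mul hu, nice_qq.qExp_pow, qExp_qq]
  have hqv : qExpansion 1 (qq * v) = PowerSeries.X ^ (m₀ + 1) * qExpansion 1 h := by
    rw [nice_qq.qExp_mul hvN, hv, (nice_qq.pow m₀).qExp_mul hh, nice_qq.qExp_pow, qExp_qq]
    ring
  have hexp : qExpansion 1 (qq * Tr) = PowerSeries.X ^ (m₀ + 1) * qExpansion 1 h +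
      (κ * p) • qExpansion 1 (ModularForm.heckeU 0 p A) := by
    rw [hqTr, (nice_qq.mul hvN).qExp_add (hUN.smul _), hUN.qExp_smul, hqv]
  have hc0 : (qExpansion 1 (qq * Tr)).coeff 0 = 0 := by
    rw [hexp, map_add, PowerSeries.coeff_smul, hAN.coeff_heckeU 0 hp, hqA]
    have e1 : (PowerSeries.coeff 0) (PowerSeries.X ^ (m₀ + 1) * qExpansion 1 h) = 0 :=
      (PowerSeries.X_pow_dvd_iff.1 (Dvd.intro _ rfl)) 0 (Nat.succ_pos _)
    have e2 : (PowerSeries.coeff (0 * p)) (PowerSeries.X ^ (p - m₀) * qExpansion 1 u) = 0 :=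
      (PowerSeries.X_pow_dvd_iff.1 (Dvd.intro _ rfl)) _ (by omega)
    rw [e1, e2]
    simp
  have hTrb : IsBoundedAtImInfty Tr := bdd_of_qq_mul hqTrN hc0
  have hTrh : MDiff Tr := by
    have h1 : Tr = (qq * Tr) / qq := by
      funext τ
      simp only [Pi.div_apply, Pi.mul_apply]
      rw [mul_div_cancel_left₀ _ (qq_ne_zero τ)]
    rw [h1]
    exact hqTrN.hol.div nice_qq.hol qq_ne_zero
  obtain ⟨c₁, hc₁⟩ := S20Lib.levelOne_const Tr hTrh hinv hTrb
  have hfin : qq * Tr = c₁ • qq := by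
    funext τ
    simp only [Pi.mul_apply, Pi.smul_apply, smul_eq_mul, hc₁ τ]
    ring
  have hcoef := congrArg (PowerSeries.coeff (m₀ + 1)) hexp
  rw [hfin, nice_qq.qExp_smul, qExp_qq, PowerSeries.coeff_smul, PowerSeries.coeff_X,
    if_neg (by omega), map_add, PowerSeries.coeff_smul, hAN.coeff_heckeU 0 hp, hqA] at hcoef
  have e1 : (PowerSeries.coeff (m₀ + 1)) (PowerSeries.X ^ (m₀ + 1) * qExpansion 1 h) = 1 := by
    have := PowerSeries.coeff_X_pow_mul (qExpansion 1 h) (m₀ + 1) 0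
    rw [zero_add] at this
    rw [this, h0]
  -- rationality of `u`
  have hW0 : PowerSeries.constantCoeff W₀ ≠ 0 := by
    intro hz
    rw [hW, PowerSeries.coeff_map, PowerSeries.coeff_zero_eq_constantCoeff_apply, hz] at h0
    simp at h0
  have hU : qExpansion 1 u = rq W₀⁻¹ := by
    have h1 : qExpansion 1 h * qExpansion 1 u = 1 := by
      rw [← hh.qExp_mul hu]
      have : h * u = 1 := funext hhu
      rw [this, qExpansion_one]
    have h2 : qExpansion 1 h * rq W₀⁻¹ = 1 := by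
      rw [hW, ← map_mul, PowerSeries.mul_inv_cancel _ hW0, map_one]
    have hne : qExpansion 1 h ≠ 0 := by
      intro hz
      rw [hz] at h0
      simp at h0
    exact mul_left_cancel₀ hne (h1.trans h2.symm)
  have e2 : (PowerSeries.coeff ((m₀ + 1) * p)) (PowerSeries.X ^ (p - m₀) * qExpansion 1 u) =
      ((PowerSeries.coeff ((m₀ + 1) * p - (p - m₀)) W₀⁻¹ : ℚ) : ℂ) := by
    have := PowerSeries.coeff_X_pow_mul (qExpansion 1 u) (p - m₀) ((m₀ + 1) * p - (p - m₀))
    have e3 : (m₀ + 1) * p - (p - m₀) + (p - m₀) = (m₀ + 1) * p := by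
      apply Nat.sub_add_cancel
      calc p - m₀ ≤ p := Nat.sub_le _ _
        _ ≤ (m₀ + 1) * p := Nat.le_mul_of_pos_left _ (Nat.succ_pos _)
    rw [e3] at this
    rw [this, hU, PowerSeries.coeff_map]
    rfl
  rw [e1, e2] at hcoef
  refine ⟨PowerSeries.coeff ((m₀ + 1) * p - (p - m₀)) W₀⁻¹, ?_⟩
  simp only [smul_eq_mul, mul_zero] at hcoef
  linear_combination -hcoef

end Fermat.Agent.S16Lib.Ogg
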