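import Fermat.Agent.S16.Mu
import Fermat.Agent.S24.JExp

/-!
# S16 : holomorphic periodic functions bounded at infinity and their `q`-expansions
-/

set_option autoImplicit false

open UpperHalfPlane hiding I
open ModularForm Complex Filter Function
open scoped MatrixGroups Real Manifold Topology

namespace Fermat.Agent.S16Lib.Ogg

open Fermat.Agent.S22Lib Fermat.Agent.S24Lib

/-- holomorphic, `1`-periodic, bounded at infinity -/
structure Nice (f : ℍ → ℂ) : Prop where
  hol : MDiff f
  per : Periodic (f ∘ ofComplex) ((1 : ℝ) : ℂ)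
  bdd : IsBoundedAtImInfty f

namespace Nice

variable {f g : ℍ → ℂ}

theorem an (hf : Nice f) : AnalyticAt ℂ (cuspFunction 1 f) 0 :=
  analyticAt_cuspFunction_zero one_pos hf.per hf.hol hf.bdd

theorem mul (hf : Nice f) (hg : Nice g) : Nice (f * g) where
  hol := hf.hol.mul hg.hol
  per := fun w => by
    have h1 := hf.per w
    have h2 := hg.per w
    simp only [comp_apply, Pi.mul_apply] at h1 h2 ⊢
    rw [h1, h2]
  bdd := hf.bdd.mul hg.bdd

theorem add (hf : Nice f) (hg : Nice g) : Nice (f + g) where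
  hol := hf.hol.add hg.hol
  per := fun w => by
    have h1 := hf.per w
    have h2 := hg.per w
    simp only [comp_apply, Pi.add_apply] at h1 h2 ⊢
    rw [h1, h2]
  bdd := hf.bdd.add hg.bdd

theorem smul (c : ℂ) (hf : Nice f) : Nice (c • f) where
  hol := hf.hol.const_smul c
  per := fun w => by
    have h1 := hf.per w
    simp only [comp_apply, Pi.smul_apply] at h1 ⊢
    rw [h1]
  bdd := hf.bdd.const_smul_left c

theorem one : Nice (1 : ℍ → ℂ) where
  hol := mdifferentiable_const
  per := fun _ => rfl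
  bdd := Filter.const_boundedAtFilter _ _

theorem pow (hf : Nice f) (n : ℕ) : Nice (f ^ n) := by
  induction n with
  | zero => simpa using one
  | succ n ih => rw [pow_succ]; exact ih.mul hf

theorem qExp_mul (hf : Nice f) (hg : Nice g) :
    qExpansion 1 (f * g) = qExpansion 1 f * qExpansion 1 g := qExpansion_mul hf.an hg.an

theorem qExp_add (hf : Nice f) (hg : Nice g) :
    qExpansion 1 (f + g) = qExpansion 1 f + qExpansion 1 g := qExpansion_add hf.an hg.an

theorem qExp_smul (c : ℂ) (hf : Nice f) :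
    qExpansion 1 (c • f) = c • qExpansion 1 f := qExpansion_smul hf.an c

theorem qExp_pow (hf : Nice f) (n : ℕ) : qExpansion 1 (f ^ n) = qExpansion 1 f ^ n := by
  induction n with
  | zero => simpa using qExpansion_one 1
  | succ n ih => rw [pow_succ, (hf.pow n).qExp_mul hf, ih, pow_succ]

theorem coeff_zero (hf : Nice f) {a : ℂ} (h : Tendsto f atImInfty (𝓝 a)) :
    (qExpansion 1 f).coeff 0 = a := by
  rw [qExpansion_coeff_zero one_pos hf.an hf.per]
  exact h.limUnder_eq

theorem tendsto (hf : Nice f) : Tendsto f atImInfty (𝓝 ((qExpansion 1 f).coeff 0)) := by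
  have h1 := hf.an.continuousAt.tendsto.comp (qParam_tendsto_atImInfty one_pos)
  have h2 : (qExpansion 1 f).coeff 0 = cuspFunction 1 f 0 := by simp [qExpansion_coeff]
  rw [h2]
  exact h1.congr fun τ => eq_cuspFunction τ one_ne_zero hf.per

theorem of_tendsto {a : ℂ} (h1 : MDiff f) (h2 : Periodic (f ∘ ofComplex) ((1 : ℝ) : ℂ))
    (h : Tendsto f atImInfty (𝓝 a)) : Nice f := ⟨h1, h2, h.isBigO_one ℝ⟩

end Nice

theorem qq_apply (τ : ℍ) : qq τ = cexp (2 * π * I * τ) := by
  simp [qq, Periodic.qParam]

theorem qq_ne_zero (τ : ℍ) : qq τ ≠ 0 := by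
  rw [qq_apply]; exact Complex.exp_ne_zero _

theorem nice_qq : Nice qq := by
  refine Nice.of_tendsto (a := 0) ?_ ?_ (qParam_tendsto_atImInfty one_pos)
  · rw [UpperHalfPlane.mdifferentiable_iff]
    have h1 : DifferentiableOn ℂ (fun z : ℂ => cexp (2 * π * I * z)) {z : ℂ | 0 < z.im} := by
      fun_prop
    refine h1.congr fun z hz => ?_
    simp only [comp_apply, ofComplex_apply_of_im_pos hz, qq_apply]
  · intro w
    by_cases hw : 0 < im w
    · have hw' : 0 < im (w + (1:ℝ)) := by simpa using hw
      simp only [comp_apply, ofComplex_apply_of_im_pos hw', ofComplex_apply_of_im_pos hw, qq_apply]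
      rw [mul_add, Complex.exp_add]
      simp [Complex.exp_two_pi_mul_I]
    · have hw1 : im w ≤ 0 := not_lt.mp hw
      have hw' : im (w + (1:ℝ)) ≤ 0 := by simpa using hw1
      simp only [comp_apply, ofComplex_apply_of_im_nonpos hw', ofComplex_apply_of_im_nonpos hw1]

/-- uniqueness of `q`-expansions, for functions -/
theorem Nice.qExp_unique {f : ℍ → ℂ} (hf : Nice f) {c : ℕ → ℂ}
    (h : ∀ τ : ℍ, HasSum (fun m => c m • qq τ ^ m) (f τ)) : qExpansion 1 f = PowerSeries.mk c :=
  tay_eq_of_hasFPowerSeriesAt (hasFPowerSeriesOnBall_cuspFunction one_pos hf.an h).hasFPowerSeriesAt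

theorem qExp_qq : qExpansion 1 qq = PowerSeries.X := by
  rw [nice_qq.qExp_unique (c := fun m => if m = 1 then 1 else 0) (fun τ => ?_)]
  · ext m
    rw [PowerSeries.coeff_mk, PowerSeries.coeff_X]
  · have := hasSum_ite_eq (1 : ℕ) (qq τ)
    convert this using 2 with k
    by_cases hk : k = 1
    · subst hk; simp
    · simp [hk]

/-- if `q F` is nice and vanishes at infinity then `F` is bounded at infinity -/
theorem bdd_of_qq_mul {F : ℍ → ℂ} (hN : Nice (qq * F)) (h0 : (qExpansion 1 (qq * F)).coeff 0 = 0) :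
    IsBoundedAtImInfty F := by
  set K := cuspFunction 1 (qq * F) with hK
  have hK0 : K 0 = 0 := by
    have : (qExpansion 1 (qq * F)).coeff 0 = K 0 := by simp [qExpansion_coeff, hK]
    rw [← this, h0]
  have hd := analyticAt_dslope hN.an
  have h1 : ∀ τ : ℍ, F τ = dslope K 0 (qq τ) := by
    intro τ
    have h2 : K (qq τ) = qq τ * F τ := eq_cuspFunction τ one_ne_zero hN.per
    have h3 := sub_smul_dslope K 0 (qq τ)
    simp only [sub_zero, smul_eq_mul, hK0, h2] at h3
    exact (mul_left_cancel₀ (qq_ne_zero τ) h3).symm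
  have h4 : Tendsto F atImInfty (𝓝 (dslope K 0 0)) :=
    (hd.continuousAt.tendsto.comp (qParam_tendsto_atImInfty one_pos)).congr fun τ => (h1 τ).symm
  exact h4.isBigO_one ℝ

end Fermat.Agent.S16Lib.Ogg
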