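import Fermat.Agent.S16.OggAlg
import Fermat.Agent.S16.OggNice
import Fermat.Agent.S16.SharpMF
import Fermat.Agent.S16.Cong

/-!
# S16 : rationality of the `q`-expansion of `(Δ(pτ)/Δ(τ))^(1/d)`
-/

set_option autoImplicit false

open UpperHalfPlane hiding I
open ModularForm ModularFormClass Complex Filter Function
open scoped MatrixGroups Real Manifold Topology

namespace Fermat.Agent.S16Lib.Ogg

open Fermat.Agent.S22Lib Fermat.Agent.S24Lib

theorem disc_mem_decay : ModularForm.discriminant ∈ decaySubmodule 1 := by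
  refine ⟨CuspForm.discriminant.holo', ?_, discriminant_isZeroAtImInfty⟩
  exact SlashInvariantFormClass.periodic_comp_ofComplex CuspForm.discriminant
    one_mem_strictPeriods_SL

theorem Nice.of_decay {f : ℍ → ℂ} (h : f ∈ decaySubmodule 1) : Nice f :=
  ⟨h.1, h.2.1, h.2.2.isBoundedAtImInfty⟩

theorem nice_disc : Nice ModularForm.discriminant := Nice.of_decay disc_mem_decay

variable (p : ℕ) [Fact p.Prime]

theorem nice_vp_disc : Nice (vp p ModularForm.discriminant) :=
  Nice.of_decay (Mu.vp_mem_decay p (Fact.out : p.Prime).ne_zero disc_mem_decay)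

/-- `Δ(q^p)` -/
noncomputable def deltaZp : PowerSeries ℤ :=
  PowerSeries.mk fun n => if p ∣ n then PowerSeries.coeff (n / p) deltaZ else 0

theorem qExp_vp_disc : qExpansion 1 (vp p ModularForm.discriminant) = iq (deltaZp p) := by
  ext n
  have h := qCoeff_vp p (cuspToMF CuspForm.discriminant) n
  simp only [coe_cuspToMF, CuspForm.coe_discriminant, qCoeff, qExpansion_discriminant] at h
  rw [h, PowerSeries.coeff_map, PowerSeries.coeff_map, deltaZp, PowerSeries.coeff_mk]
  split_ifs <;> simp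

theorem exists_deltaZp_eq : ∃ E : PowerSeries ℤ, deltaZp p = PowerSeries.X ^ p * E ∧
    PowerSeries.coeff 0 E = 1 := by
  have hp : 0 < p := (Fact.out : p.Prime).pos
  have hdvd : (PowerSeries.X : PowerSeries ℤ) ^ p ∣ deltaZp p := by
    rw [PowerSeries.X_pow_dvd_iff]
    intro m hm
    rw [deltaZp, PowerSeries.coeff_mk]
    split_ifs with h
    · have : m = 0 := Nat.eq_zero_of_dvd_of_lt h hm
      subst this
      simp [coeff_zero_deltaZ]
    · rfl
  obtain ⟨E, hE⟩ := hdvd
  refine ⟨E, hE, ?_⟩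
  have h1 := PowerSeries.coeff_X_pow_mul E p 0
  rw [zero_add, ← hE, deltaZp, PowerSeries.coeff_mk, if_pos dvd_rfl, Nat.div_self hp,
    coeff_one_deltaZ] at h1
  exact h1.symm

theorem iq_eq_rq (A : PowerSeries ℤ) : iq A = rq (A.map (Int.castRingHom ℚ)) := by
  ext n
  simp

/-- rationality of the `d`-th root -/
theorem W_rat (d m₀ : ℕ) (hd : d ≠ 0) (hm : d * m₀ + 1 = p) (h : ℍ → ℂ) (hN : Nice h)
    (h0 : (qExpansion 1 h).coeff 0 = 1) (C' : ℂ)
    (hrel : ∀ τ, (qq τ ^ m₀ * h τ) ^ d * ModularForm.discriminant τ =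
      C' * ModularForm.discriminant (heckeDiagMatrix p • τ)) :
    C' = 1 ∧ ∃ W₀ : PowerSeries ℚ, qExpansion 1 h = rq W₀ := by
  set W := qExpansion 1 h with hW
  have hfun : (qq ^ m₀ * h) ^ d * ModularForm.discriminant = C' • vp p ModularForm.discriminant := by
    funext τ
    exact hrel τ
  have h1 := congrArg (qExpansion 1) hfun
  rw [(((nice_qq.pow m₀).mul hN).pow d).qExp_mul nice_disc, ((nice_qq.pow m₀).mul hN).qExp_pow,
    (nice_qq.pow m₀).qExp_mul hN, nice_qq.qExp_pow, qExp_qq, (nice_vp_disc p).qExp_smul,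
    qExp_vp_disc, qExpansion_discriminant, ← hW] at h1
  obtain ⟨E, hE, hE0⟩ := exists_deltaZp_eq p
  rw [hE, deltaZ, map_mul, map_mul, map_pow, PowerSeries.map_X] at h1
  have h2 : PowerSeries.X ^ p * (W ^ d * iq ModularCurve.dedekindEtaUnit) =
      PowerSeries.X ^ p * (C' • iq E) := by
    rw [mul_smul_comm, ← h1, ← hm, mul_pow, ← pow_mul, pow_succ, mul_comm m₀ d]
    ring
  have h3 := mul_left_cancel₀ (pow_ne_zero p PowerSeries.X_ne_zero) h2
  have hC : C' = 1 := by
    have h4 := congrArg (PowerSeries.coeff 0) h3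
    rw [PowerSeries.coeff_zero_eq_constantCoeff_apply, PowerSeries.coeff_zero_eq_constantCoeff_apply,
      map_mul, map_pow, ← PowerSeries.coeff_zero_eq_constantCoeff_apply, h0,
      ← PowerSeries.coeff_zero_eq_constantCoeff_apply, PowerSeries.coeff_map,
      PowerSeries.coeff_zero_eq_constantCoeff_apply, ModularCurve.constantCoeff_dedekindEtaUnit,
      ← PowerSeries.coeff_zero_eq_constantCoeff_apply, PowerSeries.coeff_smul,
      PowerSeries.coeff_map, hE0] at h4
    simpa using h4.symm
  refine ⟨hC, ?_⟩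
  have h5 : W ^ d = iq (E * ModularCurve.dedekindEtaUnitInv) := by
    rw [map_mul]
    have : iq ModularCurve.dedekindEtaUnit * iq ModularCurve.dedekindEtaUnitInv = 1 := by
      rw [← map_mul, ModularCurve.dedekindEtaUnit_mul_inv, map_one]
    calc W ^ d = W ^ d * (iq ModularCurve.dedekindEtaUnit * iq ModularCurve.dedekindEtaUnitInv) := by
          rw [this, mul_one]
      _ = (W ^ d * iq ModularCurve.dedekindEtaUnit) * iq ModularCurve.dedekindEtaUnitInv := by ring
      _ = _ := by rw [h3, hC, one_smul]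
  rw [iq_eq_rq] at h5
  exact rat_root d hd W _ h0 h5

end Fermat.Agent.S16Lib.Ogg
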