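import Fermat.Agent.S16.Defs
import Fermat.Agent.S21.Parabolic
import Fermat.Agent.S21.ParabolicBound

/-!
# S16 : [LB-transfer] + [LB-par]

A homomorphism `χ : Γ₀(p) → ℂ` killing `T` is parabolic.
-/

set_option autoImplicit false

open UpperHalfPlane hiding I
open ModularCurve CongruenceSubgroup ModularGroup
open ModularCurve.Period
open scoped MatrixGroups

namespace Fermat.Agent.S16Lib

open Fermat.Agent.S20Lib Fermat.Agent.S21Lib

/-! ### transfer -/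

section transfer

variable (N : ℕ) [NeZero N]

/-- the transfer of `χ` -/
noncomputable def trf (χ : Additive (Gamma0 N) →+ ℂ) (g : SL(2, ℤ)) : ℂ :=
  ∑ᶠ x : X0 N, χ (Additive.ofMul (cocEl N g x))

theorem trf_mul (χ : Additive (Gamma0 N) →+ ℂ) (g h : SL(2, ℤ)) :
    trf N χ (g * h) = trf N χ g + trf N χ h := by
  have : Finite (X0 N) := inferInstance
  unfold trf
  have h1 : ∀ x : X0 N, χ (Additive.ofMul (cocEl N (g * h) x))
      = χ (Additive.ofMul (cocEl N g (h • x))) + χ (Additive.ofMul (cocEl N h x)) := by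
    intro x
    rw [cocEl_mul, ofMul_mul, map_add]
  rw [finsum_congr h1, finsum_add_distrib (Set.toFinite _) (Set.toFinite _)]
  congr 1
  exact finsum_comp_equiv (MulAction.toPerm h)
    (f := fun x : X0 N => χ (Additive.ofMul (cocEl N g x)))

theorem trf_one (χ : Additive (Gamma0 N) →+ ℂ) : trf N χ 1 = 0 := by
  have := trf_mul N χ 1 1
  rw [mul_one] at this
  linear_combination -this

theorem trf_pow (χ : Additive (Gamma0 N) →+ ℂ) (g : SL(2, ℤ)) (n : ℕ) :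
    trf N χ (g ^ n) = n * trf N χ g := by
  induction n with
  | zero => simp [trf_one]
  | succ n ih => rw [pow_succ, trf_mul, ih]; push_cast; ring

theorem trf_T (χ : Additive (Gamma0 N) →+ ℂ) : trf N χ T = 0 := by
  have h1 : trf N χ (-1) = 0 := by
    have := trf_mul N χ (-1) (-1)
    rw [neg_mul_neg, one_mul, trf_one] at this
    linear_combination -(1 / 2 : ℂ) * this
  have hS : trf N χ S = 0 := by
    have := trf_pow N χ S 2
    rw [S_sq_eq, h1] at this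
    push_cast at this
    linear_combination -(1 / 2 : ℂ) * this
  have hST : trf N χ (S * T) = 0 := by
    have := trf_pow N χ (S * T) 3
    rw [ST_cube_eq, h1] at this
    push_cast at this
    linear_combination -(1 / 3 : ℂ) * this
  rw [trf_mul, hS] at hST
  simpa using hST

omit [NeZero N] in
theorem sum_cocEl_pow (χ : Additive (Gamma0 N) →+ ℂ) (g : SL(2, ℤ)) (x : X0 N) (n : ℕ) :
    ∑ i ∈ Finset.range n, χ (Additive.ofMul (cocEl N g (g ^ i • x)))
      = χ (Additive.ofMul (cocEl N (g ^ n) x)) := by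
  induction n with
  | zero =>
    have : cocEl N (g ^ 0) x = 1 := by
      apply Subtype.ext
      show ((g ^ 0) • x).out⁻¹ * g ^ 0 * x.out = 1
      simp
    rw [this]
    simp
  | succ n ih =>
    rw [Finset.sum_range_succ, ih, pow_succ', cocEl_mul, ofMul_mul, map_add, add_comm]

end transfer

/-! ### the cosets of `Γ₀(p)` -/

section prime

variable (p : ℕ) [Fact p.Prime]

theorem coe_conjS_T_zpow (k : ℤ) :
    ((S⁻¹ * T ^ k * S : SL(2, ℤ)) : Matrix (Fin 2) (Fin 2) ℤ) = !![1, 0; -k, 1] := by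
  rw [Matrix.SpecialLinearGroup.coe_mul, Matrix.SpecialLinearGroup.coe_mul, coe_T_zpow,
    Matrix.SpecialLinearGroup.coe_inv, coe_S, Matrix.adjugate_fin_two_of]
  simp

theorem conjS_T_zpow_mem_iff (k : ℤ) : S⁻¹ * T ^ k * S ∈ Gamma0 p ↔ (p : ℤ) ∣ k := by
  rw [Gamma0_mem, coe_conjS_T_zpow]
  simp [ZMod.intCast_zmod_eq_zero_iff_dvd]

/-- `S⁻¹ T ^ p S` as an element of `Γ₀(p)` -/
def UG : Gamma0 p := ⟨S⁻¹ * T ^ (p : ℤ) * S, (conjS_T_zpow_mem_iff p p).2 dvd_rfl⟩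

/-- enumeration of the cosets -/
def enumX0 : Option (Fin p) → X0 p
  | none => ((1 : SL(2, ℤ)) : X0 p)
  | some i => ((T ^ (i : ℕ) * S : SL(2, ℤ)) : X0 p)

theorem TS_entries (i : ℕ) : (T ^ i * S : SL(2, ℤ)) 0 0 = i ∧ (T ^ i * S : SL(2, ℤ)) 1 0 = 1 := by
  have := p1_T_zpow_mul (i : ℤ) S
  rw [zpow_natCast] at this
  rw [this.1, this.2]
  simp [S]

theorem enumX0_bijective : Function.Bijective (enumX0 p) := by
  have hp : (1 : ZMod p) ≠ 0 := one_ne_zero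
  constructor
  · rintro (_ | i) (_ | j) h
    · rfl
    · exfalso
      simp only [enumX0] at h
      rw [p1_mk_eq_iff', (TS_entries j).1, (TS_entries j).2] at h
      simp at h
    · exfalso
      simp only [enumX0] at h
      rw [p1_mk_eq_iff', (TS_entries i).1, (TS_entries i).2] at h
      simp at h
    · simp only [enumX0] at h
      rw [p1_mk_eq_iff', (TS_entries i).1, (TS_entries i).2, (TS_entries j).1,
        (TS_entries j).2] at h
      push_cast at h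
      rw [mul_one, one_mul, sub_eq_zero, ZMod.natCast_eq_natCast_iff', Nat.mod_eq_of_lt i.2,
        Nat.mod_eq_of_lt j.2] at h
      rw [Fin.ext h]
  · intro x
    induction x using QuotientGroup.induction_on with
    | H g =>
      by_cases hg : (g 1 0 : ZMod p) = 0
      · refine ⟨none, ?_⟩
        simp only [enumX0]
        rw [p1_mk_eq_iff']
        simp [hg]
      · refine ⟨some ⟨((g 0 0 : ZMod p) / (g 1 0 : ZMod p)).val, ZMod.val_lt _⟩, ?_⟩
        simp only [enumX0]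
        rw [p1_mk_eq_iff', (TS_entries _).1, (TS_entries _).2]
        push_cast
        rw [ZMod.natCast_zmod_val]
        field_simp
        ring

theorem chi_conj {N : ℕ} (χ : Additive (Gamma0 N) →+ ℂ) (h g : Gamma0 N) :
    χ (Additive.ofMul (h⁻¹ * g * h)) = χ (Additive.ofMul g) := by
  rw [ofMul_mul, ofMul_mul, map_add, map_add, ofMul_inv, map_neg]
  ring

theorem chi_cocEl_fixed {N : ℕ} (χ : Additive (Gamma0 N) →+ ℂ) (g σ : SL(2, ℤ))
    (hfix : g • (σ : X0 N) = σ) (hm : σ⁻¹ * g * σ ∈ Gamma0 N) :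
    χ (Additive.ofMul (cocEl N g (σ : X0 N))) = χ (Additive.ofMul ⟨σ⁻¹ * g * σ, hm⟩) := by
  obtain ⟨h, hh⟩ := QuotientGroup.mk_out_eq_mul (Gamma0 N) σ
  have : cocEl N g (σ : X0 N) = h⁻¹ * ⟨σ⁻¹ * g * σ, hm⟩ * h := by
    apply Subtype.ext
    show (g • (σ : X0 N)).out⁻¹ * g * (σ : X0 N).out = (h : SL(2, ℤ))⁻¹ * (σ⁻¹ * g * σ) * h
    rw [hfix, hh]
    group
  rw [this, chi_conj]

theorem chi_T_add_chi_U (χ : Additive (Gamma0 p) →+ ℂ) :
    χ (Additive.ofMul (TG p)) + χ (Additive.ofMul (UG p)) = 0 := by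
  have h0 := trf_T p χ
  unfold trf at h0
  rw [← finsum_eq_of_bijective (enumX0 p) (enumX0_bijective p) (fun o => rfl),
    finsum_eq_sum_of_fintype, Fintype.sum_option] at h0
  have h1 : χ (Additive.ofMul (cocEl p T (enumX0 p none))) = χ (Additive.ofMul (TG p)) := by
    have hm : (1 : SL(2, ℤ))⁻¹ * T * 1 ∈ Gamma0 p := by simp [T_mem_Gamma0 p]
    have hfix : T • ((1 : SL(2, ℤ)) : X0 p) = ((1 : SL(2, ℤ)) : X0 p) := by
      rw [p1_smul_mk, mul_one, p1_mk_eq_iff']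
      simp [T]
    show χ (Additive.ofMul (cocEl p T ((1 : SL(2, ℤ)) : X0 p))) = _
    rw [chi_cocEl_fixed χ T 1 hfix hm]
    congr 2
    apply Subtype.ext
    show (1 : SL(2, ℤ))⁻¹ * T * 1 = T
    simp
  have h2 : ∑ i : Fin p, χ (Additive.ofMul (cocEl p T (enumX0 p (some i))))
      = χ (Additive.ofMul (UG p)) := by
    have e1 : ∀ i : Fin p, χ (Additive.ofMul (cocEl p T (enumX0 p (some i))))
        = (fun i : ℕ => χ (Additive.ofMul (cocEl p T (T ^ i • (S : X0 p))))) i := fun i => rfl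
    rw [Fintype.sum_congr _ _ e1, Fin.sum_univ_eq_sum_range
      (fun i : ℕ => χ (Additive.ofMul (cocEl p T (T ^ i • (S : X0 p))))) p, sum_cocEl_pow]
    have hm : S⁻¹ * T ^ p * S ∈ Gamma0 p := by
      have := (conjS_T_zpow_mem_iff p p).2 dvd_rfl
      rwa [zpow_natCast] at this
    rw [chi_cocEl_fixed χ (T ^ p) S (T_pow_smul_X0 p _) hm]
    congr 2
    apply Subtype.ext
    show S⁻¹ * T ^ p * S = S⁻¹ * T ^ (p : ℤ) * S
    rw [zpow_natCast]
  rw [h1, h2] at h0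
  exact h0

theorem eq_T_zpow_of_c_eq_zero (g : SL(2, ℤ)) (h : g 1 0 = 0) :
    ∃ k : ℤ, g = T ^ k ∨ -g = T ^ k := by
  have hdet := p1_det g
  rw [h, mul_zero, sub_zero] at hdet
  rcases Int.mul_eq_one_iff_eq_one_or_neg_one.mp hdet with ⟨h0, h1⟩ | ⟨h0, h1⟩
  · refine ⟨g 0 1, Or.inl ?_⟩
    apply Subtype.ext
    rw [coe_T_zpow]
    ext i j
    fin_cases i <;> fin_cases j <;> simp [h, h0, h1]
  · refine ⟨-g 0 1, Or.inr ?_⟩
    apply Subtype.ext
    rw [coe_T_zpow, Matrix.SpecialLinearGroup.coe_neg]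
    ext i j
    fin_cases i <;> fin_cases j <;> simp [h, h0, h1]

theorem neg_one_mem_Gamma0 (N : ℕ) : (-1 : SL(2, ℤ)) ∈ Gamma0 N := by
  rw [Gamma0_mem]
  simp

theorem chi_neg_one {N : ℕ} (χ : Additive (Gamma0 N) →+ ℂ) :
    χ (Additive.ofMul ⟨-1, neg_one_mem_Gamma0 N⟩) = 0 := by
  have h : (⟨-1, neg_one_mem_Gamma0 N⟩ : Gamma0 N) * ⟨-1, neg_one_mem_Gamma0 N⟩ = 1 := by
    apply Subtype.ext
    show (-1 : SL(2, ℤ)) * -1 = 1
    simp
  have h2 := congrArg (fun g => χ (Additive.ofMul g)) h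
  simp only [ofMul_mul, map_add, ofMul_one, map_zero] at h2
  linear_combination (1 / 2 : ℂ) * h2

theorem chi_eq_zero_of_conj_T (χ : Additive (Gamma0 p) →+ ℂ)
    (h : χ (Additive.ofMul (TG p)) = 0) (γ : Gamma0 p) (δ : SL(2, ℤ)) (k : ℤ)
    (hk : δ⁻¹ * (γ : SL(2, ℤ)) * δ = T ^ k) : χ (Additive.ofMul γ) = 0 := by
  have hU : χ (Additive.ofMul (UG p)) = 0 := by
    have := chi_T_add_chi_U p χ
    rwa [h, zero_add] at this
  obtain ⟨o, ho⟩ := (enumX0_bijective p).2 ((δ⁻¹ : SL(2, ℤ)) : X0 p)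
  rcases o with _ | i
  · have hd : δ⁻¹ ∈ Gamma0 p := by
      have := QuotientGroup.eq.mp ho
      simpa using this
    have e : γ = (⟨δ⁻¹, hd⟩ : Gamma0 p)⁻¹ * (TG p) ^ k * ⟨δ⁻¹, hd⟩ := by
      apply Subtype.ext
      show (γ : SL(2, ℤ)) = δ⁻¹⁻¹ * T ^ k * δ⁻¹
      rw [← hk]
      group
    rw [e, chi_conj, ofMul_zpow, map_zsmul, h, smul_zero]
  · have hd : (T ^ (i : ℕ) * S)⁻¹ * δ⁻¹ ∈ Gamma0 p := QuotientGroup.eq.mp ho
    set η : Gamma0 p := ⟨(T ^ (i : ℕ) * S)⁻¹ * δ⁻¹, hd⟩ with hη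
    have e0 : ((η * γ * η⁻¹ : Gamma0 p) : SL(2, ℤ)) = S⁻¹ * T ^ k * S := by
      show (T ^ (i : ℕ) * S)⁻¹ * δ⁻¹ * (γ : SL(2, ℤ)) * ((T ^ (i : ℕ) * S)⁻¹ * δ⁻¹)⁻¹ = _
      have : (T ^ (i : ℕ) * S)⁻¹ * δ⁻¹ * (γ : SL(2, ℤ)) * ((T ^ (i : ℕ) * S)⁻¹ * δ⁻¹)⁻¹
          = (T ^ (i : ℕ) * S)⁻¹ * (δ⁻¹ * (γ : SL(2, ℤ)) * δ) * (T ^ (i : ℕ) * S) := by group
      rw [this, hk]
      group
    obtain ⟨m, rfl⟩ : (p : ℤ) ∣ k := by
      rw [← conjS_T_zpow_mem_iff, ← e0]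
      exact (η * γ * η⁻¹).2
    have e : γ = η⁻¹ * (UG p) ^ m * η := by
      have e1 : η * γ * η⁻¹ = (UG p) ^ m := by
        apply Subtype.ext
        rw [e0]
        show _ = (S⁻¹ * T ^ (p : ℤ) * S) ^ m
        have := conj_zpow (a := S⁻¹) (b := T ^ (p : ℤ)) (i := m)
        rw [inv_inv] at this
        rw [this, zpow_mul]
      rw [← e1]
      group
    rw [e, chi_conj, ofMul_zpow, map_zsmul, hU, smul_zero]

/-- **[LB-par]** a homomorphism `Γ₀(p) → ℂ` killing `T` is parabolic. -/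
theorem mem_parabolicHoms_of_T (χ : Additive (Gamma0 p) →+ ℂ)
    (h : χ (Additive.ofMul (TG p)) = 0) : χ ∈ parabolicHoms ℂ (Gamma0 p) ℂ := by
  rw [mem_parabolicHoms_iff]
  intro γ hγ
  obtain ⟨δ, hδ⟩ := exists_conj_upper (γ : SL(2, ℤ)) hγ
  obtain ⟨k, hk | hk⟩ := eq_T_zpow_of_c_eq_zero _ hδ
  · exact chi_eq_zero_of_conj_T p χ h γ δ k hk
  · have h1 := chi_eq_zero_of_conj_T p χ h (⟨-1, neg_one_mem_Gamma0 p⟩ * γ) δ k (by
      rw [← hk]
      show δ⁻¹ * (-1 * (γ : SL(2, ℤ))) * δ = _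
      simp)
    rw [ofMul_mul, map_add, chi_neg_one, zero_add] at h1
    exact h1

end prime

end Fermat.Agent.S16Lib
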