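import Fermat.Agent.S16.Basic
import Fermat.Agent.S16.IntQ
import Fermat.Agent.S23.QF
import Fermat.Prelude.Thm_CuspForm_intLattice_fg

/-!
# S16 : a non explicit Sturm bound modulo `D` (finiteness of the integral lattice mod `D`)
-/

set_option autoImplicit false

open UpperHalfPlane hiding I
open CongruenceSubgroup ModularFormClass ModularForm
open scoped MatrixGroups Real Manifold

namespace Fermat.Agent.S16Lib

open Fermat.Agent.S23L

theorem qCoeff_eq_coeff_qx (f : ℍ → ℂ) (n : ℕ) : qCoeff f n = (qx f).coeff n := rfl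

/-- forms with integral coefficients (any weight) -/
def intSubK (N : ℕ) [NeZero N] (k : ℤ) : Submodule ℤ (CuspForm (Gamma0 N) k) where
  carrier := {f | ∀ n : ℕ, ∃ m : ℤ, qCoeff f n = (m : ℂ)}
  add_mem' := by
    intro f g hf hg n
    obtain ⟨a, ha⟩ := hf n
    obtain ⟨b, hb⟩ := hg n
    refine ⟨a + b, ?_⟩
    rw [qCoeff_eq_coeff_qx] at *
    rw [FunLike.coe_add, qx_add (IsQF.of_Gamma0_cusp f) (IsQF.of_Gamma0_cusp g), map_add, ha, hb]
    push_cast; ring
  zero_mem' := by
    intro n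
    refine ⟨0, ?_⟩
    rw [qCoeff_eq_coeff_qx, FunLike.coe_zero, qx_zero]
    simp
  smul_mem' := by
    intro c f hf n
    obtain ⟨a, ha⟩ := hf n
    refine ⟨c * a, ?_⟩
    have : c • f = (c : ℂ) • f := by
      rw [Int.cast_smul_eq_zsmul]
    rw [qCoeff_eq_coeff_qx] at *
    rw [this, FunLike.coe_smul, qx_smul _ (IsQF.of_Gamma0_cusp f)]
    simp [ha]

theorem intLattice_eq_intSubK (N : ℕ) [NeZero N] (k : ℤ) :
    CuspForm.intLattice N k = intSubK N k := by
  unfold CuspForm.intLattice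
  exact Submodule.span_eq (intSubK N k)

/-- the reduction mod `D` of the `q`-expansion -/
noncomputable def redQ (N : ℕ) [NeZero N] (k : ℤ) (D : ℕ) :
    ↥(intSubK N k) →ₗ[ℤ] (ℕ → ZMod D) where
  toFun f n := ((f.2 n).choose : ZMod D)
  map_add' f g := by
    funext n
    have h1 := (f.2 n).choose_spec
    have h2 := (g.2 n).choose_spec
    have h3 := ((f + g).2 n).choose_spec
    have h4 : ((f + g).2 n).choose = (f.2 n).choose + (g.2 n).choose := by
      have : ((((f + g).2 n).choose : ℤ) : ℂ) = (((f.2 n).choose + (g.2 n).choose : ℤ) : ℂ) := by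
        rw [← h3, Int.cast_add, ← h1, ← h2]
        rw [qCoeff_eq_coeff_qx, qCoeff_eq_coeff_qx, qCoeff_eq_coeff_qx, Submodule.coe_add,
          FunLike.coe_add, qx_add (IsQF.of_Gamma0_cusp _) (IsQF.of_Gamma0_cusp _), map_add]
      exact_mod_cast this
    simp only [Pi.add_apply]
    rw [h4]
    push_cast
    rfl
  map_smul' c f := by
    funext n
    have h1 := (f.2 n).choose_spec
    have h3 := ((c • f).2 n).choose_spec
    have h4 : ((c • f).2 n).choose = c * (f.2 n).choose := by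
      have : ((((c • f).2 n).choose : ℤ) : ℂ) = ((c * (f.2 n).choose : ℤ) : ℂ) := by
        rw [← h3, Int.cast_mul, ← h1]
        have h5 : ((c • f : ↥(intSubK N k)) : CuspForm (Gamma0 N) k)
            = (c : ℂ) • (f : CuspForm (Gamma0 N) k) := by
          rw [Int.cast_smul_eq_zsmul]; rfl
        rw [qCoeff_eq_coeff_qx, qCoeff_eq_coeff_qx, h5, FunLike.coe_smul,
          qx_smul _ (IsQF.of_Gamma0_cusp _)]
        simp
      exact_mod_cast this
    simp only [Pi.smul_apply, RingHom.id_apply]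
    rw [h4]
    push_cast
    simp

theorem redQ_apply (N : ℕ) [NeZero N] (k : ℤ) (D : ℕ) (f : ↥(intSubK N k)) (a : ℕ → ℤ)
    (ha : ∀ n, qCoeff (f : CuspForm (Gamma0 N) k) n = (a n : ℂ)) (n : ℕ) :
    redQ N k D f n = (a n : ZMod D) := by
  have h1 := (f.2 n).choose_spec
  have : (f.2 n).choose = a n := by
    have h2 : (((f.2 n).choose : ℤ) : ℂ) = (a n : ℂ) := by rw [← h1, ha]
    exact_mod_cast h2
  change (((f.2 n).choose : ℤ) : ZMod D) = _
  rw [this]

/-- a (non explicit) Sturm bound -/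
theorem exists_sturm (N : ℕ) [NeZero N] (k : ℤ) (D : ℕ) (hD : 0 < D) :
    ∃ B : ℕ, ∀ (h : CuspForm (Gamma0 N) k) (a : ℕ → ℤ), (∀ n, qCoeff h n = (a n : ℂ)) →
      (∀ n < B, (D : ℤ) ∣ a n) → ∀ n, (D : ℤ) ∣ a n := by
  classical
  have : Module.Finite ℤ ↥(intSubK N k) := by
    rw [Module.Finite.iff_fg, ← intLattice_eq_intSubK]
    exact CuspForm.intLattice_fg N k
  have : Module.Finite ℤ ↥(LinearMap.range (redQ N k D)) := Module.Finite.range _
  have htors : Module.IsTorsion ℤ ↥(LinearMap.range (redQ N k D)) := by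
    intro x
    refine ⟨⟨(D : ℤ), mem_nonZeroDivisors_of_ne_zero (by exact_mod_cast hD.ne')⟩, ?_⟩
    ext n
    change ((D : ℤ) • (x : ℕ → ZMod D)) n = 0
    simp
  have : Finite ↥(LinearMap.range (redQ N k D)) := Module.finite_of_fg_torsion _ htors
  let g : ↥(LinearMap.range (redQ N k D)) → ℕ := fun s =>
    if h : (s : ℕ → ZMod D) ≠ 0 then (Function.ne_iff.mp h).choose else 0
  obtain ⟨B, hB⟩ := Finite.bddAbove_range g
  refine ⟨B + 1, fun h a ha hlt n => ?_⟩
  have hmem : h ∈ intSubK N k := fun n => ⟨a n, ha n⟩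
  let s : ↥(LinearMap.range (redQ N k D)) := ⟨redQ N k D ⟨h, hmem⟩, ⟨_, rfl⟩⟩
  have hs : ∀ n, (s : ℕ → ZMod D) n = (a n : ZMod D) := fun n =>
    redQ_apply N k D ⟨h, hmem⟩ a ha n
  by_cases h0 : (s : ℕ → ZMod D) ≠ 0
  · exfalso
    have h1 := (Function.ne_iff.mp h0).choose_spec
    have h2 : g s = (Function.ne_iff.mp h0).choose := dif_pos h0
    have h3 : g s ≤ B := hB ⟨s, rfl⟩
    rw [← h2] at h1
    apply h1
    rw [hs, Pi.zero_apply, ZMod.intCast_zmod_eq_zero_iff_dvd]
    exact hlt _ (by omega)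
  · rw [not_not] at h0
    have := hs n
    rw [h0, Pi.zero_apply] at this
    exact (ZMod.intCast_zmod_eq_zero_iff_dvd _ _).1 this.symm

end Fermat.Agent.S16Lib
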