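import Fermat.Agent.S16.Basic

/-!
# S16 : the operators `vp` (`f(pτ)`) and `sharp` (expansion at the cusp `0`), pointwise lemmas
-/

set_option autoImplicit false
set_option linter.unusedSectionVars false

open UpperHalfPlane hiding I
open CongruenceSubgroup ModularFormClass ModularForm Matrix.SpecialLinearGroup
open scoped MatrixGroups Real Manifold

namespace Fermat.Agent.S16Lib

variable (p : ℕ) [Fact p.Prime]

theorem vp_apply (f : ℍ → ℂ) (τ : ℍ) : vp p f τ = f (heckeDiagMatrix p • τ) := rfl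

theorem sharp_apply (k : ℤ) (f : ℍ → ℂ) (τ : ℍ) :
    sharp p k f τ = (f ∣[k] ModularGroup.S) (heckeDiagMatrix p • τ) := rfl

theorem slash_S_apply (k : ℤ) (f : ℍ → ℂ) (τ : ℍ) :
    (f ∣[k] ModularGroup.S) τ = f (ModularGroup.S • τ) * (τ : ℂ) ^ (-k) := by
  rw [ModularForm.SL_slash_apply]
  congr 2
  simp [UpperHalfPlane.denom, ModularGroup.S]

theorem sharp_add (k : ℤ) (f g : ℍ → ℂ) : sharp p k (f + g) = sharp p k f + sharp p k g := by
  funext τ
  simp [sharp_apply, SlashAction.add_slash]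

theorem sharp_smul (k : ℤ) (c : ℂ) (f : ℍ → ℂ) : sharp p k (c • f) = c • sharp p k f := by
  funext τ
  simp [sharp_apply, slash_S_apply, mul_assoc]

theorem sharp_mul (k₁ k₂ : ℤ) (f g : ℍ → ℂ) :
    sharp p (k₁ + k₂) (f * g) = sharp p k₁ f * sharp p k₂ g := by
  funext τ
  simp [sharp_apply, ModularForm.mul_slash_SL2]

theorem slash_SL_levelOne {k : ℤ} (f : ModularForm 𝒮ℒ k) (γ : SL(2, ℤ)) :
    (f : ℍ → ℂ) ∣[k] γ = f :=
  f.slash_action_eq' _ ⟨γ, rfl⟩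

theorem sharp_levelOne {k : ℤ} (f : ModularForm 𝒮ℒ k) : sharp p k f = vp p f := by
  rw [sharp, slash_SL_levelOne]

theorem coe_S_smul (τ : ℍ) : ((ModularGroup.S • τ : ℍ) : ℂ) = -(τ : ℂ)⁻¹ := by
  rw [UpperHalfPlane.modular_S_smul]
  simp

theorem diag_S_diag_smul (τ : ℍ) :
    heckeDiagMatrix p • (ModularGroup.S • (heckeDiagMatrix p • τ)) = ModularGroup.S • τ := by
  have hp : p ≠ 0 := (Fact.out : p.Prime).ne_zero
  have hp' : (p : ℂ) ≠ 0 := by exact_mod_cast hp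
  apply UpperHalfPlane.ext
  rw [coe_heckeDiagMatrix_smul hp, coe_S_smul, coe_S_smul, coe_heckeDiagMatrix_smul hp]
  have hτ : (τ : ℂ) ≠ 0 := τ.ne_zero
  field_simp

theorem S_S_smul (τ : ℍ) : ModularGroup.S • (ModularGroup.S • τ) = τ := by
  apply UpperHalfPlane.ext
  rw [coe_S_smul, coe_S_smul]
  simp

theorem sharp_vp {k : ℤ} (f : ModularForm 𝒮ℒ k) :
    sharp p k (vp p f) = ((p : ℂ) ^ (-k)) • (f : ℍ → ℂ) := by
  have hp : p ≠ 0 := (Fact.out : p.Prime).ne_zero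
  have hp' : (p : ℂ) ≠ 0 := by exact_mod_cast hp
  funext τ
  have hτ : (τ : ℂ) ≠ 0 := τ.ne_zero
  rw [sharp_apply, slash_S_apply, vp_apply, diag_S_diag_smul, coe_heckeDiagMatrix_smul hp]
  have h1 : (f : ℍ → ℂ) τ = f (ModularGroup.S • τ) * (τ : ℂ) ^ (-k) := by
    rw [← slash_S_apply, slash_SL_levelOne]
  rw [Pi.smul_apply, smul_eq_mul, h1, mul_zpow]
  ring

theorem sharp_sharp {k : ℤ} (hk : Even k) (f : ℍ → ℂ) :
    sharp p k (sharp p k f) = ((p : ℂ) ^ (-k)) • f := by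
  have hp : p ≠ 0 := (Fact.out : p.Prime).ne_zero
  have hp' : (p : ℂ) ≠ 0 := by exact_mod_cast hp
  funext τ
  have hτ : (τ : ℂ) ≠ 0 := τ.ne_zero
  rw [sharp_apply, slash_S_apply, sharp_apply, diag_S_diag_smul, slash_S_apply, S_S_smul,
    coe_heckeDiagMatrix_smul hp, coe_S_smul, Pi.smul_apply, smul_eq_mul, mul_assoc, ← mul_zpow]
  have : -(τ : ℂ)⁻¹ * ((p : ℂ) * τ) = -(p : ℂ) := by field_simp
  rw [this, Even.neg_zpow hk.neg]
  ring

end Fermat.Agent.S16Lib
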