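import Fermat.Agent.S16.Cong
import Fermat.Prelude.Thm_ModularFormClass_qCoeff_heckeT
import Fermat.Prelude.Thm_ModularForm_sturm_bound_Gamma0

/-!
# S16 : `Δ` is a Hecke eigenform
-/

set_option autoImplicit false

open UpperHalfPlane hiding I
open CongruenceSubgroup ModularFormClass ModularForm
open scoped MatrixGroups Real Manifold

namespace Fermat.Agent.S16Lib

open Fermat.Agent.S23L

theorem Gamma0_one_index : (Gamma0 1).index = 1 := by
  have : Gamma0 1 = ⊤ := by
    ext γ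
    simp only [Gamma0_mem, Subgroup.mem_top, iff_true]
    exact Subsingleton.elim _ _
  rw [this, Subgroup.index_top]

/-- `τ(n r) + r¹¹ τ(n / r) = τ(r) τ(n)` -/
theorem tau_hecke (r : ℕ) (hr : r.Prime) (n : ℕ) :
    PowerSeries.coeff (n * r) deltaZ +
      (if r ∣ n then (r : ℤ) ^ 11 * PowerSeries.coeff (n / r) deltaZ else 0) =
      PowerSeries.coeff r deltaZ * PowerSeries.coeff n deltaZ := by
  have h1 : ¬ r ∣ 1 := fun h => hr.one_lt.ne' (Nat.dvd_one.1 h)
  let Dl : CuspForm (Gamma0 1) 12 := resCF 1 CuspForm.discriminant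
  let TD : CuspForm (Gamma0 1) 12 := CuspForm.heckeTLin 12 hr h1 Dl
  let X : ModularForm (Gamma0 1) 12 :=
    cuspToMF (TD - ((PowerSeries.coeff r deltaZ : ℤ) : ℂ) • Dl)
  have hqD : qx Dl = iq deltaZ := qExpansion_discriminant
  have hqTD : ∀ n, (qx TD).coeff n = ((PowerSeries.coeff (n * r) deltaZ +
      (if r ∣ n then (r : ℤ) ^ 11 * PowerSeries.coeff (n / r) deltaZ else 0) : ℤ) : ℂ) := by
    intro n
    rw [← qCoeff_eq_coeff_qx, CuspForm.coe_heckeTLin_apply,
      ModularFormClass.qCoeff_heckeT Dl (one_mem_strictPeriods_Gamma0 1) hr.ne_zero n,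
      ModularForm.coeffHeckeT_apply, qCoeff_eq_coeff_qx, qCoeff_eq_coeff_qx, hqD]
    simp only [PowerSeries.coeff_map]
    split_ifs <;> norm_num
  have hqX : ∀ n, (qx X).coeff n = ((PowerSeries.coeff (n * r) deltaZ +
      (if r ∣ n then (r : ℤ) ^ 11 * PowerSeries.coeff (n / r) deltaZ else 0) -
      PowerSeries.coeff r deltaZ * PowerSeries.coeff n deltaZ : ℤ) : ℂ) := by
    intro n
    have : (⇑X : ℍ → ℂ) = ⇑TD - ((PowerSeries.coeff r deltaZ : ℤ) : ℂ) • ⇑Dl := rfl
    rw [this, qx_sub (IsQF.of_Gamma0_cusp TD) ((IsQF.of_Gamma0_cusp Dl).smul _),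
      qx_smul _ (IsQF.of_Gamma0_cusp Dl), map_sub, hqTD, hqD, Int.cast_sub]
    simp
  have hX : X = 0 := by
    apply ModularForm.sturm_bound_Gamma0 1 X
    intro m hm
    rw [Gamma0_one_index] at hm
    have hm1 : m ≤ 1 := by simpa using hm
    change (qx X).coeff m = 0
    rw [hqX]
    interval_cases m
    · simp [coeff_zero_deltaZ]
    · simp [coeff_one_deltaZ, h1]
  have := hqX n
  rw [hX] at this
  have h0 : (qx (⇑(0 : ModularForm (Gamma0 1) 12))).coeff n = 0 := by
    rw [FunLike.coe_zero, qx_zero]; simp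
  rw [h0] at this
  have h2 : (PowerSeries.coeff (n * r) deltaZ +
      (if r ∣ n then (r : ℤ) ^ 11 * PowerSeries.coeff (n / r) deltaZ else 0) -
      PowerSeries.coeff r deltaZ * PowerSeries.coeff n deltaZ : ℤ) = 0 := by exact_mod_cast this.symm
  linarith

end Fermat.Agent.S16Lib
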