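import Fermat.Agent.S16.Cong
import Fermat.Prelude.Thm_ModularFormClass_qCoeff_heckeT

/-!
# S16 : [UB1]  `M ∣ p - 1`
-/

set_option autoImplicit false

open UpperHalfPlane hiding I
open CongruenceSubgroup ModularFormClass ModularForm
open scoped MatrixGroups Real Manifold

namespace Fermat.Agent.S16Lib

open Fermat.Agent.S23L

theorem ub1_arith (M m B : ℕ)
    (h : ∀ r : ℕ, r.Prime → B < r → (24 * M : ℤ) ∣ (m : ℤ) * ((r : ℤ) ^ 13 - (r : ℤ) ^ 11)) :
    M ∣ m := by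
  rw [Nat.dvd_iff_prime_pow_dvd_dvd]
  intro ℓ k hℓ hk
  have hℓZ : Prime (ℓ : ℤ) := Nat.prime_iff_prime_int.mp hℓ
  have hkZ : ((ℓ : ℤ) ^ k) ∣ (M : ℤ) := by exact_mod_cast hk
  -- reduction to a coprimality statement
  have key : ∀ c : ℤ, ¬ (ℓ : ℤ) ∣ c → ((ℓ : ℤ) ^ k) ∣ (m : ℤ) * c → ℓ ^ k ∣ m := by
    intro c hc hd
    have h1 : IsCoprime ((ℓ : ℤ) ^ k) c :=
      IsCoprime.pow_left ((Prime.coprime_iff_not_dvd hℓZ).2 hc)
    have := h1.dvd_of_dvd_mul_right hd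
    exact_mod_cast this
  by_cases h2 : ℓ = 2
  · subst h2
    obtain ⟨r, hrB, hr, hmod⟩ := Nat.forall_exists_prime_gt_and_modEq B (q := 16) (a := 3)
      (by norm_num) (by norm_num)
    have h3 := h r hr hrB
    obtain ⟨s, hs⟩ : ∃ s : ℤ, (r : ℤ) = 3 + 16 * s := by
      have : r % 16 = 3 := hmod
      exact ⟨(r / 16 : ℕ), by push_cast; omega⟩
    apply key ((r : ℤ) ^ 11 * ((1 + 8 * s) * (1 + 4 * s)))
    · intro hd
      rcases hℓZ.dvd_or_dvd hd with hd | hd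
      · have := hℓZ.dvd_of_dvd_pow hd
        push_cast at this
        omega
      · rcases hℓZ.dvd_or_dvd hd with hd | hd <;> (push_cast at hd; omega)
    · have h4 : (8 : ℤ) * ((2 : ℕ) : ℤ) ^ k ∣ 24 * M := by
        obtain ⟨t, ht⟩ := hkZ
        exact ⟨3 * t, by rw [ht]; ring⟩
      have h5 := h4.trans h3
      have h6 : (m : ℤ) * ((r : ℤ) ^ 13 - (r : ℤ) ^ 11)
          = 8 * ((m : ℤ) * ((r : ℤ) ^ 11 * ((1 + 8 * s) * (1 + 4 * s)))) := by
        have : (r : ℤ) ^ 13 - (r : ℤ) ^ 11 = (r : ℤ) ^ 11 * (((r : ℤ) - 1) * ((r : ℤ) + 1)) := by ring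
        rw [this]
        nth_rewrite 2 [hs]
        nth_rewrite 2 [hs]
        ring
      rw [h6] at h5
      exact (mul_dvd_mul_iff_left (by norm_num)).1 h5
  by_cases h3' : ℓ = 3
  · subst h3'
    obtain ⟨r, hrB, hr, hmod⟩ := Nat.forall_exists_prime_gt_and_modEq B (q := 9) (a := 2)
      (by norm_num) (by norm_num)
    have h3 := h r hr hrB
    obtain ⟨s, hs⟩ : ∃ s : ℤ, (r : ℤ) = 2 + 9 * s := by
      have : r % 9 = 2 := hmod
      exact ⟨(r / 9 : ℕ), by push_cast; omega⟩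
    apply key ((r : ℤ) ^ 11 * ((1 + 9 * s) * (1 + 3 * s)))
    · intro hd
      rcases hℓZ.dvd_or_dvd hd with hd | hd
      · have := hℓZ.dvd_of_dvd_pow hd
        push_cast at this
        omega
      · rcases hℓZ.dvd_or_dvd hd with hd | hd <;> (push_cast at hd; omega)
    · have h4 : (3 : ℤ) * ((3 : ℕ) : ℤ) ^ k ∣ 24 * M := by
        obtain ⟨t, ht⟩ := hkZ
        exact ⟨8 * t, by rw [ht]; ring⟩
      have h5 := h4.trans h3
      have h6 : (m : ℤ) * ((r : ℤ) ^ 13 - (r : ℤ) ^ 11)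
          = 3 * ((m : ℤ) * ((r : ℤ) ^ 11 * ((1 + 9 * s) * (1 + 3 * s)))) := by
        have : (r : ℤ) ^ 13 - (r : ℤ) ^ 11 = (r : ℤ) ^ 11 * (((r : ℤ) - 1) * ((r : ℤ) + 1)) := by ring
        rw [this]
        nth_rewrite 2 [hs]
        nth_rewrite 2 [hs]
        ring
      rw [h6] at h5
      exact (mul_dvd_mul_iff_left (by norm_num)).1 h5
  · have hℓ5 : 5 ≤ ℓ := by
      have := hℓ.two_le
      by_contra hlt
      have : ℓ = 4 := by omega
      subst this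
      norm_num at hℓ
    obtain ⟨r, hrB, hr, hmod⟩ := Nat.forall_exists_prime_gt_and_modEq B (q := ℓ) (a := 2)
      hℓ.ne_zero ((Nat.coprime_primes Nat.prime_two hℓ).2 (Ne.symm h2))
    have h3 := h r hr hrB
    obtain ⟨s, hs⟩ : ∃ s : ℤ, (r : ℤ) = 2 + ℓ * s := by
      have h7 : (ℓ : ℤ) ∣ (r : ℤ) - 2 := by
        have := (Nat.modEq_iff_dvd.1 hmod.symm)
        simpa using this
      obtain ⟨s, hs⟩ := h7
      exact ⟨s, by linarith⟩
    apply key ((r : ℤ) ^ 13 - (r : ℤ) ^ 11)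
    · intro hd
      have : (r : ℤ) ^ 13 - (r : ℤ) ^ 11 = (r : ℤ) ^ 11 * ((r : ℤ) ^ 2 - 1) := by ring
      rw [this] at hd
      rcases hℓZ.dvd_or_dvd hd with hd | hd
      · have := hℓZ.dvd_of_dvd_pow hd
        rw [hs] at this
        have h8 : (ℓ : ℤ) ∣ 2 := (Int.dvd_add_left (Dvd.intro _ rfl)).1 this
        have := Int.le_of_dvd (by norm_num) h8
        omega
      · have h9 : (r : ℤ) ^ 2 - 1 = 3 + ℓ * (4 * s + ℓ * s ^ 2) := by rw [hs]; ring
        rw [h9] at hd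
        have h8 : (ℓ : ℤ) ∣ 3 := (Int.dvd_add_left (Dvd.intro _ rfl)).1 hd
        have := Int.le_of_dvd (by norm_num) h8
        omega
    · exact (hkZ.trans (Dvd.intro_left _ rfl)).trans h3

variable (p : ℕ) [Fact p.Prime]

theorem ub1_core (E : ModularForm (Gamma0 p) 2) (hE0 : qCoeff E 0 = ((p : ℂ) - 1) / 24)
    (hEk : ∀ k, 1 ≤ k → qCoeff E k = (sig p k : ℂ)) (M : ℕ) (hM : 0 < M)
    (f : CuspForm (Gamma0 p) 2) (hf : IsEisCongr p M f) :
    ∃ B : ℕ, ∀ r : ℕ, r.Prime → B < r →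
      (24 * M : ℤ) ∣ ((p - 1 : ℕ) : ℤ) * ((r : ℤ) ^ 13 - (r : ℤ) ^ 11) := by
  have hp : p.Prime := Fact.out
  obtain ⟨A, hA⟩ := exists_gZ p E hE0 hEk M f hf
  set gZ : PowerSeries ℤ := PowerSeries.C ((p : ℤ) - 1) + PowerSeries.C (24 * M : ℤ) * A with hgZ
  obtain ⟨B, hB⟩ := exists_sturm p (2 + 12) (24 * M) (by positivity)
  refine ⟨max B p, fun r hr hrB => ?_⟩
  have hrp : ¬ r ∣ p := fun h => by
    have := Nat.le_of_dvd hp.pos h
    have := le_max_right B p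
    omega
  have hrB' : B < r := lt_of_le_of_lt (le_max_left _ _) hrB
  let Gm : ModularForm (Gamma0 p) 2 := (24 : ℂ) • (E - cuspToMF f)
  have hGm : (⇑Gm : ℍ → ℂ) = (24 : ℂ) • ((⇑E : ℍ → ℂ) - ⇑f) := rfl
  let Dl : CuspForm (Gamma0 p) 12 := resCF p CuspForm.discriminant
  let K : CuspForm (Gamma0 p) (2 + 12) := mulCF Gm Dl
  let TD : CuspForm (Gamma0 p) 12 := CuspForm.heckeTLin 12 hr hrp Dl
  let H : CuspForm (Gamma0 p) (2 + 12) := CuspForm.heckeTLin (2 + 12) hr hrp K - mulCF Gm TD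
  have hqD : qx Dl = iq deltaZ := qExpansion_discriminant
  have hqG : qx Gm = iq gZ := by rw [hGm, hA]
  have hqK : qx K = iq (gZ * deltaZ) := by
    rw [coe_mulCF, qx_mul (IsQF.of_Gamma0 Gm) (IsQF.of_Gamma0_cusp Dl), hqG, hqD, map_mul]
  let tZ : PowerSeries ℤ := PowerSeries.mk fun n =>
    PowerSeries.coeff (n * r) deltaZ + if r ∣ n then (r : ℤ) ^ 11 * PowerSeries.coeff (n / r) deltaZ else 0
  have hqTD : qx TD = iq tZ := by
    ext n
    rw [← qCoeff_eq_coeff_qx, CuspForm.coe_heckeTLin_apply,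
      ModularFormClass.qCoeff_heckeT Dl (one_mem_strictPeriods_Gamma0 p) hr.ne_zero n,
      ModularForm.coeffHeckeT_apply, qCoeff_eq_coeff_qx, qCoeff_eq_coeff_qx, hqD]
    simp only [PowerSeries.coeff_map, tZ, PowerSeries.coeff_mk]
    split_ifs <;> norm_num
  let a : ℕ → ℤ := fun n =>
    PowerSeries.coeff (n * r) (gZ * deltaZ) +
      (if r ∣ n then (r : ℤ) ^ 13 * PowerSeries.coeff (n / r) (gZ * deltaZ) else 0) -
      PowerSeries.coeff n (gZ * tZ)
  have ha : ∀ n, qCoeff H n = (a n : ℂ) := by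
    intro n
    have h1 : qCoeff (CuspForm.heckeTLin (2 + 12) hr hrp K) n =
        ((PowerSeries.coeff (n * r) (gZ * deltaZ) +
      (if r ∣ n then (r : ℤ) ^ 13 * PowerSeries.coeff (n / r) (gZ * deltaZ) else 0) : ℤ) : ℂ) := by
      rw [CuspForm.coe_heckeTLin_apply,
        ModularFormClass.qCoeff_heckeT K (one_mem_strictPeriods_Gamma0 p) hr.ne_zero n,
        ModularForm.coeffHeckeT_apply, qCoeff_eq_coeff_qx, qCoeff_eq_coeff_qx, hqK]
      simp only [PowerSeries.coeff_map]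
      split_ifs <;> norm_num
    have h2 : qCoeff (mulCF Gm TD) n = ((PowerSeries.coeff n (gZ * tZ) : ℤ) : ℂ) := by
      rw [qCoeff_eq_coeff_qx, coe_mulCF, qx_mul (IsQF.of_Gamma0 Gm) (IsQF.of_Gamma0_cusp TD),
        hqG, hqTD, ← map_mul, PowerSeries.coeff_map]
      rfl
    have h3 : qCoeff H n = qCoeff (CuspForm.heckeTLin (2 + 12) hr hrp K) n
        - qCoeff (mulCF Gm TD) n := by
      rw [qCoeff_eq_coeff_qx, qCoeff_eq_coeff_qx, qCoeff_eq_coeff_qx, ← map_sub,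
        ← qx_sub (IsQF.of_Gamma0_cusp _) (IsQF.of_Gamma0_cusp _)]
      rfl
    rw [h3, h1, h2, ← Int.cast_sub]
  -- reduction mod `24 M`
  have hred0 : ∀ (X : PowerSeries ℤ) (n : ℕ), ((PowerSeries.coeff n (gZ * X) : ℤ) : ZMod (24 * M))
      = (((p : ℤ) - 1 : ℤ) : ZMod (24 * M)) * ((PowerSeries.coeff n X : ℤ) : ZMod (24 * M)) := by
    intro X n
    rw [hgZ, add_mul, map_add, PowerSeries.coeff_C_mul, mul_assoc, PowerSeries.coeff_C_mul]
    push_cast
    have : ((24 : ZMod (24 * M)) * (M : ZMod (24 * M))) = 0 := by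
      have := ZMod.natCast_self (24 * M)
      push_cast at this
      exact this
    rw [this]
    ring
  have hred : ∀ n, ((a n : ℤ) : ZMod (24 * M)) = if r ∣ n then
      ((((p : ℤ) - 1) * ((r : ℤ) ^ 13 - (r : ℤ) ^ 11) * PowerSeries.coeff (n / r) deltaZ : ℤ) :
        ZMod (24 * M)) else 0 := by
    intro n
    simp only [a]
    rw [Int.cast_sub, Int.cast_add, hred0, hred0]
    simp only [tZ, PowerSeries.coeff_mk]
    split_ifs with h
    · rw [Int.cast_mul, hred0]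
      push_cast
      ring
    · push_cast
      ring
  have hlt : ∀ n < B, ((24 * M : ℕ) : ℤ) ∣ a n := by
    intro n hn
    rw [← ZMod.intCast_zmod_eq_zero_iff_dvd, hred]
    split_ifs with h
    · have hn0 : n = 0 := Nat.eq_zero_of_dvd_of_lt h (by omega)
      subst hn0
      simp [coeff_zero_deltaZ]
    · rfl
  have hfin := hB H a ha hlt r
  rw [← ZMod.intCast_zmod_eq_zero_iff_dvd, hred, if_pos dvd_rfl, Nat.div_self hr.pos,
    coeff_one_deltaZ, mul_one, ZMod.intCast_zmod_eq_zero_iff_dvd] at hfin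
  have h1p : ((p - 1 : ℕ) : ℤ) = (p : ℤ) - 1 := by
    have := hp.one_le
    push_cast [this]
    rfl
  rw [h1p]
  exact_mod_cast hfin

theorem IsEisCongr.of_dvd {p M M' : ℕ} {f : CuspForm (Gamma0 p) 2} (hf : IsEisCongr p M f)
    (h : M' ∣ M) : IsEisCongr p M' f := by
  intro k hk
  obtain ⟨c, hc, hd⟩ := hf k hk
  exact ⟨c, hc, (Int.natCast_dvd_natCast.2 h).trans hd⟩

/-- [UB1], with the Eisenstein series as a hypothesis -/
theorem ub1_of_eis (E : ModularForm (Gamma0 p) 2) (hE0 : qCoeff E 0 = ((p : ℂ) - 1) / 24)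
    (hEk : ∀ k, 1 ≤ k → qCoeff E k = (sig p k : ℂ)) (M : ℕ)
    (f : CuspForm (Gamma0 p) 2) (hf : IsEisCongr p M f) : M ∣ p - 1 := by
  have hp : p.Prime := Fact.out
  have main : ∀ M' : ℕ, 0 < M' → IsEisCongr p M' f → M' ∣ p - 1 := by
    intro M' hM' hf'
    obtain ⟨B, hB⟩ := ub1_core p E hE0 hEk M' hM' f hf'
    exact ub1_arith M' (p - 1) B hB
  rcases Nat.eq_zero_or_pos M with rfl | hM
  · exfalso
    have h1 := main p hp.pos (hf.of_dvd (dvd_zero p))
    have h2 := Nat.le_of_dvd (by have := hp.two_le; omega) h1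
    have := hp.two_le
    omega
  · exact main M hM hf

end Fermat.Agent.S16Lib
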