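import Mathlib

/-!
# S16 : the formal operator `U_p` on power series
-/

set_option autoImplicit false

open PowerSeries

namespace Fermat.Agent.S16Lib

variable {B : Type*} [CommRing B]

/-- the formal `U_p` operator : `∑ a_n X^n ↦ ∑ a_{np} X^n` -/
noncomputable def upS (p : ℕ) (A : B⟦X⟧) : B⟦X⟧ := PowerSeries.mk fun n => coeff (n * p) A

@[simp] theorem coeff_upS (p : ℕ) (A : B⟦X⟧) (n : ℕ) : coeff n (upS p A) = coeff (n * p) A := by
  simp [upS]

theorem upS_add (p : ℕ) (A A' : B⟦X⟧) : upS p (A + A') = upS p A + upS p A' := by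
  ext n; simp

theorem upS_neg (p : ℕ) (A : B⟦X⟧) : upS p (-A) = -upS p A := by
  ext n; simp

theorem upS_C_mul (p : ℕ) (c : B) (A : B⟦X⟧) : upS p (C c * A) = C c * upS p A := by
  ext n; simp

theorem upS_one (p : ℕ) (hp : p ≠ 0) : upS p (1 : B⟦X⟧) = 1 := by
  ext n
  simp [coeff_one, hp]

theorem map_upS {B' : Type*} [CommRing B'] (φ : B →+* B') (p : ℕ) (A : B⟦X⟧) :
    PowerSeries.map φ (upS p A) = upS p (PowerSeries.map φ A) := by
  ext n; simp

theorem constantCoeff_upS (p : ℕ) (A : B⟦X⟧) : constantCoeff (upS p A) = constantCoeff A := by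
  rw [← coeff_zero_eq_constantCoeff_apply, coeff_upS, zero_mul, coeff_zero_eq_constantCoeff_apply]

/-- the projection formula -/
theorem upS_expand_mul (p : ℕ) (hp : p ≠ 0) (A A' : B⟦X⟧) :
    upS p (expand p hp A * A') = A * upS p A' := by
  ext n
  rw [coeff_upS, coeff_mul, coeff_mul]
  symm
  refine Finset.sum_of_injOn (fun x => (x.1 * p, x.2 * p)) ?_ ?_ ?_ ?_
  · rintro ⟨a, b⟩ - ⟨c, d⟩ - h
    simp only [Prod.mk.injEq] at h
    have hp' : 0 < p := Nat.pos_of_ne_zero hp
    exact Prod.ext (Nat.eq_of_mul_eq_mul_right hp' h.1) (Nat.eq_of_mul_eq_mul_right hp' h.2)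
  · rintro ⟨a, b⟩ h
    simp only [Finset.mem_coe, Finset.HasAntidiagonal.mem_antidiagonal] at h ⊢
    rw [← h]; ring
  · rintro ⟨i, j⟩ h h'
    simp only [Finset.HasAntidiagonal.mem_antidiagonal] at h
    by_cases hi : p ∣ i
    · exfalso
      obtain ⟨i', rfl⟩ := hi
      have hj : p ∣ j := by
        have : p ∣ p * i' + j := by rw [h]; exact Dvd.intro_left n rfl
        exact (Nat.dvd_add_right (Dvd.intro i' rfl)).1 this
      obtain ⟨j', rfl⟩ := hj
      apply h'
      refine ⟨(i', j'), ?_, ?_⟩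
      · simp only [Finset.mem_coe, Finset.HasAntidiagonal.mem_antidiagonal]
        have hp' : 0 < p := Nat.pos_of_ne_zero hp
        apply Nat.eq_of_mul_eq_mul_right hp'
        rw [← h]; ring
      · simp [mul_comm]
    · rw [coeff_expand_of_not_dvd p hp _ hi, zero_mul]
  · rintro ⟨a, b⟩ -
    simp only [coeff_upS]
    rw [mul_comm a p, coeff_expand_mul]

theorem upS_X_pow_mul (p : ℕ) (hp : p ≠ 0) (A : B⟦X⟧) : upS p (X ^ p * A) = X * upS p A := by
  rw [← expand_X p hp, upS_expand_mul]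

/-- the formal computation at the heart of UB3 -/
theorem ub3_formal (p a : ℕ) (hp : 2 ≤ p) (hp0 : p ≠ 0) (η : B⟦X⟧) (hη : constantCoeff η = 1) :
    ∃ C' : B⟦X⟧, constantCoeff C' = 1 ∧
      (X * η) ^ a * (expand p hp0 (X * η)) ^ p + upS p ((expand p hp0 (X * η)) ^ a * (X * η) ^ p)
        = X ^ (a + 1) * C' := by
  refine ⟨η ^ a * (X ^ (p * p - 1) * (expand p hp0 η) ^ p + upS p (η ^ p)), ?_, ?_⟩
  · have h1 : p * p - 1 ≠ 0 := by
      have : 4 ≤ p * p := by nlinarith
      omega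
    simp [hη, constantCoeff_upS, h1]
  · rw [← map_pow (expand p hp0) (X * η) a, upS_expand_mul, mul_pow X η p, upS_X_pow_mul p hp0,
      map_mul, expand_X]
    have h2 : (X : B⟦X⟧) ^ (p * p) = X * X ^ (p * p - 1) := by
      rw [← pow_succ']
      congr 1
      have : 4 ≤ p * p := by nlinarith
      omega
    rw [mul_pow (X ^ p) _ p, ← pow_mul, h2]
    ring

end Fermat.Agent.S16Lib
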