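import Fermat.Agent.S16.IntQ
import Fermat.Agent.S16.Drop
import Fermat.Agent.S16.UpS

/-!
# S16 [UB3] : the formal part (power series over `ℤ`)
-/

set_option autoImplicit false

open PowerSeries

namespace Fermat.Agent.S16Lib

theorem ub3_two_mul_cancel (x : ℤ⟦X⟧) (h : 2 * x = 0) : x = 0 := by
  rcases mul_eq_zero.1 h with h | h
  · exfalso
    have := congrArg (coeff 0) h
    rw [← map_ofNat (C (R := ℤ)) 2, coeff_zero_C, map_zero] at this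
    exact absurd this (by norm_num)
  · exact h

/-- reduction mod 2 -/
noncomputable abbrev red2 : ℤ⟦X⟧ →+* (ZMod 2)⟦X⟧ := PowerSeries.map (Int.castRingHom (ZMod 2))

theorem ub3_two_eq_zero : (2 : (ZMod 2)⟦X⟧) = 0 := by
  rw [← map_ofNat (C (R := ZMod 2)) 2]
  have : (OfNat.ofNat 2 : ZMod 2) = 0 := by decide
  rw [this, map_zero]

theorem ub3_dvd_coeff_iff (P : ℤ⟦X⟧) (n : ℕ) : (2 : ℤ) ∣ coeff n P ↔ coeff n (red2 P) = 0 := by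
  rw [coeff_map]
  exact (ZMod.intCast_zmod_eq_zero_iff_dvd (coeff n P) 2).symm

theorem ub3_red2_eq {A A' Z : ℤ⟦X⟧} (h : A - A' = 2 * Z) : red2 A = red2 A' := by
  have := congrArg red2 h
  rw [map_sub, map_mul, map_ofNat, ub3_two_eq_zero, zero_mul] at this
  exact sub_eq_zero.1 this

theorem ub3_red2_natCast (p : ℕ) (hp : p % 2 = 1) : ((p : ℕ) : (ZMod 2)⟦X⟧) = 1 := by
  obtain ⟨s, rfl⟩ : ∃ s, p = 2 * s + 1 := ⟨p / 2, by omega⟩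
  push_cast
  rw [ub3_two_eq_zero, zero_mul, zero_add]

/-- the parity computation -/
theorem ub3_parity (p : ℕ) (hp : p % 2 = 1) (hp2 : 2 ≤ p) (hp0 : p ≠ 0) (a N : ℕ)
    (W W' Z Z' : ℤ⟦X⟧) (hW : W - deltaZ = 2 * Z)
    (hW' : W' - (p : ℤ⟦X⟧) ^ 6 * expand p hp0 deltaZ = 2 * Z') :
    (∀ n ≤ a, (2 : ℤ) ∣ coeff n ((p : ℤ⟦X⟧) ^ N * (W ^ a * (expand p hp0 deltaZ) ^ p)
        + upS p (W' ^ a * deltaZ ^ p))) ∧
    ¬ (2 : ℤ) ∣ coeff (a + 1) ((p : ℤ⟦X⟧) ^ N * (W ^ a * (expand p hp0 deltaZ) ^ p)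
        + upS p (W' ^ a * deltaZ ^ p)) := by
  have hη : constantCoeff (red2 ModularCurve.dedekindEtaUnit) = 1 := by
    rw [← coeff_zero_eq_constantCoeff_apply, coeff_map, coeff_zero_eq_constantCoeff_apply,
      ModularCurve.constantCoeff_dedekindEtaUnit]
    simp
  obtain ⟨C', hC', hC⟩ := ub3_formal p a hp2 hp0 _ hη
  have hδ : red2 deltaZ = X * red2 ModularCurve.dedekindEtaUnit := by
    rw [deltaZ, map_mul, map_X]
  have key : red2 ((p : ℤ⟦X⟧) ^ N * (W ^ a * (expand p hp0 deltaZ) ^ p)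
        + upS p (W' ^ a * deltaZ ^ p)) = X ^ (a + 1) * C' := by
    rw [← hC, map_add, map_mul, map_mul, map_pow, map_pow, map_pow, map_natCast,
      ub3_red2_natCast p hp, one_pow, one_mul, map_upS, map_mul, map_pow, map_pow,
      ub3_red2_eq hW, ub3_red2_eq hW', map_mul, map_pow, map_natCast, ub3_red2_natCast p hp,
      one_pow, one_mul, map_expand, hδ]
  constructor
  · intro n hn
    rw [ub3_dvd_coeff_iff, key, coeff_X_pow_mul', if_neg (by omega)]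
  · rw [ub3_dvd_coeff_iff, key, coeff_X_pow_mul', if_pos le_rfl, Nat.sub_self,
      coeff_zero_eq_constantCoeff_apply, hC']
    exact one_ne_zero

/-- the two filtration drops -/
theorem ub3_drops (p : ℕ) (hp : p % 8 = 7) (hp0 : p ≠ 0) (F A : ℤ⟦X⟧) (hF : F = 1 + 8 * A) :
    ∃ W W' Z Z' : ℤ⟦X⟧,
      256 * W = e4Z ^ 2 + 10 * F ^ 2 * e4Z - 8 * F * e6Z - 3 * F ^ 4 ∧
      256 * W' = ((p : ℤ⟦X⟧) ^ 2 * expand p hp0 e4Z) ^ 2
          + 10 * (-upS p F) ^ 2 * ((p : ℤ⟦X⟧) ^ 2 * expand p hp0 e4Z)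
          - 8 * (-upS p F) * ((p : ℤ⟦X⟧) ^ 3 * expand p hp0 e6Z) - 3 * (-upS p F) ^ 4 ∧
      W - deltaZ = 2 * Z ∧ W' - (p : ℤ⟦X⟧) ^ 6 * expand p hp0 deltaZ = 2 * Z' := by
  obtain ⟨A4, h4⟩ := e4Z_eq
  obtain ⟨A6, h6⟩ := e6Z_eq
  obtain ⟨W, Z, hW, hZ⟩ := drop_identity ub3_two_mul_cancel (F := F) (Q := e4Z) (R := e6Z)
    (Dl := deltaZ) (D := A + 30 * (X * A4) + 240 * A * (X * A4) + 63 * (X * A6))
    (D' := A + 4 * A ^ 2 - 15 * (X * A4)) (e := 4 * A + 16 * A ^ 2)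
    e4Z_cube_sub_e6Z_sq (by rw [hF, h4, h6]; ring) (by rw [hF, h4]; ring) (by rw [hF]; ring)
  obtain ⟨t, ht⟩ : ∃ t, p = 8 * t + 7 := ⟨p / 8, by omega⟩
  have hpc : (p : ℤ⟦X⟧) = 8 * (t : ℤ⟦X⟧) + 7 := by rw [ht]; push_cast; ring
  have hU : upS p F = 1 + 8 * upS p A := by
    rw [hF, upS_add, upS_one p hp0, ← map_ofNat (C (R := ℤ)) 8, upS_C_mul]
  have h4' : expand p hp0 e4Z = 1 + 240 * expand p hp0 (X * A4) := by
    rw [h4, map_add, map_one, map_mul, map_ofNat]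
  have h6' : expand p hp0 e6Z = 1 - 504 * expand p hp0 (X * A6) := by
    rw [h6, map_sub, map_one, map_mul, map_ofNat]
  have hQR : ((p : ℤ⟦X⟧) ^ 2 * expand p hp0 e4Z) ^ 3 - ((p : ℤ⟦X⟧) ^ 3 * expand p hp0 e6Z) ^ 2
      = 1728 * ((p : ℤ⟦X⟧) ^ 6 * expand p hp0 deltaZ) := by
    have := congrArg (expand p hp0) e4Z_cube_sub_e6Z_sq
    rw [map_sub, map_pow, map_pow, map_mul, map_ofNat] at this
    linear_combination (p : ℤ⟦X⟧) ^ 6 * this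
  set a := upS p A
  set b := expand p hp0 (X * A4)
  set c := expand p hp0 (X * A6)
  obtain ⟨W', Z', hW', hZ'⟩ := drop_identity ub3_two_mul_cancel (F := -upS p F)
    (Q := (p : ℤ⟦X⟧) ^ 2 * expand p hp0 e4Z) (R := (p : ℤ⟦X⟧) ^ 3 * expand p hp0 e6Z)
    (Dl := (p : ℤ⟦X⟧) ^ 6 * expand p hp0 deltaZ)
    (D := -(p : ℤ⟦X⟧) ^ 2 * (t + 1) - a * (p : ℤ⟦X⟧) ^ 2 * (1 + 240 * b)
      - 30 * (p : ℤ⟦X⟧) ^ 2 * b + 63 * (p : ℤ⟦X⟧) ^ 3 * c)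
    (D' := -(4 * (t : ℤ⟦X⟧) + 3) * (t + 1) + a + 4 * a ^ 2 - 15 * (p : ℤ⟦X⟧) ^ 2 * b)
    (e := 4 * a + 16 * a ^ 2)
    hQR (by rw [hU, h4', h6', hpc]; ring) (by rw [hU, h4', hpc]; ring) (by rw [hU]; ring)
  exact ⟨W, W', Z, Z', hW, hW', hZ, hZ'⟩

end Fermat.Agent.S16Lib
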